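import Mathlib
import Fermat.Agent.S55.Abs.Bridge
import Fermat.Agent.S56.TangentAd

/-!
# S56, SEL junction: the class map from the tangent subspace to level cohomology

(helper173.)  `k` a field, `r : Γℚ →* M₂(k)` a matrix representation (in the application
`r = matOfBasisRes ρbar b0`), `T` a finite set of primes, `M : Rep (ZMod p) Γℚ` ANY model of
`ad⁰`: an injective additive map `j : M → M₂(k)` onto the trace-zero matrices with
`j (σ • m) = r σ * j m * r σ⁻¹` (`IsAdModel r M j`).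

For a `k`-subspace `C` of matrix cocycles as delivered by `TangentSel.SelMat`
(`c (σ τ) = c σ * r τ + r σ * c τ`; no non-zero inner element; every non-zero `c ∈ C` is the
`ε`-part of a lift to `k[ε]` with cyclotomic determinant, unramified outside `T`):

* `exists_classMap` : an injective additive map `Φ : C → H¹(level T, M)` with
  `Φ c = [z]`, `j (z σ) = c σ * r σ⁻¹`;
* `exists_classSubmodule` : the `𝔽_p`-subspace `W = Φ(C)` of `H¹(level T, M)`, with
  `Nat.card W = Nat.card C` and every element of `W` of the form `[z]`, `j ∘ z = adOf r c`, `c ∈ C`;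
* `finrank_le_of_finrank_le` : if `|k| = p ^ f` and `dim_{𝔽_p} W ≤ f * n` then `dim_k C ≤ n`;
* `exists_classSubmodule_of_lifts` : the same from the lift clause of `SelMat`
  (`exists_level_of_lift` : a lift to `k[ε]` unramified outside `T` factors through a finite
  extension unramified outside `T`).
-/

set_option autoImplicit false
set_option linter.unusedSectionVars false
set_option linter.style.haveILetI false

open CategoryTheory groupCohomology IsLocalRing

namespace Fermat.Agent.S56.Sel.ClassMap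

open Fermat.Agent.S53.MatRep Fermat.Agent.S55.Abs Fermat.Agent.S56.TangentAd

local notation "Qb" => AlgebraicClosure ℚ
local notation "Γℚ" => (AlgebraicClosure ℚ ≃ₐ[ℚ] AlgebraicClosure ℚ)

/-! ### The level of a lift to the dual numbers -/

section Level

variable {k : Type} [Field k]

theorem maximalIdeal_dualNumber_sq : maximalIdeal (DualNumber k) ^ 2 = ⊥ := by
  rw [pow_two, ← le_bot_iff, Ideal.mul_le]
  intro x hx y hy
  have hx' : x.fst = 0 := by
    by_contra h
    exact hx (TrivSqZeroExt.isUnit_iff_isUnit_fst.mpr (IsUnit.mk0 _ h))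
  have hy' : y.fst = 0 := by
    by_contra h
    exact hy (TrivSqZeroExt.isUnit_iff_isUnit_fst.mpr (IsUnit.mk0 _ h))
  rw [Ideal.mem_bot]
  apply TrivSqZeroExt.ext
  · rw [TrivSqZeroExt.fst_mul, hx', zero_mul, TrivSqZeroExt.fst_zero]
  · rw [TrivSqZeroExt.snd_mul, hx', hy', zero_smul, MulOpposite.op_zero, zero_smul, add_zero,
      TrivSqZeroExt.snd_zero]

/-- A lift to the dual numbers is trivial on the fixing subgroup of a finite extension. -/
theorem exists_finite_level (ρ : GaloisRepAdic (DualNumber k)) :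
    ∃ L : IntermediateField ℚ Qb, FiniteDimensional ℚ L ∧
      ∀ σ : Γℚ, (∀ x ∈ L, σ x = x) → ρ.ρ σ = 1 := by
  obtain ⟨L, hL, h⟩ := ρ.isAdicContinuous 2
  refine ⟨L, hL, fun σ hσ => LinearMap.ext fun v => ?_⟩
  have h1 := h σ hσ v
  rw [maximalIdeal_dualNumber_sq, Submodule.bot_smul, Submodule.mem_bot, sub_eq_zero] at h1
  rw [h1, Module.End.one_apply]

/-- A lift to the dual numbers which is unramified outside `T` is trivial on the fixing subgroup
of a finite extension unramified outside `T`. -/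
theorem exists_level_of_lift (T : Finset Nat.Primes) (ρ : GaloisRepAdic (DualNumber k))
    (hur : ∀ q : Nat.Primes, q ∉ T → ρ.IsUnramifiedAt (q : ℕ)) :
    ∃ F : IntermediateField ℚ Qb, F.IsUnramifiedOutside T ∧
      ∀ s ∈ F.fixingSubgroup, ρ.ρ s = 1 := by
  obtain ⟨L, hL, h⟩ := exists_finite_level ρ
  haveI := hL
  have hLU : L.fixingSubgroup ≤ MonoidHom.ker ρ.ρ := fun σ hσ =>
    MonoidHom.mem_ker.mpr (h σ fun x hx => (IntermediateField.mem_fixingSubgroup_iff L σ).mp hσ x hx)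
  have hfix := Devissage.fixingSubgroup_fixedField_of_le hLU
  have hle := Devissage.fixedField_le_of_le hLU
  refine ⟨IntermediateField.fixedField (MonoidHom.ker ρ.ρ), ⟨?_, ?_⟩, ?_⟩
  · exact FiniteDimensional.of_injective (IntermediateField.inclusion hle).toLinearMap
      (IntermediateField.inclusion_injective hle)
  · intro q hq A hA σ hσ
    rw [hfix]
    exact MonoidHom.mem_ker.mpr (hur q hq A hA σ hσ)
  · intro s hs
    rw [hfix] at hs
    exact MonoidHom.mem_ker.mp hs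

end Level

/-! ### Models of `ad⁰` and the cochain of a cocycle -/

section Generic

variable {p : ℕ} [Fact p.Prime] {k : Type} [Field k]

/-- `j` identifies the representation `M` with the trace-zero matrices, `Γℚ` acting by
conjugation through `r`. -/
structure IsAdModel (r : Γℚ →* Matrix (Fin 2) (Fin 2) k) (M : Rep.{0} (ZMod p) Γℚ)
    (j : M →+ Matrix (Fin 2) (Fin 2) k) : Prop where
  inj : Function.Injective j
  surj : ∀ X : Matrix (Fin 2) (Fin 2) k, Matrix.trace X = 0 → ∃ m : M, j m = X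
  equiv : ∀ (σ : Γℚ) (m : M), j (M.ρ σ m) = r σ * j m * r σ⁻¹

variable {r : Γℚ →* Matrix (Fin 2) (Fin 2) k} {M : Rep.{0} (ZMod p) Γℚ}
  {j : M →+ Matrix (Fin 2) (Fin 2) k} (hM : IsAdModel r M j)

/-- The `M`-valued cochain `σ ↦ j⁻¹ (c σ * r σ⁻¹)` of a trace-zero `c`. -/
noncomputable def cochain (c : Γℚ → Matrix (Fin 2) (Fin 2) k)
    (ht : ∀ σ, Matrix.trace (adOf r c σ) = 0) : Γℚ → M :=
  fun σ => Classical.choose (hM.surj (adOf r c σ) (ht σ))

theorem j_cochain (c : Γℚ → Matrix (Fin 2) (Fin 2) k)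
    (ht : ∀ σ, Matrix.trace (adOf r c σ) = 0) (σ : Γℚ) :
    j (cochain hM c ht σ) = adOf r c σ :=
  Classical.choose_spec (hM.surj (adOf r c σ) (ht σ))

theorem cochain_mem_cocycles₁ (c : Γℚ → Matrix (Fin 2) (Fin 2) k)
    (ht : ∀ σ, Matrix.trace (adOf r c σ) = 0)
    (hc : ∀ σ τ, c (σ * τ) = c σ * r τ + r σ * c τ) : cochain hM c ht ∈ cocycles₁ M := by
  rw [mem_cocycles₁_iff]
  intro g h
  apply hM.inj
  rw [map_add, hM.equiv, j_cochain, j_cochain, j_cochain, adOf_mul r hc, add_comm]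

theorem cochain_isLev₁ (T : Finset Nat.Primes) (c : Γℚ → Matrix (Fin 2) (Fin 2) k)
    (ht : ∀ σ, Matrix.trace (adOf r c σ) = 0)
    (hc : ∀ σ τ, c (σ * τ) = c σ * r τ + r σ * c τ)
    (hlev : ∃ F : IntermediateField ℚ Qb, F.IsUnramifiedOutside T ∧
      ∀ s ∈ F.fixingSubgroup, r s = 1 ∧ c s = 0) :
    IsLev₁ (globalLevel T) (cochain hM c ht) := by
  obtain ⟨F, hF, h⟩ := hlev
  refine ⟨F.fixingSubgroup, ⟨F, hF, rfl⟩, fun g s hs => hM.inj ?_⟩
  rw [j_cochain, j_cochain, adOf_mul_of_trivial r hc g s (h s hs).1 (h s hs).2]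

theorem cochain_mem_Z1 (T : Finset Nat.Primes) (c : Γℚ → Matrix (Fin 2) (Fin 2) k)
    (ht : ∀ σ, Matrix.trace (adOf r c σ) = 0)
    (hc : ∀ σ τ, c (σ * τ) = c σ * r τ + r σ * c τ)
    (hlev : ∃ F : IntermediateField ℚ Qb, F.IsUnramifiedOutside T ∧
      ∀ s ∈ F.fixingSubgroup, r s = 1 ∧ c s = 0) :
    cochain hM c ht ∈ Z1 (globalLevel T) M :=
  ⟨cochain_isLev₁ hM T c ht hc hlev, cochain_mem_cocycles₁ hM c ht hc⟩

/-- A cocycle whose cochain is a coboundary is inner. -/
theorem inner_of_cochain_mem_coboundaries₁ (c : Γℚ → Matrix (Fin 2) (Fin 2) k)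
    (ht : ∀ σ, Matrix.trace (adOf r c σ) = 0) (h : cochain hM c ht ∈ coboundaries₁ M) :
    ∃ X : Matrix (Fin 2) (Fin 2) k, ∀ σ, c σ = X * r σ - r σ * X := by
  obtain ⟨m, hm⟩ := h
  refine ⟨-(j m), (inner_iff_adOf r c _).mpr fun σ => ?_⟩
  have h1 := congrFun hm σ
  rw [d₀₁_hom_apply] at h1
  rw [← j_cochain hM c ht σ, ← h1, map_sub, hM.equiv]
  simp only [mul_neg, neg_mul, sub_neg_eq_add]
  abel

theorem cochain_add (c c' : Γℚ → Matrix (Fin 2) (Fin 2) k)
    (ht : ∀ σ, Matrix.trace (adOf r c σ) = 0) (ht' : ∀ σ, Matrix.trace (adOf r c' σ) = 0)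
    (ht'' : ∀ σ, Matrix.trace (adOf r (c + c') σ) = 0) :
    cochain hM (c + c') ht'' = cochain hM c ht + cochain hM c' ht' := by
  funext σ
  apply hM.inj
  rw [Pi.add_apply, map_add, j_cochain, j_cochain, j_cochain, adOf_add, Pi.add_apply]

include hM in
/-- **The class map.**  For a subspace `C` of trace-zero matrix cocycles of level `T` without
non-zero inner elements: an injective additive map `C → H¹(level T, M)`, `c ↦ [j⁻¹ ∘ adOf r c]`. -/
theorem exists_classMap (T : Finset Nat.Primes)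
    (C : Submodule k (Γℚ → Matrix (Fin 2) (Fin 2) k))
    (hcoc : ∀ c ∈ C, ∀ σ τ : Γℚ, c (σ * τ) = c σ * r τ + r σ * c τ)
    (htr : ∀ c ∈ C, ∀ σ : Γℚ, Matrix.trace (adOf r c σ) = 0)
    (hlev : ∀ c ∈ C, ∃ F : IntermediateField ℚ Qb, F.IsUnramifiedOutside T ∧
      ∀ s ∈ F.fixingSubgroup, r s = 1 ∧ c s = 0)
    (hinner : ∀ c ∈ C, (∃ X : Matrix (Fin 2) (Fin 2) k, ∀ σ : Γℚ,
      c σ = X * r σ - r σ * X) → c = 0) :
    ∃ Φ : C →+ H1 (globalLevel T) M, Function.Injective Φ ∧
      ∀ c : C, ∃ z : Z1 (globalLevel T) M, Φ c = Submodule.Quotient.mk z ∧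
        ∀ σ : Γℚ, j ((z : Γℚ → M) σ) = adOf r (c : Γℚ → Matrix (Fin 2) (Fin 2) k) σ := by
  let Z : C → Z1 (globalLevel T) M := fun c =>
    ⟨cochain hM c.1 (htr c.1 c.2), cochain_mem_Z1 hM T c.1 (htr c.1 c.2) (hcoc c.1 c.2)
      (hlev c.1 c.2)⟩
  have hZadd : ∀ c c' : C, Z (c + c') = Z c + Z c' := fun c c' =>
    Subtype.ext (cochain_add hM c.1 c'.1 (htr c.1 c.2) (htr c'.1 c'.2)
      (htr (c.1 + c'.1) (C.add_mem c.2 c'.2)))
  let Φ : C →+ H1 (globalLevel T) M :=
    AddMonoidHom.mk' (fun c => Submodule.Quotient.mk (Z c)) fun c c' => by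
      rw [hZadd, Submodule.Quotient.mk_add]
  refine ⟨Φ, (injective_iff_map_eq_zero Φ).mpr fun c hc => ?_, fun c => ⟨Z c, rfl, fun σ => ?_⟩⟩
  · have h1 : (Submodule.Quotient.mk (Z c) : H1 (globalLevel T) M) = 0 := hc
    rw [Submodule.Quotient.mk_eq_zero, Submodule.mem_comap] at h1
    exact Subtype.ext (hinner c.1 c.2
      (inner_of_cochain_mem_coboundaries₁ hM c.1 (htr c.1 c.2) h1))
  · exact j_cochain hM c.1 (htr c.1 c.2) σ

include hM in
/-- **The class submodule.**  The image `W` of the class map, as an `𝔽_p`-subspace of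
`H¹(level T, M)`: it has as many elements as `C`, and its elements are the classes of the
cochains `j⁻¹ ∘ adOf r c`, `c ∈ C`. -/
theorem exists_classSubmodule (T : Finset Nat.Primes)
    (C : Submodule k (Γℚ → Matrix (Fin 2) (Fin 2) k))
    (hcoc : ∀ c ∈ C, ∀ σ τ : Γℚ, c (σ * τ) = c σ * r τ + r σ * c τ)
    (htr : ∀ c ∈ C, ∀ σ : Γℚ, Matrix.trace (adOf r c σ) = 0)
    (hlev : ∀ c ∈ C, ∃ F : IntermediateField ℚ Qb, F.IsUnramifiedOutside T ∧
      ∀ s ∈ F.fixingSubgroup, r s = 1 ∧ c s = 0)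
    (hinner : ∀ c ∈ C, (∃ X : Matrix (Fin 2) (Fin 2) k, ∀ σ : Γℚ,
      c σ = X * r σ - r σ * X) → c = 0) :
    ∃ W : Submodule (ZMod p) (H1 (globalLevel T) M), Nat.card W = Nat.card C ∧
      ∀ x ∈ W, ∃ c ∈ C, ∃ z : Z1 (globalLevel T) M, x = Submodule.Quotient.mk z ∧
        ∀ σ : Γℚ, j ((z : Γℚ → M) σ) = adOf r c σ := by
  obtain ⟨Φ, hΦ, hspec⟩ := exists_classMap hM T C hcoc htr hlev hinner
  refine ⟨AddSubgroup.toZModSubmodule p Φ.range, ?_, ?_⟩
  · have e : C ≃ Φ.range := Equiv.ofInjective Φ hΦ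
    exact (Nat.card_congr e).symm
  · rintro x ⟨c, rfl⟩
    obtain ⟨z, hz, hzj⟩ := hspec c
    exact ⟨c.1, c.2, z, hz, hzj⟩

/-- Passing from the `𝔽_p`-dimension of the class submodule to the `k`-dimension of `C`. -/
theorem finrank_le_of_finrank_le [Finite k] {H : Type} [AddCommGroup H] [Module (ZMod p) H]
    (C : Submodule k (Γℚ → Matrix (Fin 2) (Fin 2) k)) [Module.Finite k C]
    (W : Submodule (ZMod p) H) (hcard : Nat.card W = Nat.card C) {f n : ℕ}
    (hk : Nat.card k = p ^ f) (hf : 0 < f) (hW : Module.finrank (ZMod p) W ≤ f * n) :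
    Module.finrank k C ≤ n := by
  have hp : 1 < p := (Fact.out : p.Prime).one_lt
  haveI : Finite C := Module.finite_of_finite k
  haveI : Finite W := Nat.finite_of_card_ne_zero (by rw [hcard]; exact Nat.card_pos.ne')
  haveI : Module.Finite (ZMod p) W := Module.Finite.of_finite
  have h1 : Nat.card C = (p ^ f) ^ Module.finrank k C := by
    rw [Module.natCard_eq_pow_finrank (K := k), hk]
  have h2 : Nat.card W = p ^ Module.finrank (ZMod p) W := by
    rw [Module.natCard_eq_pow_finrank (K := ZMod p), Nat.card_zmod]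
  rw [h1, h2, ← pow_mul] at hcard
  have h3 : Module.finrank (ZMod p) W = f * Module.finrank k C := Nat.pow_right_injective hp hcard
  rw [h3] at hW
  exact Nat.le_of_mul_le_mul_left hW hf

end Generic

/-! ### From the lift clause of `SelMat` -/

section Lifts

variable {p : ℕ} [Fact p.Prime] {k : Type} [Field k]
  {r : Γℚ →* Matrix (Fin 2) (Fin 2) k} {M : Rep.{0} (ZMod p) Γℚ}
  {j : M →+ Matrix (Fin 2) (Fin 2) k} (hM : IsAdModel r M j)

include hM in
/-- **The class submodule of a tangent subspace.**  `C` as in `TangentSel.SelMat`: no non-zero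
inner element, and every non-zero `c ∈ C` is the `ε`-part of a lift to `k[ε]` with cyclotomic
determinant which is unramified outside `T`; `r` of level `T`. -/
theorem exists_classSubmodule_of_lifts (T : Finset Nat.Primes)
    (hrT : ∃ F : IntermediateField ℚ Qb, F.IsUnramifiedOutside T ∧
      ∀ s ∈ F.fixingSubgroup, r s = 1)
    (C : Submodule k (Γℚ → Matrix (Fin 2) (Fin 2) k))
    (hinner : ∀ c ∈ C, (∃ X : Matrix (Fin 2) (Fin 2) k, ∀ σ : Γℚ,
      c σ = X * r σ - r σ * X) → c = 0)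
    (hlift : ∀ c ∈ C, c ≠ 0 → ∃ ρ : GaloisRepAdic (DualNumber k), ρ.DetIsCyclotomic p ∧
      (∀ q : Nat.Primes, q ∉ T → ρ.IsUnramifiedAt (q : ℕ)) ∧
      ∃ bb : Module.Basis (Fin 2) (DualNumber k) ρ.V, ∀ σ : Γℚ,
        matOfBasis ρ bb σ = (r σ).map (TrivSqZeroExt.inl : k → DualNumber k)
          + (c σ).map (TrivSqZeroExt.inr : k → DualNumber k)) :
    ∃ W : Submodule (ZMod p) (H1 (globalLevel T) M), Nat.card W = Nat.card C ∧
      ∀ x ∈ W, ∃ c ∈ C, ∃ z : Z1 (globalLevel T) M, x = Submodule.Quotient.mk z ∧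
        ∀ σ : Γℚ, j ((z : Γℚ → M) σ) = adOf r c σ := by
  classical
  refine exists_classSubmodule hM T C ?_ ?_ ?_ hinner
  · intro c hc σ τ
    by_cases h0 : c = 0
    · subst h0
      simp
    · obtain ⟨ρ, -, -, bb, hmat⟩ := hlift c hc h0
      exact cocycle_of_lift r c ρ bb hmat σ τ
  · intro c hc σ
    by_cases h0 : c = 0
    · subst h0
      simp [adOf_apply]
    · obtain ⟨ρ, hdet, -, bb, hmat⟩ := hlift c hc h0
      exact trace_adOf_eq_zero_of_lift r c ρ hdet bb hmat σ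
  · intro c hc
    by_cases h0 : c = 0
    · subst h0
      obtain ⟨F, hF, h⟩ := hrT
      exact ⟨F, hF, fun s hs => ⟨h s hs, rfl⟩⟩
    · obtain ⟨ρ, -, hur, bb, hmat⟩ := hlift c hc h0
      obtain ⟨F, hF, h⟩ := exists_level_of_lift T ρ hur
      exact ⟨F, hF, fun s hs => eq_one_and_eq_zero_of_eq_one ρ bb s (r s) (c s) (hmat s) (h s hs)⟩

end Lifts

end Fermat.Agent.S56.Sel.ClassMap
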