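import Mathlib
import Fermat.Agent.S56.Contract
import Fermat.Agent.S56.TangentSel
import Fermat.Agent.S56.Sel.ClassMap

/-!
# S56, SEL junction: `SelMat` from a bound on the class submodule

(helper173.)  Frozen binders of S56 (`Contract.Hyp 𝒪 p ρbar S Smin`), `k := ResidueField 𝒪`,
`b0` a basis of `ρbar.V`, `r := matOfBasisRes ρbar b0`, `T : Finset Nat.Primes` containing the
primes of `Smin ∪ Q`, `M : Rep (ZMod p) Γℚ` a model of `ad⁰` (`ClassMap.IsAdModel r M j`),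
`|k| = p ^ f`.

* `ClassBound … n` : for every subspace `C` satisfying the clauses of `TangentSel.SelMat` and
  every `𝔽_p`-subspace `W` of `H¹(level T, M)` consisting of classes `[z]` with
  `j (z σ) = c σ * r σ⁻¹`, `c ∈ C`: `dim_{𝔽_p} W ≤ f * n`.
* `selMat_of_classBound` : `ClassBound` implies `TangentSel.SelMat 𝒪 ρbar b0 𝒟 n`, for every
  condition `𝒟` whose lifts to `k[ε]` have cyclotomic determinant and are unramified outside `T`
  (`selMat_condOrd_of_classBound`, `selMat_condFlat_of_classBound` for the two frozen conditions).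
* `exists_level_matOfBasisRes`, `isUnramifiedAt_of_hyp` : `ρbar` has level `T`.
-/

set_option autoImplicit false
set_option linter.unusedSectionVars false
set_option linter.style.haveILetI false

open CategoryTheory groupCohomology IsLocalRing

namespace Fermat.Agent.S56.Sel.ClassMapCond

open Fermat.Agent.S53.MatRep Fermat.Agent.S55.Abs Fermat.Agent.S56.TangentAd
  Fermat.Agent.S56.Sel.ClassMap Fermat.Agent.S56

local notation "Qb" => AlgebraicClosure ℚ
local notation "Γℚ" => (AlgebraicClosure ℚ ≃ₐ[ℚ] AlgebraicClosure ℚ)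

/-! ### The level of the residual representation -/

section Level

variable {k : Type} [Field k]

/-- A residual representation unramified outside `T` is trivial on the fixing subgroup of a
finite extension unramified outside `T`. -/
theorem exists_level_residual (T : Finset Nat.Primes) (ρbar : ResidualGaloisRep k)
    (hur : ∀ q : Nat.Primes, q ∉ T → ρbar.IsUnramifiedAt (q : ℕ)) :
    ∃ F : IntermediateField ℚ Qb, F.IsUnramifiedOutside T ∧
      ∀ s ∈ F.fixingSubgroup, ρbar.ρ s = 1 := by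
  obtain ⟨L, hL, h⟩ := ρbar.factorsThroughFiniteLevel
  haveI := hL
  have hLU : L.fixingSubgroup ≤ MonoidHom.ker ρbar.ρ := fun σ hσ =>
    MonoidHom.mem_ker.mpr (h σ fun x hx => (IntermediateField.mem_fixingSubgroup_iff L σ).mp hσ x hx)
  have hfix := Devissage.fixingSubgroup_fixedField_of_le hLU
  have hle := Devissage.fixedField_le_of_le hLU
  refine ⟨IntermediateField.fixedField (MonoidHom.ker ρbar.ρ), ⟨?_, ?_⟩, ?_⟩
  · exact FiniteDimensional.of_injective (IntermediateField.inclusion hle).toLinearMap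
      (IntermediateField.inclusion_injective hle)
  · intro q hq A hA σ hσ
    rw [hfix]
    exact MonoidHom.mem_ker.mpr (hur q hq A hA σ hσ)
  · intro s hs
    rw [hfix] at hs
    exact MonoidHom.mem_ker.mp hs

theorem exists_level_matOfBasisRes (T : Finset Nat.Primes) (ρbar : ResidualGaloisRep k)
    (b0 : Module.Basis (Fin 2) k ρbar.V)
    (hur : ∀ q : Nat.Primes, q ∉ T → ρbar.IsUnramifiedAt (q : ℕ)) :
    ∃ F : IntermediateField ℚ Qb, F.IsUnramifiedOutside T ∧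
      ∀ s ∈ F.fixingSubgroup, matOfBasisRes ρbar b0 s = 1 := by
  obtain ⟨F, hF, h⟩ := exists_level_residual T ρbar hur
  refine ⟨F, hF, fun s hs => ?_⟩
  rw [matOfBasisRes_eq_toMatrix, h s hs]
  exact LinearMap.toMatrix_one b0

end Level

/-! ### The frozen hypotheses -/

section Hyp

variable {𝒪 : Type} [CommRing 𝒪] [IsLocalRing 𝒪] {p : ℕ}
  {ρbar : ResidualGaloisRep (ResidueField 𝒪)} {S Smin : Finset ℕ}

/-- `ρbar` is unramified outside every set of primes containing `Smin`. -/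
theorem isUnramifiedAt_of_hyp (hyp : Contract.Hyp 𝒪 p ρbar S Smin) (T : Finset Nat.Primes)
    (hT : ∀ q ∈ Smin, ∀ hq : q.Prime, (⟨q, hq⟩ : Nat.Primes) ∈ T) (q : Nat.Primes)
    (hq : q ∉ T) : ρbar.IsUnramifiedAt (q : ℕ) := by
  have hqS : (q : ℕ) ∉ Smin := fun h => hq (hT (q : ℕ) h q.2)
  have hqp : (q : ℕ) ≠ p := fun h => hqS (h ▸ hyp.hpSmin)
  by_contra hram
  exact hqS ((hyp.hmin (q : ℕ) q.2 hqp).mpr hram)

/-- The residue field has `p ^ f` elements for some `f > 0`. -/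
theorem exists_card_residueField [Fact p.Prime] [Finite (ResidueField 𝒪)]
    (hyp : Contract.Hyp 𝒪 p ρbar S Smin) :
    ∃ f : ℕ, 0 < f ∧ Nat.card (ResidueField 𝒪) = p ^ f := by
  have hp0 : ((p : ℕ) : ResidueField 𝒪) = 0 := by
    have h1 : residue 𝒪 ((p : ℕ) : 𝒪) = 0 := (residue_eq_zero_iff _).mpr hyp.hp𝒪
    rwa [map_natCast] at h1
  haveI : CharP (ResidueField 𝒪) p := (CharP.charP_iff_prime_eq_zero (Fact.out : p.Prime)).mpr hp0
  haveI : Fintype (ResidueField 𝒪) := Fintype.ofFinite _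
  obtain ⟨n, -, hn⟩ := FiniteField.card (ResidueField 𝒪) p
  exact ⟨n, n.pos, by rw [Nat.card_eq_fintype_card, hn]⟩

end Hyp

/-! ### `SelMat` from a bound on the class submodule -/

section Bound

variable {𝒪 : Type} [CommRing 𝒪] [IsLocalRing 𝒪] {p : ℕ} [Fact p.Prime]

/-- **The class bound.**  For every subspace `C` with the clauses of `TangentSel.SelMat`, every
`𝔽_p`-subspace `W` of `H¹(level T, M)` made of classes `[z]` with `j (z σ) = c σ * r σ⁻¹`,
`c ∈ C`, has `dim_{𝔽_p} W ≤ f * n`. -/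
def ClassBound (𝒪 : Type) [CommRing 𝒪] [IsLocalRing 𝒪] {p : ℕ} [Fact p.Prime]
    (ρbar : ResidualGaloisRep (ResidueField 𝒪))
    (b0 : Module.Basis (Fin 2) (ResidueField 𝒪) ρbar.V)
    (𝒟 : ∀ ⦃A : Type⦄ [CommRing A] [IsLocalRing A] [Algebra 𝒪 A], GaloisRepAdic A → Prop)
    (T : Finset Nat.Primes) (M : Rep.{0} (ZMod p) Γℚ)
    (j : M →+ Matrix (Fin 2) (Fin 2) (ResidueField 𝒪)) (f n : ℕ) : Prop :=
  ∀ C : Submodule (ResidueField 𝒪) (Γℚ → Matrix (Fin 2) (Fin 2) (ResidueField 𝒪)),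
    Module.Finite (ResidueField 𝒪) C →
    (∀ c ∈ C, ∀ σ τ : Γℚ,
      c (σ * τ) = c σ * matOfBasisRes ρbar b0 τ + matOfBasisRes ρbar b0 σ * c τ) →
    (∀ c ∈ C, ∃ L : IntermediateField ℚ (AlgebraicClosure ℚ), FiniteDimensional ℚ L ∧
      ∀ σ : Γℚ, (∀ x ∈ L, σ x = x) → c σ = 0) →
    (∀ c ∈ C, (∃ X : Matrix (Fin 2) (Fin 2) (ResidueField 𝒪), ∀ σ : Γℚ,
      c σ = X * matOfBasisRes ρbar b0 σ - matOfBasisRes ρbar b0 σ * X) → c = 0) →
    (∀ c ∈ C, c ≠ 0 → ∃ ρ : GaloisRepAdic (DualNumber (ResidueField 𝒪)), 𝒟 ρ ∧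
      ∃ bb : Module.Basis (Fin 2) (DualNumber (ResidueField 𝒪)) ρ.V, ∀ σ : Γℚ,
        matOfBasis ρ bb σ
          = (matOfBasisRes ρbar b0 σ).map
              (TrivSqZeroExt.inl : ResidueField 𝒪 → DualNumber (ResidueField 𝒪))
            + (c σ).map
              (TrivSqZeroExt.inr : ResidueField 𝒪 → DualNumber (ResidueField 𝒪))) →
    ∀ W : Submodule (ZMod p) (H1 (globalLevel T) M),
      (∀ x ∈ W, ∃ c ∈ C, ∃ z : Z1 (globalLevel T) M, x = Submodule.Quotient.mk z ∧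
        ∀ σ : Γℚ, j ((z : Γℚ → M) σ) = adOf (matOfBasisRes ρbar b0) c σ) →
      Module.finrank (ZMod p) W ≤ f * n

variable [Finite (ResidueField 𝒪)] {ρbar : ResidualGaloisRep (ResidueField 𝒪)}
  {b0 : Module.Basis (Fin 2) (ResidueField 𝒪) ρbar.V}
  {𝒟 : ∀ ⦃A : Type⦄ [CommRing A] [IsLocalRing A] [Algebra 𝒪 A], GaloisRepAdic A → Prop}
  {T : Finset Nat.Primes} {M : Rep.{0} (ZMod p) Γℚ}
  {j : M →+ Matrix (Fin 2) (Fin 2) (ResidueField 𝒪)}

/-- **`SelMat` from the class bound**, for a condition whose lifts to `k[ε]` have cyclotomic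
determinant and are unramified outside `T`. -/
theorem selMat_of_classBound (hM : IsAdModel (matOfBasisRes ρbar b0) M j)
    (hrT : ∀ q : Nat.Primes, q ∉ T → ρbar.IsUnramifiedAt (q : ℕ))
    (hdet : ∀ ρ : GaloisRepAdic (DualNumber (ResidueField 𝒪)), 𝒟 ρ → ρ.DetIsCyclotomic p)
    (hur : ∀ ρ : GaloisRepAdic (DualNumber (ResidueField 𝒪)), 𝒟 ρ →
      ∀ q : Nat.Primes, q ∉ T → ρ.IsUnramifiedAt (q : ℕ))
    {f n : ℕ} (hk : Nat.card (ResidueField 𝒪) = p ^ f) (hf : 0 < f)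
    (hbound : ClassBound 𝒪 ρbar b0 𝒟 T M j f n) :
    TangentSel.SelMat 𝒪 ρbar b0 𝒟 n := by
  intro C hC h1 h2 h3 h4
  haveI := hC
  obtain ⟨W, hcard, hW⟩ := exists_classSubmodule_of_lifts hM T
    (exists_level_matOfBasisRes T ρbar b0 hrT) C h3 (fun c hc hc0 => by
      obtain ⟨ρ, hρ, bb, hmat⟩ := h4 c hc hc0
      exact ⟨ρ, hdet ρ hρ, hur ρ hρ, bb, hmat⟩)
  exact finrank_le_of_finrank_le C W hcard hk hf (hbound C hC h1 h2 h3 h4 W hW)

end Bound

/-! ### The two frozen conditions -/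

section Frozen

variable {𝒪 : Type} [CommRing 𝒪] [IsLocalRing 𝒪] [Finite (ResidueField 𝒪)] {p : ℕ}
  [Fact p.Prime] {ρbar : ResidualGaloisRep (ResidueField 𝒪)} {S Smin : Finset ℕ}
  {b0 : Module.Basis (Fin 2) (ResidueField 𝒪) ρbar.V} {r : ℕ} {qv : Fin r → ℕ}
  {T : Finset Nat.Primes} {M : Rep.{0} (ZMod p) Γℚ}
  {j : M →+ Matrix (Fin 2) (Fin 2) (ResidueField 𝒪)}

/-- **`SelMat` for the strict-ordinary condition from the class bound.** -/
theorem selMat_condOrd_of_classBound (hyp : Contract.Hyp 𝒪 p ρbar S Smin)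
    (hT : ∀ q ∈ Smin ∪ Finset.univ.image qv, ∀ hq : q.Prime, (⟨q, hq⟩ : Nat.Primes) ∈ T)
    (hM : IsAdModel (matOfBasisRes ρbar b0) M j)
    {f n : ℕ} (hk : Nat.card (ResidueField 𝒪) = p ^ f) (hf : 0 < f)
    (hbound : ClassBound 𝒪 ρbar b0 (Contract.condOrd 𝒪 p Smin qv) T M j f n) :
    TangentSel.SelMat 𝒪 ρbar b0 (Contract.condOrd 𝒪 p Smin qv) n :=
  selMat_of_classBound hM
    (isUnramifiedAt_of_hyp hyp T fun q hq hqp => hT q (Finset.mem_union_left _ hq) hqp)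
    (fun _ hρ => hρ.1.1)
    (fun _ hρ q hq => hρ.1.2.2 (q : ℕ) q.2 fun h => hq (hT (q : ℕ) h q.2))
    hk hf hbound

/-- **`SelMat` for the flat condition from the class bound.** -/
theorem selMat_condFlat_of_classBound (hyp : Contract.Hyp 𝒪 p ρbar S Smin)
    (hT : ∀ q ∈ Smin ∪ Finset.univ.image qv, ∀ hq : q.Prime, (⟨q, hq⟩ : Nat.Primes) ∈ T)
    (hM : IsAdModel (matOfBasisRes ρbar b0) M j)
    {f n : ℕ} (hk : Nat.card (ResidueField 𝒪) = p ^ f) (hf : 0 < f)
    (hbound : ClassBound 𝒪 ρbar b0 (Contract.condFlat 𝒪 p Smin qv) T M j f n) :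
    TangentSel.SelMat 𝒪 ρbar b0 (Contract.condFlat 𝒪 p Smin qv) n :=
  selMat_of_classBound hM
    (isUnramifiedAt_of_hyp hyp T fun q hq hqp => hT q (Finset.mem_union_left _ hq) hqp)
    (fun _ hρ => hρ.1.1)
    (fun _ hρ q hq => hρ.1.2.2 (q : ℕ) q.2 fun h => hq (hT (q : ℕ) h q.2))
    hk hf hbound

end Frozen

end Fermat.Agent.S56.Sel.ClassMapCond
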