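import Mathlib
import Fermat.Agent.S56.Sel.ClassMap

/-!
# S56, junction vocabulary: the trace-zero adjoint representation (matrix model)

(helper56, TW captain.)  `F ⊆ k` fields (in the application `F = ZMod p`, `k` the residue field),
`G` a group, `r : G →* M₂(k)` a matrix representation.

* `sl2 F k` : the trace-zero `2 × 2` matrices over `k`, as an `F`-subspace of `M₂(k)`.
* `adRep F r : Rep.{0} F G` : `G` acting on `sl2 F k` by `g • X = r g * X * r g⁻¹`.
* `adMat F r : adRep F r →ₗ[F] M₂(k)` : the inclusion; it is injective (`adMat_injective`), has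
  trace-zero values (`adMat_trace`), every trace-zero matrix is a value (`exists_adMat_eq`), and
  `adMat (g • x) * r g = r g * adMat x` (`adMat_rho_mul`): this is the "matrix model" interface
  used by the local bricks (`Loc/TameH0`, `GW/TwRep`, `TW/KillFinal`, ...).
* `isDisc_adRep` : `adRep F r` is discrete for a level family when `r` is trivial on a member.
* `isAdModel_adRep` : for `G = Gal(ℚ̄/ℚ)`, `F = ZMod p`, it is a model of `ad⁰` in the sense of
  `Sel/ClassMap.lean` (`ClassMap.IsAdModel`).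
-/

set_option autoImplicit false

open CategoryTheory

namespace Fermat.Agent.S56.Sel

variable (F : Type) {k : Type} [Field F] [Field k] [Algebra F k] {G : Type} [Group G]

/-- The trace-zero `2 × 2` matrices over `k`, as an `F`-subspace. -/
def sl2 (k : Type) [Field k] [Algebra F k] : Submodule F (Matrix (Fin 2) (Fin 2) k) :=
  LinearMap.ker (Matrix.traceLinearMap (Fin 2) F k)

variable {F}

theorem mem_sl2 (X : Matrix (Fin 2) (Fin 2) k) : X ∈ sl2 F k ↔ X.trace = 0 := Iff.rfl

theorem r_mul_r_inv (r : G →* Matrix (Fin 2) (Fin 2) k) (g : G) : r g * r g⁻¹ = 1 := by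
  rw [← map_mul, mul_inv_cancel, map_one]

theorem r_inv_mul_r (r : G →* Matrix (Fin 2) (Fin 2) k) (g : G) : r g⁻¹ * r g = 1 := by
  rw [← map_mul, inv_mul_cancel, map_one]

theorem trace_conj (r : G →* Matrix (Fin 2) (Fin 2) k) (g : G) (X : Matrix (Fin 2) (Fin 2) k) :
    (r g * X * r g⁻¹).trace = X.trace := by
  rw [Matrix.trace_mul_comm, ← mul_assoc, r_inv_mul_r, one_mul]

variable (F)

/-- The conjugation action of `G` on the trace-zero matrices through `r`. -/
noncomputable def adRho (r : G →* Matrix (Fin 2) (Fin 2) k) : Representation F G ↥(sl2 F k) where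
  toFun g :=
    { toFun := fun X => ⟨r g * X.1 * r g⁻¹, (mem_sl2 _).2 (by rw [trace_conj]; exact X.2)⟩
      map_add' := fun X Y => Subtype.ext (by
        show r g * (X.1 + Y.1) * r g⁻¹ = r g * X.1 * r g⁻¹ + r g * Y.1 * r g⁻¹
        rw [mul_add, add_mul])
      map_smul' := fun a X => Subtype.ext (by
        show r g * (a • X.1) * r g⁻¹ = a • (r g * X.1 * r g⁻¹)
        rw [Matrix.mul_smul, Matrix.smul_mul]) }
  map_one' := by
    refine LinearMap.ext fun X => Subtype.ext ?_
    show r 1 * X.1 * r 1⁻¹ = X.1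
    rw [inv_one, map_one, one_mul, mul_one]
  map_mul' g h := by
    refine LinearMap.ext fun X => Subtype.ext ?_
    show r (g * h) * X.1 * r (g * h)⁻¹ = r g * (r h * X.1 * r h⁻¹) * r g⁻¹
    rw [mul_inv_rev, map_mul, map_mul]
    simp only [mul_assoc]

/-- **The trace-zero adjoint representation** of `r`, over `F`. -/
noncomputable def adRep (r : G →* Matrix (Fin 2) (Fin 2) k) : Rep.{0} F G := Rep.of (adRho F r)

/-- The matrix of an element of `adRep F r`. -/
noncomputable def adMat (r : G →* Matrix (Fin 2) (Fin 2) k) :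
    (adRep F r) →ₗ[F] Matrix (Fin 2) (Fin 2) k :=
  (sl2 F k).subtype

variable {F}

theorem adMat_injective (r : G →* Matrix (Fin 2) (Fin 2) k) : Function.Injective (adMat F r) :=
  Subtype.val_injective

theorem adMat_trace (r : G →* Matrix (Fin 2) (Fin 2) k) (x : adRep F r) :
    (adMat F r x).trace = 0 :=
  x.2

theorem exists_adMat_eq (r : G →* Matrix (Fin 2) (Fin 2) k) (X : Matrix (Fin 2) (Fin 2) k)
    (hX : X.trace = 0) : ∃ x : adRep F r, adMat F r x = X :=
  ⟨⟨X, hX⟩, rfl⟩

theorem adMat_rho (r : G →* Matrix (Fin 2) (Fin 2) k) (g : G) (x : adRep F r) :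
    adMat F r ((adRep F r).ρ g x) = r g * adMat F r x * r g⁻¹ :=
  rfl

/-- The matrix-model identity: `adMat (g • x) * r g = r g * adMat x`. -/
theorem adMat_rho_mul (r : G →* Matrix (Fin 2) (Fin 2) k) (g : G) (x : adRep F r) :
    adMat F r ((adRep F r).ρ g x) * r g = r g * adMat F r x := by
  rw [adMat_rho, mul_assoc, r_inv_mul_r, mul_one]

instance (r : G →* Matrix (Fin 2) (Fin 2) k) [Module.Finite F k] : Module.Finite F (adRep F r) :=
  inferInstanceAs (Module.Finite F ↥(sl2 F k))

/-- `adRep F r` is discrete for a level family as soon as `r` is trivial on one of its members. -/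
theorem isDisc_adRep (𝒰 : S55.Abs.LevelFamily G) (r : G →* Matrix (Fin 2) (Fin 2) k)
    (h : ∃ U ∈ 𝒰.sets, ∀ s ∈ U, r s = 1) : S55.Abs.IsDisc 𝒰 (adRep F r) := by
  obtain ⟨U, hU, h⟩ := h
  refine ⟨U, hU, fun s hs m => ?_⟩
  apply adMat_injective r
  rw [adMat_rho, h s hs, h s⁻¹ (inv_mem hs), one_mul, mul_one]



/-- `adRep (ZMod p) r` with `adMat` is a model of `ad⁰` in the sense of `Sel/ClassMap.lean`. -/
theorem isAdModel_adRep {p : ℕ} [Fact p.Prime] {k : Type} [Field k] [Algebra (ZMod p) k]
    (r : (AlgebraicClosure ℚ ≃ₐ[ℚ] AlgebraicClosure ℚ) →* Matrix (Fin 2) (Fin 2) k) :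
    ClassMap.IsAdModel r (adRep (ZMod p) r) (adMat (ZMod p) r).toAddMonoidHom where
  inj := adMat_injective r
  surj := fun X hX => exists_adMat_eq r X hX
  equiv := fun σ m => adMat_rho r σ m

end Fermat.Agent.S56.Sel
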