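import Mathlib
import Fermat.Agent.S56.Sel.ClassMapCond
import Fermat.Agent.S56.Sel.Defs
import Fermat.Agent.S56.GW.Numeric
import Fermat.Agent.S56.TW.KillFinal
import Fermat.Agent.S56.Loc.TameH0

/-!
# S56, the Selmer junction: THE CONTRACT

(helper173.)  `selOrd_of_bricks` / `selFlat_of_bricks` prove the two open statements of S56,
`TangentSel.SelOrdStatement` and `TangentSel.SelFlatStatement`, from five brick statements, by
the Greenberg--Wiles count `GW.finrank_le_card_mul` applied to the class submodule of a tangent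
space.

Vocabulary (`k := ResidueField 𝒪`, `r̄ := matOfBasisRes ρbar b0 : G_ℚ →* M₂(k)`, model of record
`ad := Sel.adRep (ZMod p) r̄` with `Sel.adMat (ZMod p) r̄ : ad →ₗ[ZMod p] M₂(k)`):

* `IsModel r̄ M mat` : `M : Rep (ZMod p) G_ℚ` with `mat : M →ₗ[ZMod p] M₂(k)` injective, onto the
  trace-zero matrices, `mat (g x) * r̄ g = r̄ g * mat x` (`isModel_adRep` : the model of record);
* `IsTanSpace 𝒪 ρbar b0 𝒟 C` : `C` satisfies the clauses of `TangentSel.SelMat`;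
* `IsClassSpace r̄ mat T C W` : the `𝔽_p`-subspace `W` of `H¹(level T, M)` consists of classes
  `[z]` with `mat (z σ) = c σ * r̄ σ⁻¹`, `c ∈ C`.

The bricks (each is the binder of the same name of `GW.finrank_le_card_mul` at `M := ad`):

* `HH0Statement`        : `H⁰(G_ℚ, ad) = 0`;
* `HChiStatement`       : there is `S_big ⊇ S₁` with `χ₂(level T, ad^∨(1)) ≤ -[k : 𝔽_p]` for all
                          `T ⊇ S_big`;
* `HurStatement`        : the class of `c`, the `ε`-part of a lift which is unramified at `v` if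
                          `ρbar` is and unipotent on inertia at `v` otherwise, is unramified at `v`;
* `HpLocOrdStatement`, `HpLocFlatStatement` : the image at `p` of a class space of a tangent space
                          of strict-ordinary (flat) type has dimension `≤ h⁰(G_p, ad) + [k : 𝔽_p]`.

The two remaining binders are theorems: `hkill` is `TW/KillFinal.exists_r_tw_hkill`, `hQ` is
`Loc/TameH0.finrank_H0_res_le_of_frob_charpoly`.
-/

set_option autoImplicit false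
set_option linter.unusedSectionVars false
set_option linter.style.haveILetI false

open CategoryTheory groupCohomology ExtCitation IsLocalRing

namespace Fermat.Agent.S56.Sel.Contract

open Fermat.Agent.S53.MatRep Fermat.Agent.S55 Fermat.Agent.S55.Abs Fermat.Agent.S55.Count
  Fermat.Agent.S56.TangentAd Fermat.Agent.S56.Sel.ClassMap Fermat.Agent.S56.Sel.ClassMapCond
  Fermat.Agent.S56.GW Fermat.Agent.S56.GW.KillClass Fermat.Agent.S56.GW.LevelLowerUr
  Fermat.Agent.S56.GW.TwRep Fermat.Agent.S56.TW.RhoHyp Fermat.Agent.S56.Sel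

local notation "Qb" => AlgebraicClosure ℚ
local notation "GQ" => (AlgebraicClosure ℚ ≃ₐ[ℚ] AlgebraicClosure ℚ)
local notation "Mat" => Matrix (Fin 2) (Fin 2)

/-! ### Vocabulary -/

section Vocabulary

variable {k : Type} [Field k] {p : ℕ} [Fact p.Prime] [Algebra (ZMod p) k]

/-- `(M, mat)` is a model over `𝔽_p` of the trace-zero adjoint of `r`: `mat` is injective, onto
the trace-zero matrices, and `mat (g x) * r g = r g * mat x`. -/
structure IsModel (r : GQ →* Mat k) (M : Rep.{0} (ZMod p) GQ) (mat : M →ₗ[ZMod p] Mat k) :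
    Prop where
  inj : Function.Injective mat
  tr : ∀ x : M, (mat x).trace = 0
  surj : ∀ X : Mat k, X.trace = 0 → ∃ x : M, mat x = X
  equiv : ∀ (g : GQ) (x : M), mat (M.ρ g x) * r g = r g * mat x

variable {r : GQ →* Mat k} {M : Rep.{0} (ZMod p) GQ} {mat : M →ₗ[ZMod p] Mat k}

/-- The conjugation form of the equivariance. -/
theorem IsModel.equiv_conj (h : IsModel r M mat) (g : GQ) (x : M) :
    mat (M.ρ g x) = r g * mat x * r g⁻¹ := by
  have h1 : r g * r g⁻¹ = 1 := by rw [← map_mul, mul_inv_cancel, map_one]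
  rw [← h.equiv g x, Matrix.mul_assoc, h1, Matrix.mul_one]

/-- A model is a model in the sense of `Sel/ClassMap`. -/
theorem IsModel.isAdModel (h : IsModel r M mat) : IsAdModel r M mat.toAddMonoidHom where
  inj := h.inj
  surj := h.surj
  equiv := h.equiv_conj

/-- A model of `ad⁰ r` has the level of `r`. -/
theorem IsModel.isDisc (h : IsModel r M mat) (T : Finset Nat.Primes)
    (hrT : ∃ F : IntermediateField ℚ Qb, F.IsUnramifiedOutside T ∧
      ∀ s ∈ F.fixingSubgroup, r s = 1) : IsDisc (globalLevel T) M := by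
  obtain ⟨F, hF, hr⟩ := hrT
  refine ⟨F.fixingSubgroup, ⟨F, hF, rfl⟩, fun s hs m => h.inj ?_⟩
  have h1 := h.equiv s m
  rwa [hr s hs, Matrix.mul_one, Matrix.one_mul] at h1

/-- `W` consists of classes `[z]` with `mat (z σ) = c σ * r σ⁻¹`, `c ∈ C`. -/
def IsClassSpace (r : GQ →* Mat k) {M : Rep.{0} (ZMod p) GQ} (mat : M →ₗ[ZMod p] Mat k)
    (T : Finset Nat.Primes) (C : Submodule k (GQ → Mat k))
    (W : Submodule (ZMod p) (Abs.H1 (globalLevel T) M)) : Prop :=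
  ∀ x ∈ W, ∃ c ∈ C, ∃ z : Z1 (globalLevel T) M, x = Submodule.Quotient.mk z ∧
    ∀ σ : GQ, mat ((z : GQ → M) σ) = adOf r c σ

end Vocabulary

/-- `C` is a tangent space of type `𝒟` at `ρbar`: the clauses of `TangentSel.SelMat`. -/
def IsTanSpace (𝒪 : Type) [CommRing 𝒪] [IsLocalRing 𝒪]
    (ρbar : ResidualGaloisRep (ResidueField 𝒪))
    (b0 : Module.Basis (Fin 2) (ResidueField 𝒪) ρbar.V)
    (𝒟 : ∀ ⦃A : Type⦄ [CommRing A] [IsLocalRing A] [Algebra 𝒪 A], GaloisRepAdic A → Prop)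
    (C : Submodule (ResidueField 𝒪) (GQ → Mat (ResidueField 𝒪))) : Prop :=
  Module.Finite (ResidueField 𝒪) C ∧
  (∀ c ∈ C, ∀ σ τ : GQ,
    c (σ * τ) = c σ * matOfBasisRes ρbar b0 τ + matOfBasisRes ρbar b0 σ * c τ) ∧
  (∀ c ∈ C, ∃ L : IntermediateField ℚ Qb, FiniteDimensional ℚ L ∧
    ∀ σ : GQ, (∀ x ∈ L, σ x = x) → c σ = 0) ∧
  (∀ c ∈ C, (∃ X : Mat (ResidueField 𝒪), ∀ σ : GQ,
    c σ = X * matOfBasisRes ρbar b0 σ - matOfBasisRes ρbar b0 σ * X) → c = 0) ∧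
  (∀ c ∈ C, c ≠ 0 → ∃ ρ : GaloisRepAdic (DualNumber (ResidueField 𝒪)), 𝒟 ρ ∧
    ∃ bb : Module.Basis (Fin 2) (DualNumber (ResidueField 𝒪)) ρ.V, ∀ σ : GQ,
      matOfBasis ρ bb σ
        = (matOfBasisRes ρbar b0 σ).map
            (TrivSqZeroExt.inl : ResidueField 𝒪 → DualNumber (ResidueField 𝒪))
          + (c σ).map
            (TrivSqZeroExt.inr : ResidueField 𝒪 → DualNumber (ResidueField 𝒪)))

/-! ### The brick statements -/

/-- The model of record: the trace-zero matrices with the conjugation action (`Sel/Defs`). -/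
theorem isModel_adRep {p : ℕ} [Fact p.Prime] {k : Type} [Field k] [Algebra (ZMod p) k]
    (r : GQ →* Mat k) : IsModel r (adRep (ZMod p) r) (adMat (ZMod p) r) where
  inj := adMat_injective r
  tr := adMat_trace r
  surj := exists_adMat_eq r
  equiv := adMat_rho_mul r

/-- **(H0)** `H⁰(G_ℚ, ad⁰ ρbar) = 0`. -/
def HH0Statement : Prop :=
  ∀ (𝒪 : Type) [CommRing 𝒪] [IsDomain 𝒪] [IsDiscreteValuationRing 𝒪]
    [IsAdicComplete (maximalIdeal 𝒪) 𝒪] [Finite (ResidueField 𝒪)]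
    (p : ℕ) [Fact p.Prime] (ρbar : ResidualGaloisRep (ResidueField 𝒪)) (S Smin : Finset ℕ),
    Fermat.Agent.S56.Contract.Hyp 𝒪 p ρbar S Smin →
    ∀ [Algebra (ZMod p) (ResidueField 𝒪)]
      (b0 : Module.Basis (Fin 2) (ResidueField 𝒪) ρbar.V),
      Module.finrank (ZMod p) (Abs.H0 (adRep (ZMod p) (matOfBasisRes ρbar b0))) = 0

/-- **(CHI)** Every finite set of primes `S₁` is contained in a finite set `S_big` such that
`χ₂(level T, (ad⁰ ρbar)^∨(1)) ≤ -[k : 𝔽_p]` for every `T ⊇ S_big`. -/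
def HChiStatement : Prop :=
  ∀ (𝒪 : Type) [CommRing 𝒪] [IsDomain 𝒪] [IsDiscreteValuationRing 𝒪]
    [IsAdicComplete (maximalIdeal 𝒪) 𝒪] [Finite (ResidueField 𝒪)]
    (p : ℕ) [Fact p.Prime] (ρbar : ResidualGaloisRep (ResidueField 𝒪)) (S Smin : Finset ℕ),
    Fermat.Agent.S56.Contract.Hyp 𝒪 p ρbar S Smin →
    ∀ [Algebra (ZMod p) (ResidueField 𝒪)]
      (b0 : Module.Basis (Fin 2) (ResidueField 𝒪) ρbar.V) (S₁ : Finset Nat.Primes),
      ∃ Sbig : Finset Nat.Primes, S₁ ⊆ Sbig ∧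
        ∀ T : Finset Nat.Primes, Sbig ⊆ T →
          chi2 (globalLevel T)
              ((adRep (ZMod p) (matOfBasisRes ρbar b0)).dualTwist (cycloChar p)) ≤
            -(Module.finrank (ZMod p) (ResidueField 𝒪) : ℤ)

/-- **(UR)** Let `c` be the `ε`-part of a lift `ρ` of `ρbar` to `k[ε]`, and `v ≠ p` a prime of
`T ⊇ Smin` at which `ρ` is unramified if `ρbar` is, and unipotent on inertia otherwise.  Then a
class `[z]` of level `T` with `adMat (z σ) = c σ * r̄ σ⁻¹` is unramified at `v`. -/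
def HurStatement : Prop :=
  ∀ (𝒪 : Type) [CommRing 𝒪] [IsDomain 𝒪] [IsDiscreteValuationRing 𝒪]
    [IsAdicComplete (maximalIdeal 𝒪) 𝒪] [Finite (ResidueField 𝒪)]
    (p : ℕ) [Fact p.Prime] (ρbar : ResidualGaloisRep (ResidueField 𝒪)) (S Smin : Finset ℕ),
    Fermat.Agent.S56.Contract.Hyp 𝒪 p ρbar S Smin →
    ∀ [Algebra (ZMod p) (ResidueField 𝒪)]
      (b0 : Module.Basis (Fin 2) (ResidueField 𝒪) ρbar.V)
      (T : Finset Nat.Primes) (hpT : pPrime p ∈ T),
      (∀ q (hq : q.Prime), q ∈ Smin → (⟨q, hq⟩ : Nat.Primes) ∈ T) →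
    ∀ v : ↥T, v.1 ≠ pPrime p →
    ∀ (c : GQ → Mat (ResidueField 𝒪)) (ρ : GaloisRepAdic (DualNumber (ResidueField 𝒪)))
      (bb : Module.Basis (Fin 2) (DualNumber (ResidueField 𝒪)) ρ.V),
      (∀ σ : GQ, matOfBasis ρ bb σ
        = (matOfBasisRes ρbar b0 σ).map
            (TrivSqZeroExt.inl : ResidueField 𝒪 → DualNumber (ResidueField 𝒪))
          + (c σ).map
            (TrivSqZeroExt.inr : ResidueField 𝒪 → DualNumber (ResidueField 𝒪))) →
      (ρbar.IsUnramifiedAt (v.1 : ℕ) → ρ.IsUnramifiedAt (v.1 : ℕ)) →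
      (¬ ρbar.IsUnramifiedAt (v.1 : ℕ) → ρ.IsUnipotentOnInertiaAt (v.1 : ℕ)) →
    ∀ z : Z1 (globalLevel T) (adRep (ZMod p) (matOfBasisRes ρbar b0)),
      (∀ σ : GQ, adMat (ZMod p) (matOfBasisRes ρbar b0)
          ((z : GQ → adRep (ZMod p) (matOfBasisRes ρbar b0)) σ) =
        adOf (matOfBasisRes ρbar b0) c σ) →
      (dataS p T hpT (invS p T)).r1 (adRep (ZMod p) (matOfBasisRes ρbar b0)) v
          (Submodule.Quotient.mk z) ∈
        H1ur v.1 (Rep.res (primeLocalToGlobal v.1) (adRep (ZMod p) (matOfBasisRes ρbar b0)))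

/-- **(P-ORD)** The image at `p` of a class space of a tangent space of strict-ordinary type has
dimension `≤ h⁰(G_p, ad⁰ ρbar) + [k : 𝔽_p]`. -/
def HpLocOrdStatement : Prop :=
  ∀ (𝒪 : Type) [CommRing 𝒪] [IsDomain 𝒪] [IsDiscreteValuationRing 𝒪]
    [IsAdicComplete (maximalIdeal 𝒪) 𝒪] [Finite (ResidueField 𝒪)]
    (p : ℕ) [Fact p.Prime] (ρbar : ResidualGaloisRep (ResidueField 𝒪)) (S Smin : Finset ℕ),
    Fermat.Agent.S56.Contract.Hyp 𝒪 p ρbar S Smin →
    ∀ [Algebra (ZMod p) (ResidueField 𝒪)]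
      (b0 : Module.Basis (Fin 2) (ResidueField 𝒪) ρbar.V)
      (S₀ : Finset Nat.Primes),
      (∀ q (hq : q.Prime), q ∈ S → (⟨q, hq⟩ : Nat.Primes) ∈ S₀) →
    ∀ (n r : ℕ) (qv : Fin r → Nat.Primes),
      Fermat.Agent.S56.Contract.IsTWSet p ρbar S n (fun i => (qv i : ℕ)) → (∀ i, qv i ∉ S₀) →
    ∀ (hpT : pPrime p ∈ S₀ ∪ Finset.univ.image qv)
      (C : Submodule (ResidueField 𝒪) (GQ → Mat (ResidueField 𝒪))),
      IsTanSpace 𝒪 ρbar b0
        (Fermat.Agent.S56.Contract.condOrd 𝒪 p Smin (fun i => (qv i : ℕ))) C →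
    ∀ W : Submodule (ZMod p) (Abs.H1 (globalLevel (S₀ ∪ Finset.univ.image qv))
        (adRep (ZMod p) (matOfBasisRes ρbar b0))),
      IsClassSpace (matOfBasisRes ρbar b0) (adMat (ZMod p) (matOfBasisRes ρbar b0))
        (S₀ ∪ Finset.univ.image qv) C W →
      Module.finrank (ZMod p)
          ↥(W.map ((dataS p (S₀ ∪ Finset.univ.image qv) hpT
            (invS p (S₀ ∪ Finset.univ.image qv))).r1
              (adRep (ZMod p) (matOfBasisRes ρbar b0)) ⟨pPrime p, hpT⟩)) ≤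
        Module.finrank (ZMod p)
            ((dataS p (S₀ ∪ Finset.univ.image qv) hpT
              (invS p (S₀ ∪ Finset.univ.image qv))).LH0
                (adRep (ZMod p) (matOfBasisRes ρbar b0)) ⟨pPrime p, hpT⟩) +
          Module.finrank (ZMod p) (ResidueField 𝒪)

/-- **(P-FLAT)** The image at `p` of a class space of a tangent space of flat type has dimension
`≤ h⁰(G_p, ad⁰ ρbar) + [k : 𝔽_p]`. -/
def HpLocFlatStatement : Prop :=
  ∀ (𝒪 : Type) [CommRing 𝒪] [IsDomain 𝒪] [IsDiscreteValuationRing 𝒪]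
    [IsAdicComplete (maximalIdeal 𝒪) 𝒪] [Finite (ResidueField 𝒪)]
    (p : ℕ) [Fact p.Prime] (ρbar : ResidualGaloisRep (ResidueField 𝒪)) (S Smin : Finset ℕ),
    Fermat.Agent.S56.Contract.Hyp 𝒪 p ρbar S Smin →
    ∀ [Algebra (ZMod p) (ResidueField 𝒪)]
      (b0 : Module.Basis (Fin 2) (ResidueField 𝒪) ρbar.V)
      (S₀ : Finset Nat.Primes),
      (∀ q (hq : q.Prime), q ∈ S → (⟨q, hq⟩ : Nat.Primes) ∈ S₀) →
    ∀ (n r : ℕ) (qv : Fin r → Nat.Primes),
      Fermat.Agent.S56.Contract.IsTWSet p ρbar S n (fun i => (qv i : ℕ)) → (∀ i, qv i ∉ S₀) →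
    ∀ (hpT : pPrime p ∈ S₀ ∪ Finset.univ.image qv)
      (C : Submodule (ResidueField 𝒪) (GQ → Mat (ResidueField 𝒪))),
      IsTanSpace 𝒪 ρbar b0
        (Fermat.Agent.S56.Contract.condFlat 𝒪 p Smin (fun i => (qv i : ℕ))) C →
    ∀ W : Submodule (ZMod p) (Abs.H1 (globalLevel (S₀ ∪ Finset.univ.image qv))
        (adRep (ZMod p) (matOfBasisRes ρbar b0))),
      IsClassSpace (matOfBasisRes ρbar b0) (adMat (ZMod p) (matOfBasisRes ρbar b0))
        (S₀ ∪ Finset.univ.image qv) C W →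
      Module.finrank (ZMod p)
          ↥(W.map ((dataS p (S₀ ∪ Finset.univ.image qv) hpT
            (invS p (S₀ ∪ Finset.univ.image qv))).r1
              (adRep (ZMod p) (matOfBasisRes ρbar b0)) ⟨pPrime p, hpT⟩)) ≤
        Module.finrank (ZMod p)
            ((dataS p (S₀ ∪ Finset.univ.image qv) hpT
              (invS p (S₀ ∪ Finset.univ.image qv))).LH0
                (adRep (ZMod p) (matOfBasisRes ρbar b0)) ⟨pPrime p, hpT⟩) +
          Module.finrank (ZMod p) (ResidueField 𝒪)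

/-! ### The assembly -/

section Assembly

variable {𝒪 : Type} [CommRing 𝒪] [IsLocalRing 𝒪] [Finite (ResidueField 𝒪)] {p : ℕ}
  [Fact p.Prime] {ρbar : ResidualGaloisRep (ResidueField 𝒪)} {S Smin : Finset ℕ}

/-- A Taylor--Wiles prime is `≡ 1 mod p`. -/
theorem mod_eq_one_of_dvd {q n : ℕ} (hq : q.Prime) (h : p ^ (n + 1) ∣ q - 1) : q % p = 1 := by
  have h1 : p ∣ q - 1 := dvd_trans (dvd_pow_self p (Nat.succ_ne_zero n)) h
  have hp : 2 ≤ p := (Fact.out : p.Prime).two_le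
  have hq1 : 1 ≤ q := hq.one_le
  obtain ⟨m, hm⟩ := h1
  have h2 : q = 1 + p * m := by omega
  rw [h2, Nat.add_mul_mod_self_left]
  exact Nat.mod_eq_of_lt hp

/-- **The binder `hQ` of `GW.finrank_le_card_mul`** at the primes of a Taylor--Wiles set:
`q ≡ 1 mod p` and `h⁰(G_q, ad⁰ ρbar) ≤ [k : 𝔽_p]`. -/
theorem hQ_of_isTWSet [Algebra (ZMod p) (ResidueField 𝒪)]
    [Module.Finite (ZMod p) (ResidueField 𝒪)]
    (b0 : Module.Basis (Fin 2) (ResidueField 𝒪) ρbar.V)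
    (M : Rep.{0} (ZMod p) GQ) (mat : M →ₗ[ZMod p] Mat (ResidueField 𝒪))
    (hmod : IsModel (matOfBasisRes ρbar b0) M mat)
    {n r : ℕ} (qv : Fin r → Nat.Primes)
    (hTW : Fermat.Agent.S56.Contract.IsTWSet p ρbar S n (fun i => (qv i : ℕ))) (i : Fin r) :
    ((qv i : ℕ) % p = 1) ∧
      Module.finrank (ZMod p) (Abs.H0 (Rep.res (primeLocalToGlobal (qv i)) M)) ≤
        Module.finrank (ZMod p) (ResidueField 𝒪) := by
  obtain ⟨-, hprop, hfrob⟩ := hTW
  obtain ⟨hqp, -, hdvd⟩ := hprop i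
  refine ⟨mod_eq_one_of_dvd hqp hdvd, ?_⟩
  obtain ⟨φ, hφ⟩ := Fermat.Agent.Lib.Frobenius.exists_isFrobeniusAt (primeLocalPlace (qv i))
    (qv i).2 (Fermat.Agent.S55.Glue.UnramLevel.liesOverPrime_primeLocalPlace (qv i))
  obtain ⟨α, β, hαβ, hchar⟩ := hfrob i (primeLocalPlace (qv i))
    (Fermat.Agent.S55.Glue.UnramLevel.liesOverPrime_primeLocalPlace (qv i)) φ hφ
  refine Fermat.Agent.S56.Loc.TameH0.finrank_H0_res_le_of_frob_charpoly M mat hmod.inj hmod.tr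
    (fun g => matOfBasisRes ρbar b0 g) hmod.equiv (qv i) φ hφ hαβ ?_
  rw [matOfBasisRes_eq_toMatrix, LinearMap.charpoly_toMatrix]
  exact hchar

/-- **The class bound from the Greenberg--Wiles count.**  `S₀ ⊇ S`, `qv` a Taylor--Wiles set
killing `H¹(level S₀, M^∨(1))`, `T = S₀ ∪ Q`; the four remaining binders of
`GW.finrank_le_card_mul` are hypotheses. -/
theorem classBound_of_numeric [Algebra (ZMod p) (ResidueField 𝒪)]
    [Module.Finite (ZMod p) (ResidueField 𝒪)]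
    (hyp : Fermat.Agent.S56.Contract.Hyp 𝒪 p ρbar S Smin)
    (b0 : Module.Basis (Fin 2) (ResidueField 𝒪) ρbar.V)
    (M : Rep.{0} (ZMod p) GQ) [Module.Finite (ZMod p) M]
    (mat : M →ₗ[ZMod p] Mat (ResidueField 𝒪))
    (hmod : IsModel (matOfBasisRes ρbar b0) M mat)
    (S₀ : Finset Nat.Primes)
    (hS₀ : ∀ q (hq : q.Prime), q ∈ S → (⟨q, hq⟩ : Nat.Primes) ∈ S₀)
    {n r : ℕ} (qv : Fin r → Nat.Primes)
    (hTW : Fermat.Agent.S56.Contract.IsTWSet p ρbar S n (fun i => (qv i : ℕ)))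
    (hK : Kills S₀ (S₀ ∪ Finset.univ.image qv) Finset.subset_union_left
      (M.dualTwist (cycloChar p)))
    (hpT : pPrime p ∈ S₀ ∪ Finset.univ.image qv)
    (𝒟 : ∀ ⦃A : Type⦄ [CommRing A] [IsLocalRing A] [Algebra 𝒪 A], GaloisRepAdic A → Prop)
    (hH0 : Module.finrank (ZMod p) (Abs.H0 M) = 0)
    (hchi : chi2 (globalLevel (S₀ ∪ Finset.univ.image qv)) (M.dualTwist (cycloChar p)) ≤
      -(Module.finrank (ZMod p) (ResidueField 𝒪) : ℤ))
    (hploc : ∀ (C : Submodule (ResidueField 𝒪) (GQ → Mat (ResidueField 𝒪)))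
      (W : Submodule (ZMod p) (Abs.H1 (globalLevel (S₀ ∪ Finset.univ.image qv)) M)),
      IsTanSpace 𝒪 ρbar b0 𝒟 C →
      IsClassSpace (matOfBasisRes ρbar b0) mat (S₀ ∪ Finset.univ.image qv) C W →
      Module.finrank (ZMod p)
          ↥(W.map ((dataS p (S₀ ∪ Finset.univ.image qv) hpT
            (invS p (S₀ ∪ Finset.univ.image qv))).r1 M ⟨pPrime p, hpT⟩)) ≤
        Module.finrank (ZMod p)
            ((dataS p (S₀ ∪ Finset.univ.image qv) hpT
              (invS p (S₀ ∪ Finset.univ.image qv))).LH0 M ⟨pPrime p, hpT⟩) +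
          Module.finrank (ZMod p) (ResidueField 𝒪))
    (hur : ∀ (C : Submodule (ResidueField 𝒪) (GQ → Mat (ResidueField 𝒪)))
      (W : Submodule (ZMod p) (Abs.H1 (globalLevel (S₀ ∪ Finset.univ.image qv)) M)),
      IsTanSpace 𝒪 ρbar b0 𝒟 C →
      IsClassSpace (matOfBasisRes ρbar b0) mat (S₀ ∪ Finset.univ.image qv) C W →
      ∀ v : ↥(S₀ ∪ Finset.univ.image qv), v.1 ∈ S₀ → v.1 ≠ pPrime p → ∀ x ∈ W,
        (dataS p (S₀ ∪ Finset.univ.image qv) hpT
          (invS p (S₀ ∪ Finset.univ.image qv))).r1 M v x ∈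
          H1ur v.1 (Rep.res (primeLocalToGlobal v.1) M)) :
    ClassBound 𝒪 ρbar b0 𝒟 (S₀ ∪ Finset.univ.image qv) M mat.toAddMonoidHom
      (Module.finrank (ZMod p) (ResidueField 𝒪)) r := by
  classical
  intro C hC h1 h2 h3 h4 W hW
  have hT : IsTanSpace 𝒪 ρbar b0 𝒟 C := ⟨hC, h1, h2, h3, h4⟩
  have hCW : IsClassSpace (matOfBasisRes ρbar b0) mat (S₀ ∪ Finset.univ.image qv) C W := hW
  have hpS₀ : pPrime p ∈ S₀ := hS₀ p Fact.out (hyp.hSmin hyp.hpSmin)
  have hST : S₀ ⊆ S₀ ∪ Finset.univ.image qv := Finset.subset_union_left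
  have hMdisc : IsDisc (globalLevel S₀) M :=
    hmod.isDisc S₀ (Fermat.Agent.S56.GW.RhoLevel.exists_field_matOfBasisRes hyp b0 S₀
      fun q hq hqS => hS₀ q hq (hyp.hSmin hqS))
  have hQ : ∀ v : ↥(S₀ ∪ Finset.univ.image qv), v.1 ∉ S₀ → (v.1 : ℕ) % p = 1 ∧
      Module.finrank (ZMod p)
        ((dataS p (S₀ ∪ Finset.univ.image qv) (hST hpS₀)
          (invS p (S₀ ∪ Finset.univ.image qv))).LH0 M v) ≤
        Module.finrank (ZMod p) (ResidueField 𝒪) := by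
    intro v hv
    have hv' : v.1 ∈ Finset.univ.image qv := (Finset.mem_union.mp v.2).resolve_left hv
    obtain ⟨i, -, hi⟩ := Finset.mem_image.mp hv'
    have h := hQ_of_isTWSet b0 M mat hmod qv hTW i
    rw [hi] at h
    exact h
  have hmain := finrank_le_card_mul hyp.hp2 hST hpS₀ M hMdisc
    (hkill_of_kills hST (hST hpS₀) (invS p (S₀ ∪ Finset.univ.image qv)) hK) W
    (Module.finrank (ZMod p) (ResidueField 𝒪)) hH0 hchi (hploc C W hT hCW) (hur C W hT hCW) hQ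
  calc Module.finrank (ZMod p) W
      ≤ ((S₀ ∪ Finset.univ.image qv) \ S₀).card * Module.finrank (ZMod p) (ResidueField 𝒪) :=
        hmain
    _ ≤ r * Module.finrank (ZMod p) (ResidueField 𝒪) :=
        Nat.mul_le_mul_right _ (Fermat.Agent.S56.TW.KillFinal.card_sdiff_le qv)
    _ = Module.finrank (ZMod p) (ResidueField 𝒪) * r := Nat.mul_comm _ _

/-- **The binder `hur` of `GW.finrank_le_card_mul` from the per-class statement**, for a
condition `𝒟` whose lifts are unramified outside `Smin ∪ Q` and unipotent on inertia at the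
primes `≠ p` of `Smin`. -/
theorem hur_of_perClass [Algebra (ZMod p) (ResidueField 𝒪)]
    (hyp : Fermat.Agent.S56.Contract.Hyp 𝒪 p ρbar S Smin)
    (b0 : Module.Basis (Fin 2) (ResidueField 𝒪) ρbar.V)
    (M : Rep.{0} (ZMod p) GQ) (mat : M →ₗ[ZMod p] Mat (ResidueField 𝒪))
    (hmod : IsModel (matOfBasisRes ρbar b0) M mat)
    (S₀ : Finset Nat.Primes) {r : ℕ} (qv : Fin r → Nat.Primes) (hq : ∀ i, qv i ∉ S₀)
    (hpT : pPrime p ∈ S₀ ∪ Finset.univ.image qv)
    (𝒟 : ∀ ⦃A : Type⦄ [CommRing A] [IsLocalRing A] [Algebra 𝒪 A], GaloisRepAdic A → Prop)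
    (h𝒟ur : ∀ ρ : GaloisRepAdic (DualNumber (ResidueField 𝒪)), 𝒟 ρ →
      ∀ q : ℕ, q.Prime → q ∉ Smin ∪ Finset.univ.image (fun i => (qv i : ℕ)) →
        ρ.IsUnramifiedAt q)
    (h𝒟un : ∀ ρ : GaloisRepAdic (DualNumber (ResidueField 𝒪)), 𝒟 ρ →
      ∀ q ∈ Smin, q.Prime → q ≠ p → ρ.IsUnipotentOnInertiaAt q)
    (hcls : ∀ v : ↥(S₀ ∪ Finset.univ.image qv), v.1 ≠ pPrime p →
      ∀ (c : GQ → Mat (ResidueField 𝒪)) (ρ : GaloisRepAdic (DualNumber (ResidueField 𝒪)))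
        (bb : Module.Basis (Fin 2) (DualNumber (ResidueField 𝒪)) ρ.V),
        (∀ σ : GQ, matOfBasis ρ bb σ
          = (matOfBasisRes ρbar b0 σ).map
              (TrivSqZeroExt.inl : ResidueField 𝒪 → DualNumber (ResidueField 𝒪))
            + (c σ).map
              (TrivSqZeroExt.inr : ResidueField 𝒪 → DualNumber (ResidueField 𝒪))) →
        (ρbar.IsUnramifiedAt (v.1 : ℕ) → ρ.IsUnramifiedAt (v.1 : ℕ)) →
        (¬ ρbar.IsUnramifiedAt (v.1 : ℕ) → ρ.IsUnipotentOnInertiaAt (v.1 : ℕ)) →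
      ∀ z : Z1 (globalLevel (S₀ ∪ Finset.univ.image qv)) M,
        (∀ σ : GQ, mat ((z : GQ → M) σ) = adOf (matOfBasisRes ρbar b0) c σ) →
        (dataS p (S₀ ∪ Finset.univ.image qv) hpT
          (invS p (S₀ ∪ Finset.univ.image qv))).r1 M v (Submodule.Quotient.mk z) ∈
          H1ur v.1 (Rep.res (primeLocalToGlobal v.1) M))
    (C : Submodule (ResidueField 𝒪) (GQ → Mat (ResidueField 𝒪)))
    (W : Submodule (ZMod p) (Abs.H1 (globalLevel (S₀ ∪ Finset.univ.image qv)) M))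
    (hT : IsTanSpace 𝒪 ρbar b0 𝒟 C)
    (hCW : IsClassSpace (matOfBasisRes ρbar b0) mat (S₀ ∪ Finset.univ.image qv) C W) :
    ∀ v : ↥(S₀ ∪ Finset.univ.image qv), v.1 ∈ S₀ → v.1 ≠ pPrime p → ∀ x ∈ W,
      (dataS p (S₀ ∪ Finset.univ.image qv) hpT
        (invS p (S₀ ∪ Finset.univ.image qv))).r1 M v x ∈
        H1ur v.1 (Rep.res (primeLocalToGlobal v.1) M) := by
  classical
  intro v hv hvp x hx
  have hvp' : (v.1 : ℕ) ≠ p := fun e => hvp (Subtype.ext e)
  obtain ⟨c, hc, z, rfl, hz⟩ := hCW x hx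
  by_cases hc0 : c = 0
  · have hz0 : z = 0 := by
      apply Subtype.ext
      funext σ
      apply hmod.inj
      rw [hz σ, hc0]
      simp [adOf]
    rw [hz0, Submodule.Quotient.mk_zero, map_zero]
    exact Submodule.zero_mem _
  · obtain ⟨ρ, hρ, bb, hmat⟩ := hT.2.2.2.2 c hc hc0
    refine hcls v hvp c ρ bb hmat (fun hunr => ?_) (fun hram => ?_) z hz
    · refine h𝒟ur ρ hρ (v.1 : ℕ) v.1.2 fun hmem => ?_
      rcases Finset.mem_union.mp hmem with h | h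
      · exact (hyp.hmin (v.1 : ℕ) v.1.2 hvp').mp h hunr
      · obtain ⟨i, -, hi⟩ := Finset.mem_image.mp h
        have hi' : qv i = v.1 := Subtype.ext hi
        exact hq i (hi' ▸ hv)
    · exact h𝒟un ρ hρ (v.1 : ℕ) ((hyp.hmin (v.1 : ℕ) v.1.2 hvp').mpr hram) v.1.2 hvp'

/-- The residue field has `p ^ [k : 𝔽_p]` elements. -/
theorem card_residueField [Algebra (ZMod p) (ResidueField 𝒪)]
    [Module.Finite (ZMod p) (ResidueField 𝒪)] :
    Nat.card (ResidueField 𝒪) = p ^ Module.finrank (ZMod p) (ResidueField 𝒪) := by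
  haveI : NeZero p := ⟨(Fact.out : p.Prime).ne_zero⟩
  rw [Module.natCard_eq_pow_finrank (K := ZMod p), Nat.card_zmod]

/-- **`SelMat` from the instantiated bricks**, for one Taylor--Wiles set and a condition `𝒟`
whose lifts have cyclotomic determinant, are unramified outside `Smin ∪ Q` and unipotent on
inertia at the primes `≠ p` of `Smin`. -/
theorem selMat_of_local [Algebra (ZMod p) (ResidueField 𝒪)]
    [Module.Finite (ZMod p) (ResidueField 𝒪)]
    (hyp : Fermat.Agent.S56.Contract.Hyp 𝒪 p ρbar S Smin)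
    (b0 : Module.Basis (Fin 2) (ResidueField 𝒪) ρbar.V)
    (M : Rep.{0} (ZMod p) GQ) [Module.Finite (ZMod p) M]
    (mat : M →ₗ[ZMod p] Mat (ResidueField 𝒪))
    (hmod : IsModel (matOfBasisRes ρbar b0) M mat)
    (S₀ : Finset Nat.Primes)
    (hS₀ : ∀ q (hq : q.Prime), q ∈ S → (⟨q, hq⟩ : Nat.Primes) ∈ S₀)
    {n r : ℕ} (qv : Fin r → Nat.Primes)
    (hTW : Fermat.Agent.S56.Contract.IsTWSet p ρbar S n (fun i => (qv i : ℕ)))
    (hq : ∀ i, qv i ∉ S₀)
    (hK : Kills S₀ (S₀ ∪ Finset.univ.image qv) Finset.subset_union_left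
      (M.dualTwist (cycloChar p)))
    (hpT : pPrime p ∈ S₀ ∪ Finset.univ.image qv)
    (𝒟 : ∀ ⦃A : Type⦄ [CommRing A] [IsLocalRing A] [Algebra 𝒪 A], GaloisRepAdic A → Prop)
    (h𝒟det : ∀ ρ : GaloisRepAdic (DualNumber (ResidueField 𝒪)), 𝒟 ρ → ρ.DetIsCyclotomic p)
    (h𝒟ur : ∀ ρ : GaloisRepAdic (DualNumber (ResidueField 𝒪)), 𝒟 ρ →
      ∀ q : ℕ, q.Prime → q ∉ Smin ∪ Finset.univ.image (fun i => (qv i : ℕ)) →
        ρ.IsUnramifiedAt q)
    (h𝒟un : ∀ ρ : GaloisRepAdic (DualNumber (ResidueField 𝒪)), 𝒟 ρ →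
      ∀ q ∈ Smin, q.Prime → q ≠ p → ρ.IsUnipotentOnInertiaAt q)
    (hH0 : Module.finrank (ZMod p) (Abs.H0 M) = 0)
    (hchi : chi2 (globalLevel (S₀ ∪ Finset.univ.image qv)) (M.dualTwist (cycloChar p)) ≤
      -(Module.finrank (ZMod p) (ResidueField 𝒪) : ℤ))
    (hcls : ∀ v : ↥(S₀ ∪ Finset.univ.image qv), v.1 ≠ pPrime p →
      ∀ (c : GQ → Mat (ResidueField 𝒪)) (ρ : GaloisRepAdic (DualNumber (ResidueField 𝒪)))
        (bb : Module.Basis (Fin 2) (DualNumber (ResidueField 𝒪)) ρ.V),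
        (∀ σ : GQ, matOfBasis ρ bb σ
          = (matOfBasisRes ρbar b0 σ).map
              (TrivSqZeroExt.inl : ResidueField 𝒪 → DualNumber (ResidueField 𝒪))
            + (c σ).map
              (TrivSqZeroExt.inr : ResidueField 𝒪 → DualNumber (ResidueField 𝒪))) →
        (ρbar.IsUnramifiedAt (v.1 : ℕ) → ρ.IsUnramifiedAt (v.1 : ℕ)) →
        (¬ ρbar.IsUnramifiedAt (v.1 : ℕ) → ρ.IsUnipotentOnInertiaAt (v.1 : ℕ)) →
      ∀ z : Z1 (globalLevel (S₀ ∪ Finset.univ.image qv)) M,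
        (∀ σ : GQ, mat ((z : GQ → M) σ) = adOf (matOfBasisRes ρbar b0) c σ) →
        (dataS p (S₀ ∪ Finset.univ.image qv) hpT
          (invS p (S₀ ∪ Finset.univ.image qv))).r1 M v (Submodule.Quotient.mk z) ∈
          H1ur v.1 (Rep.res (primeLocalToGlobal v.1) M))
    (hploc : ∀ (C : Submodule (ResidueField 𝒪) (GQ → Mat (ResidueField 𝒪)))
      (W : Submodule (ZMod p) (Abs.H1 (globalLevel (S₀ ∪ Finset.univ.image qv)) M)),
      IsTanSpace 𝒪 ρbar b0 𝒟 C →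
      IsClassSpace (matOfBasisRes ρbar b0) mat (S₀ ∪ Finset.univ.image qv) C W →
      Module.finrank (ZMod p)
          ↥(W.map ((dataS p (S₀ ∪ Finset.univ.image qv) hpT
            (invS p (S₀ ∪ Finset.univ.image qv))).r1 M ⟨pPrime p, hpT⟩)) ≤
        Module.finrank (ZMod p)
            ((dataS p (S₀ ∪ Finset.univ.image qv) hpT
              (invS p (S₀ ∪ Finset.univ.image qv))).LH0 M ⟨pPrime p, hpT⟩) +
          Module.finrank (ZMod p) (ResidueField 𝒪)) :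
    Fermat.Agent.S56.TangentSel.SelMat 𝒪 ρbar b0 𝒟 r := by
  classical
  have hSmin₀ : ∀ q ∈ Smin, ∀ hq : q.Prime,
      (⟨q, hq⟩ : Nat.Primes) ∈ S₀ ∪ Finset.univ.image qv := fun q hqS hq =>
    Finset.subset_union_left (hS₀ q hq (hyp.hSmin hqS))
  have hbound := classBound_of_numeric hyp b0 M mat hmod S₀ hS₀ qv hTW hK hpT 𝒟 hH0 hchi hploc
    (fun C W hT hCW =>
      hur_of_perClass hyp b0 M mat hmod S₀ qv hq hpT 𝒟 h𝒟ur h𝒟un hcls C W hT hCW)
  refine selMat_of_classBound hmod.isAdModel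
    (isUnramifiedAt_of_hyp hyp (S₀ ∪ Finset.univ.image qv) hSmin₀) h𝒟det
    (fun ρ hρ q hqT => h𝒟ur ρ hρ (q : ℕ) q.2 fun hmem => hqT ?_)
    card_residueField Module.finrank_pos hbound
  rcases Finset.mem_union.mp hmem with h | h
  · exact hSmin₀ (q : ℕ) h q.2
  · obtain ⟨i, -, hi⟩ := Finset.mem_image.mp h
    have hi' : qv i = q := Subtype.ext hi
    exact Finset.mem_union_right _ (Finset.mem_image.mpr ⟨i, Finset.mem_univ i, hi'⟩)

end Assembly

/-! ### The exits -/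

section Exits

/-- The common part of the two exits: everything except the condition at `p`. -/
theorem exists_selMat_of_bricks (hH0 : HH0Statement) (hchi : HChiStatement)
    (hur : HurStatement)
    {𝒪 : Type} [CommRing 𝒪] [IsDomain 𝒪] [IsDiscreteValuationRing 𝒪]
    [IsAdicComplete (maximalIdeal 𝒪) 𝒪] [Finite (ResidueField 𝒪)]
    {p : ℕ} [Fact p.Prime] {ρbar : ResidualGaloisRep (ResidueField 𝒪)} {S Smin : Finset ℕ}
    (hyp : Fermat.Agent.S56.Contract.Hyp 𝒪 p ρbar S Smin)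
    (cond : ∀ {r : ℕ}, (Fin r → ℕ) →
      ∀ ⦃A : Type⦄ [CommRing A] [IsLocalRing A] [Algebra 𝒪 A], GaloisRepAdic A → Prop)
    (hcond : ∀ {r : ℕ} (qv : Fin r → ℕ) (ρ : GaloisRepAdic (DualNumber (ResidueField 𝒪))),
      cond qv ρ → ρ.DetIsCyclotomic p ∧
        (∀ q : ℕ, q.Prime → q ∉ Smin ∪ Finset.univ.image qv → ρ.IsUnramifiedAt q) ∧
        ∀ q ∈ Smin, q.Prime → q ≠ p → ρ.IsUnipotentOnInertiaAt q)
    (hploc : ∀ [Algebra (ZMod p) (ResidueField 𝒪)]
      (b0 : Module.Basis (Fin 2) (ResidueField 𝒪) ρbar.V)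
      (S₀ : Finset Nat.Primes),
        (∀ q (hq : q.Prime), q ∈ S → (⟨q, hq⟩ : Nat.Primes) ∈ S₀) →
      ∀ (n r : ℕ) (qv : Fin r → Nat.Primes),
        Fermat.Agent.S56.Contract.IsTWSet p ρbar S n (fun i => (qv i : ℕ)) →
        (∀ i, qv i ∉ S₀) →
      ∀ (hpT : pPrime p ∈ S₀ ∪ Finset.univ.image qv)
        (C : Submodule (ResidueField 𝒪) (GQ → Mat (ResidueField 𝒪))),
        IsTanSpace 𝒪 ρbar b0 (cond (fun i => (qv i : ℕ))) C →
      ∀ W : Submodule (ZMod p) (Abs.H1 (globalLevel (S₀ ∪ Finset.univ.image qv))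
          (adRep (ZMod p) (matOfBasisRes ρbar b0))),
        IsClassSpace (matOfBasisRes ρbar b0) (adMat (ZMod p) (matOfBasisRes ρbar b0))
          (S₀ ∪ Finset.univ.image qv) C W →
        Module.finrank (ZMod p)
            ↥(W.map ((dataS p (S₀ ∪ Finset.univ.image qv) hpT
              (invS p (S₀ ∪ Finset.univ.image qv))).r1
                (adRep (ZMod p) (matOfBasisRes ρbar b0)) ⟨pPrime p, hpT⟩)) ≤
          Module.finrank (ZMod p)
              ((dataS p (S₀ ∪ Finset.univ.image qv) hpT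
                (invS p (S₀ ∪ Finset.univ.image qv))).LH0
                  (adRep (ZMod p) (matOfBasisRes ρbar b0)) ⟨pPrime p, hpT⟩) +
            Module.finrank (ZMod p) (ResidueField 𝒪)) :
    ∃ r : ℕ, ∀ n : ℕ, ∃ qv : Fin r → ℕ, Fermat.Agent.S56.Contract.IsTWSet p ρbar S n qv ∧
      ∃ b0 : Module.Basis (Fin 2) (ResidueField 𝒪) ρbar.V,
        Fermat.Agent.S56.TangentSel.SelMat 𝒪 ρbar b0 (cond qv) r := by
  classical
  haveI : CharP (ResidueField 𝒪) p := charP_of_hyp hyp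
  letI : Algebra (ZMod p) (ResidueField 𝒪) := ZMod.algebra _ p
  haveI : NeZero p := ⟨(Fact.out : p.Prime).ne_zero⟩
  haveI : Module.Finite (ZMod p) (ResidueField 𝒪) := Module.Finite.of_finite
  obtain ⟨b0⟩ := nonempty_basisRes ρbar
  have hmod := isModel_adRep (p := p) (matOfBasisRes ρbar b0)
  obtain ⟨S₀, hS₁, hchi'⟩ := hchi 𝒪 p ρbar S Smin hyp b0 (Finset.subtype Nat.Prime S)
  have hS₀ : ∀ q (hq : q.Prime), q ∈ S → (⟨q, hq⟩ : Nat.Primes) ∈ S₀ := fun q hq hqS =>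
    hS₁ (Finset.mem_subtype.mpr hqS)
  have hSmin₀ : ∀ q (hq : q.Prime), q ∈ Smin → (⟨q, hq⟩ : Nat.Primes) ∈ S₀ := fun q hq hqS =>
    hS₀ q hq (hyp.hSmin hqS)
  have hpS₀ : pPrime p ∈ S₀ := hS₀ p Fact.out (hyp.hSmin hyp.hpSmin)
  haveI : Module.Finite (ZMod p) (twRep (ZMod p) (rhoGL ρbar b0)) := finite_twRep (rhoGL ρbar b0)
  haveI : Module.Finite (ZMod p) (Abs.H1 (globalLevel S₀) (twRep (ZMod p) (rhoGL ρbar b0))) :=
    (hyp_invS hyp.hp2 hpS₀).fin_H1 (twRep (ZMod p) (rhoGL ρbar b0))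
      (Fermat.Agent.S56.GW.RhoLevel.isDisc_twRep_of_hyp (ZMod p) hyp b0 S₀ hSmin₀)
  haveI : Finite (Abs.H1 (globalLevel S₀) (twRep (ZMod p) (rhoGL ρbar b0))) :=
    Module.finite_of_finite (ZMod p)
  obtain ⟨r, hr⟩ := Fermat.Agent.S56.TW.KillFinal.exists_r_tw_hkill hyp b0 S₀ hS₀
  refine ⟨r, fun n => ?_⟩
  obtain ⟨qv, hTW, hq, -, hK⟩ := hr n
  refine ⟨fun i => (qv i : ℕ), hTW, b0, ?_⟩
  have hpT : pPrime p ∈ S₀ ∪ Finset.univ.image qv := Finset.subset_union_left hpS₀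
  exact selMat_of_local hyp b0 (adRep (ZMod p) (matOfBasisRes ρbar b0))
    (adMat (ZMod p) (matOfBasisRes ρbar b0)) hmod S₀ hS₀ qv hTW hq
    (hK _ _ hmod.inj hmod.tr hmod.surj hmod.equiv) hpT (cond (fun i => (qv i : ℕ)))
    (fun ρ hρ => (hcond _ ρ hρ).1) (fun ρ hρ => (hcond _ ρ hρ).2.1)
    (fun ρ hρ => (hcond _ ρ hρ).2.2)
    (hH0 𝒪 p ρbar S Smin hyp b0)
    (hchi' _ Finset.subset_union_left)
    (fun v hvp c ρ bb hmat h1 h2 z hz =>
      hur 𝒪 p ρbar S Smin hyp b0 _ hpT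
        (fun q hq hqS => Finset.subset_union_left (hSmin₀ q hq hqS)) v hvp c ρ bb hmat h1 h2 z hz)
    (fun C W hT hCW => hploc b0 S₀ hS₀ n r qv hTW hq hpT C hT W hCW)

/-- **(SEL-ORD) from the bricks.** -/
theorem selOrd_of_bricks (hH0 : HH0Statement) (hchi : HChiStatement) (hur : HurStatement)
    (hp : HpLocOrdStatement) : Fermat.Agent.S56.TangentSel.SelOrdStatement := by
  intro 𝒪 _ _ _ _ _ p _ ρbar S Smin hyp
  exact exists_selMat_of_bricks hH0 hchi hur hyp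
    (fun qv => Fermat.Agent.S56.Contract.condOrd 𝒪 p Smin qv)
    (fun qv ρ hρ => ⟨hρ.1.1, hρ.1.2.2, hρ.2⟩)
    (fun b0 S₀ hS₀ n r qv hTW hq hpT C hT W hCW =>
      hp 𝒪 p ρbar S Smin hyp b0 S₀ hS₀ n r qv hTW hq hpT C hT W hCW)

/-- **(SEL-FLAT) from the bricks.** -/
theorem selFlat_of_bricks (hH0 : HH0Statement) (hchi : HChiStatement) (hur : HurStatement)
    (hp : HpLocFlatStatement) : Fermat.Agent.S56.TangentSel.SelFlatStatement := by
  intro 𝒪 _ _ _ _ _ p _ ρbar S Smin hyp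
  exact exists_selMat_of_bricks hH0 hchi hur hyp
    (fun qv => Fermat.Agent.S56.Contract.condFlat 𝒪 p Smin qv)
    (fun qv ρ hρ => ⟨hρ.1.1, hρ.1.2.2, hρ.2⟩)
    (fun b0 S₀ hS₀ n r qv hTW hq hpT C hT W hCW =>
      hp 𝒪 p ρbar S Smin hyp b0 S₀ hS₀ n r qv hTW hq hpT C hT W hCW)

end Exits

end Fermat.Agent.S56.Sel.Contract
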