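import Mathlib
import Fermat.Agent.S56.Contract
import Fermat.Agent.S56.TangentAd
import Fermat.Agent.S56.Flat.Defs
import Fermat.Agent.S56.Flat.Adapter
import Fermat.Agent.S55.Glue.LocalLevel

/-!
# S56, junction input `hp_loc` (flat half), matrix level

(helper229; row `S56.SEL.FlatAtP`.)  Notation: `Γℚ = Gal(ℚ̄/ℚ)`, `G_p = Flat.Gp p = Gal(ℚ̄_p/ℚ_p)`,
`ι = localGaloisToGlobal p : G_p →* Γℚ`, `k[ε] = DualNumber k`.

For a matrix representation `r : Γℚ →* M₂(k)` and a `k`-space `Cg` of functions `Γℚ → M₂(k)` with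
the clauses of `TangentSel.SelMat` (cocycle for `r`, finite level, every non-zero `c ∈ Cg` is the
`ε`-part of a lift `ρ` over `k[ε]` with matrices `r + ε c` which has cyclotomic determinant and is
flat at `p` in the frozen sense), the restriction of `Cg` to `G_p` satisfies the eight hypotheses of
`Flat.LFTopStatement`; hence

  `dim_k (Cg|G_p) / (inner) ≤ 1 + dim_k {X | tr X = 0, X commutes with r|G_p}`.

* `splitEquiv`, `splitEquiv_mulVec` : `k[ε]² ≃+ k² × k²` and the action of `A + ε C`.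
* `resLin`, `locRep` : restriction to `G_p` of functions / of the representation.
* `flatLocal_liftAct_of_lift` : the frozen `IsFlatAt p` of a lift with matrices `r + ε c` gives
  `Flat.FlatLocal p (k² × k²) (liftAct (r ∘ ι) (c ∘ ι))`.
* `finrank_res_le_of_lfTop` : the bound, for an abstract `r`.
* `finrank_flat_le` : the bound for `r = matOfBasisRes ρbar b0` under `Contract.Hyp`, with lifts of
  type `Contract.condFlat` (the literal clauses of `TangentSel.SelMat`).
-/

set_option autoImplicit false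
set_option linter.style.haveILetI false

open Polynomial IsLocalRing

namespace Fermat.Agent.S56.Sel.FlatAtP

open Fermat.Agent.S53.MatRep Fermat.Agent.S56.Flat Fermat.Agent.S56.TangentAd
  Fermat.Agent.S55.Glue

local notation "Γℚ" => (AlgebraicClosure ℚ ≃ₐ[ℚ] AlgebraicClosure ℚ)
local notation "Qb" => AlgebraicClosure ℚ

/-! ### `k[ε]² ≃ k² × k²` -/

section Split

variable {k : Type} [Field k]

/-- `k[ε]² ≃+ k² × k²`, `v ↦ (fst ∘ v, snd ∘ v)`. -/
def splitEquiv : (Fin 2 → DualNumber k) ≃+ (Fin 2 → k) × (Fin 2 → k) where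
  toFun v := (fun i => (v i).fst, fun i => (v i).snd)
  invFun vw := fun i => TrivSqZeroExt.inl (vw.1 i) + TrivSqZeroExt.inr (vw.2 i)
  left_inv v := by
    funext i
    exact TrivSqZeroExt.inl_fst_add_inr_snd_eq (v i)
  right_inv vw := by
    refine Prod.ext (funext fun i => ?_) (funext fun i => ?_)
    · simp
    · simp
  map_add' v w := by
    refine Prod.ext (funext fun i => ?_) (funext fun i => ?_)
    · simp
    · simp

theorem splitEquiv_fst (v : Fin 2 → DualNumber k) (i : Fin 2) :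
    (splitEquiv v).1 i = (v i).fst := rfl

theorem splitEquiv_snd (v : Fin 2 → DualNumber k) (i : Fin 2) :
    (splitEquiv v).2 i = (v i).snd := rfl

/-- The matrix `A + ε C` acts on `k² × k²` by `(v, w) ↦ (A v, A w + C v)`. -/
theorem splitEquiv_mulVec (A C : Matrix (Fin 2) (Fin 2) k) (v : Fin 2 → DualNumber k) :
    splitEquiv ((A.map (TrivSqZeroExt.inl : k → DualNumber k)
        + C.map (TrivSqZeroExt.inr : k → DualNumber k)).mulVec v)
      = (A.mulVec (splitEquiv v).1, A.mulVec (splitEquiv v).2 + C.mulVec (splitEquiv v).1) := by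
  refine Prod.ext (funext fun i => ?_) (funext fun i => ?_)
  · rw [splitEquiv_fst]
    simp only [Matrix.mulVec, dotProduct, Fin.sum_univ_two, Matrix.add_apply, Matrix.map_apply,
      TrivSqZeroExt.fst_add, TrivSqZeroExt.fst_mul, TrivSqZeroExt.fst_inl, TrivSqZeroExt.fst_inr,
      add_zero, splitEquiv_fst]
  · rw [splitEquiv_snd]
    simp only [Matrix.mulVec, dotProduct, Fin.sum_univ_two, Matrix.add_apply, Matrix.map_apply,
      TrivSqZeroExt.snd_add, TrivSqZeroExt.snd_mul, TrivSqZeroExt.fst_add, TrivSqZeroExt.fst_inl,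
      TrivSqZeroExt.fst_inr, TrivSqZeroExt.snd_inl, TrivSqZeroExt.snd_inr, add_zero, zero_add,
      smul_eq_mul, MulOpposite.smul_eq_mul_unop, MulOpposite.unop_op, Pi.add_apply,
      splitEquiv_fst, splitEquiv_snd]
    ring

end Split

/-! ### Restriction to the local Galois group -/

section Local

variable (p : ℕ) [Fact p.Prime] {k : Type} [Field k]

/-- Restriction to `G_p` of matrix-valued functions on `Γℚ`. -/
noncomputable def resLin : (Γℚ → Matrix (Fin 2) (Fin 2) k) →ₗ[k] (Gp p → Matrix (Fin 2) (Fin 2) k) :=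
  LinearMap.funLeft k (Matrix (Fin 2) (Fin 2) k) (localGaloisToGlobal p)

theorem resLin_apply (c : Γℚ → Matrix (Fin 2) (Fin 2) k) (τ : Gp p) :
    resLin p c τ = c (localGaloisToGlobal p τ) := rfl

/-- Restriction to `G_p` of a matrix representation of `Γℚ`. -/
noncomputable def locRep (r : Γℚ →* Matrix (Fin 2) (Fin 2) k) : Gp p →* Matrix (Fin 2) (Fin 2) k :=
  r.comp (localGaloisToGlobal p)

theorem locRep_apply (r : Γℚ →* Matrix (Fin 2) (Fin 2) k) (τ : Gp p) :
    locRep p r τ = r (localGaloisToGlobal p τ) := rfl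

/-- **Frozen flatness of a lift, local matrix form.**  If the lift `ρ` over `k[ε]` with matrices
`r + ε c` is flat at `p` (frozen `IsFlatAt`), then `k² × k²` with the action of `G_p` through
`r ∘ ι + ε (c ∘ ι)` is `Flat.FlatLocal`. -/
theorem flatLocal_liftAct_of_lift [Finite k] (r : Γℚ →* Matrix (Fin 2) (Fin 2) k)
    (c : Γℚ → Matrix (Fin 2) (Fin 2) k) (ρ : GaloisRepAdic (DualNumber k)) (hflat : ρ.IsFlatAt p)
    (bb : Module.Basis (Fin 2) (DualNumber k) ρ.V)
    (hmat : ∀ σ : Γℚ, matOfBasis ρ bb σ = (r σ).map (TrivSqZeroExt.inl : k → DualNumber k)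
      + (c σ).map (TrivSqZeroExt.inr : k → DualNumber k)) :
    FlatLocal p ((Fin 2 → k) × (Fin 2 → k)) (liftAct (locRep p r) (resLin p c)) := by
  haveI : Finite (DualNumber k) := inferInstanceAs (Finite (k × k))
  have hfin : Finite (DualNumber k ⧸ (⊥ : Ideal (DualNumber k))) :=
    Finite.of_surjective _ Ideal.Quotient.mk_surjective
  obtain ⟨H, iCR, iHopf, hHfin, hHfree, hcocomm, e, hmul, hgal⟩ :=
    Adapter.exists_local_points p ρ hflat ⊥ hfin
  have hbot : ((⊥ : Ideal (DualNumber k)) • (⊤ : Submodule (DualNumber k) ρ.V)) = ⊥ :=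
    Submodule.bot_smul _
  let ε : (ρ.V ⧸ ((⊥ : Ideal (DualNumber k)) • (⊤ : Submodule (DualNumber k) ρ.V))) ≃+
      (Fin 2 → k) × (Fin 2 → k) :=
    ((Submodule.quotEquivOfEqBot _ hbot).trans bb.equivFun).toAddEquiv.trans splitEquiv
  have hε : ∀ (τ : Gp p) (x : ρ.V ⧸ ((⊥ : Ideal (DualNumber k)) • (⊤ : Submodule (DualNumber k) ρ.V))),
      ε (ρ.levelAction ⊥ (localGaloisToGlobal p τ) x)
        = liftAct (locRep p r) (resLin p c) τ (ε x) := by
    intro τ x
    obtain ⟨v, rfl⟩ := Submodule.Quotient.mk_surjective _ x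
    have h1 : ρ.levelAction ⊥ (localGaloisToGlobal p τ) (Submodule.Quotient.mk v)
        = Submodule.Quotient.mk (ρ.ρ (localGaloisToGlobal p τ) v) := rfl
    have h2 : ∀ w : ρ.V, ε (Submodule.Quotient.mk w) = splitEquiv (bb.equivFun w) := by
      intro w
      show splitEquiv (bb.equivFun (Submodule.quotEquivOfEqBot _ hbot (Submodule.Quotient.mk w)))
        = splitEquiv (bb.equivFun w)
      rw [Submodule.quotEquivOfEqBot_apply_mk]
    rw [h1, h2, h2, equivFun_end bb, ← matOfBasis_eq_toMatrix, hmat, splitEquiv_mulVec]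
    rfl
  refine ⟨H, iCR, iHopf, hHfin, hHfree, hcocomm, e.trans ε.toEquiv, ?_, ?_⟩
  · intro f g
    show ε (e (f * g)) = ε (e f) + ε (e g)
    rw [hmul, map_add]
  · intro τ f g hfg
    show ε (e g) = liftAct (locRep p r) (resLin p c) τ (ε (e f))
    rw [hgal τ f g hfg, hε]

/-- **`hp_loc` (flat), matrix level, abstract `r`.**  The restriction to `G_p` of a space of
cocycles whose non-zero elements have flat lifts with cyclotomic determinant satisfies the flat
local bound, given `Flat.LFTopStatement`. -/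
theorem finrank_res_le_of_lfTop (hLF : LFTopStatement) (hp2 : p ≠ 2) [Finite k] [CharP k p]
    (r : Γℚ →* Matrix (Fin 2) (Fin 2) k)
    (hrlev : ∃ L : IntermediateField ℚ Qb, FiniteDimensional ℚ L ∧
      ∀ σ : Γℚ, (∀ x ∈ L, σ x = x) → r σ = 1)
    (hrdet : ∀ (σ : Γℚ) (a : ℕ), (∀ μ : Qb, μ ^ p = 1 → σ μ = μ ^ a) → (r σ).det = (a : k))
    (hrsplit : ∀ σ : Γℚ, ∃ α β : k, (r σ).charpoly = (X - C α) * (X - C β))
    (Cg : Submodule k (Γℚ → Matrix (Fin 2) (Fin 2) k))
    (hcoc : ∀ c ∈ Cg, ∀ σ τ : Γℚ, c (σ * τ) = c σ * r τ + r σ * c τ)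
    (hlev : ∀ c ∈ Cg, ∃ L : IntermediateField ℚ Qb, FiniteDimensional ℚ L ∧
      ∀ σ : Γℚ, (∀ x ∈ L, σ x = x) → c σ = 0)
    (hlift : ∀ c ∈ Cg, c ≠ 0 → ∃ ρ : GaloisRepAdic (DualNumber k),
      ρ.DetIsCyclotomic p ∧ ρ.IsFlatAt p ∧
      ∃ bb : Module.Basis (Fin 2) (DualNumber k) ρ.V, ∀ σ : Γℚ,
        matOfBasis ρ bb σ = (r σ).map (TrivSqZeroExt.inl : k → DualNumber k)
          + (c σ).map (TrivSqZeroExt.inr : k → DualNumber k)) :
    Module.finrank k (↥(Cg.map (resLin p)) ⧸
        (Inn (p := p) (locRep p r)).comap (Cg.map (resLin p)).subtype)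
      ≤ 1 + Module.finrank k (Comm0 (p := p) (locRep p r)) := by
  classical
  -- the level of a function on `Γℚ` passes to `G_p`
  have hlevel : ∀ (L : IntermediateField ℚ Qb) (τ : Gp p),
      (∀ x ∈ localLevelField p L, τ x = x) → ∀ x ∈ L, localGaloisToGlobal p τ x = x := by
    intro L τ hτ
    have hτ' : τ ∈ (localLevelField p L).fixingSubgroup :=
      (IntermediateField.mem_fixingSubgroup_iff _ _).2 hτ
    exact (IntermediateField.mem_fixingSubgroup_iff _ _).1
      ((mem_fixingSubgroup_localLevelField_iff p L τ).1 hτ')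
  refine hLF p hp2 k (locRep p r) ?_ ?_ ?_ (Cg.map (resLin p)) ?_ ?_ ?_ ?_
  · obtain ⟨L, hL, h⟩ := hrlev
    haveI := hL
    exact ⟨localLevelField p L, finiteDimensional_localLevelField p L,
      fun τ hτ => h _ (hlevel L τ hτ)⟩
  · intro τ a ha
    refine hrdet (localGaloisToGlobal p τ) a fun μ hμ => ?_
    apply (padicEmbedding p).toRingHom.injective
    show padicEmbedding p (localGaloisToGlobal p τ μ) = padicEmbedding p (μ ^ a)
    rw [padicEmbedding_localGaloisToGlobal, map_pow]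
    exact ha _ (by rw [← map_pow, hμ, map_one])
  · intro τ
    exact hrsplit _
  · rintro d ⟨c, hc, rfl⟩ σ τ
    show c (localGaloisToGlobal p (σ * τ))
      = c (localGaloisToGlobal p σ) * r (localGaloisToGlobal p τ)
        + r (localGaloisToGlobal p σ) * c (localGaloisToGlobal p τ)
    rw [map_mul, hcoc c hc]
  · rintro d ⟨c, hc, rfl⟩ σ
    show (c (localGaloisToGlobal p σ) * r (localGaloisToGlobal p σ⁻¹)).trace = 0
    by_cases hc0 : c = 0
    · rw [hc0, Pi.zero_apply, zero_mul, Matrix.trace_zero]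
    · obtain ⟨ρ, hdet, -, bb, hmat⟩ := hlift c hc hc0
      have h := trace_adOf_eq_zero_of_lift r c ρ hdet bb hmat (localGaloisToGlobal p σ)
      rw [adOf_apply] at h
      rw [map_inv]
      exact h
  · rintro d ⟨c, hc, rfl⟩
    obtain ⟨L, hL, h⟩ := hlev c hc
    haveI := hL
    exact ⟨localLevelField p L, finiteDimensional_localLevelField p L,
      fun τ hτ => h _ (hlevel L τ hτ)⟩
  · rintro d ⟨c, hc, rfl⟩ hd
    have hc0 : c ≠ 0 := by
      rintro rfl
      exact hd (by rw [map_zero]; exact Submodule.zero_mem _)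
    obtain ⟨ρ, -, hflat, bb, hmat⟩ := hlift c hc hc0
    exact flatLocal_liftAct_of_lift p r c ρ hflat bb hmat

end Local

/-! ### The instance for `TangentSel.SelMat` -/

/-- **`hp_loc` (flat), matrix level.**  Under the frozen hypotheses of S56, a `k`-space `Cg` of
functions `Γℚ → M₂(k)` with the cocycle, finite-level and lift clauses of `TangentSel.SelMat` for
the flat condition `Contract.condFlat 𝒪 p Smin qv` satisfies, after restriction to `G_p`, the flat
local bound `dim (Cg|G_p / inner) ≤ 1 + dim H⁰(G_p, ad⁰)`, given `Flat.LFTopStatement`. -/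
theorem finrank_flat_le (hLF : LFTopStatement) {𝒪 : Type} [CommRing 𝒪] [IsLocalRing 𝒪]
    [Finite (ResidueField 𝒪)] {p : ℕ} [Fact p.Prime] {ρbar : ResidualGaloisRep (ResidueField 𝒪)}
    {S Smin : Finset ℕ} (hyp : Contract.Hyp 𝒪 p ρbar S Smin) {n : ℕ} (qv : Fin n → ℕ)
    (b0 : Module.Basis (Fin 2) (ResidueField 𝒪) ρbar.V)
    (Cg : Submodule (ResidueField 𝒪) (Γℚ → Matrix (Fin 2) (Fin 2) (ResidueField 𝒪)))
    (hcoc : ∀ c ∈ Cg, ∀ σ τ : Γℚ,
      c (σ * τ) = c σ * matOfBasisRes ρbar b0 τ + matOfBasisRes ρbar b0 σ * c τ)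
    (hlev : ∀ c ∈ Cg, ∃ L : IntermediateField ℚ Qb, FiniteDimensional ℚ L ∧
      ∀ σ : Γℚ, (∀ x ∈ L, σ x = x) → c σ = 0)
    (hlift : ∀ c ∈ Cg, c ≠ 0 → ∃ ρ : GaloisRepAdic (DualNumber (ResidueField 𝒪)),
      Contract.condFlat 𝒪 p Smin qv ρ ∧
      ∃ bb : Module.Basis (Fin 2) (DualNumber (ResidueField 𝒪)) ρ.V, ∀ σ : Γℚ,
        matOfBasis ρ bb σ
          = (matOfBasisRes ρbar b0 σ).map
              (TrivSqZeroExt.inl : ResidueField 𝒪 → DualNumber (ResidueField 𝒪))
            + (c σ).map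
              (TrivSqZeroExt.inr : ResidueField 𝒪 → DualNumber (ResidueField 𝒪))) :
    Module.finrank (ResidueField 𝒪) (↥(Cg.map (resLin p)) ⧸
        (Inn (p := p) (locRep p (matOfBasisRes ρbar b0))).comap (Cg.map (resLin p)).subtype)
      ≤ 1 + Module.finrank (ResidueField 𝒪)
          (Comm0 (p := p) (locRep p (matOfBasisRes ρbar b0))) := by
  have hp0 : ((p : ℕ) : ResidueField 𝒪) = 0 := by
    have h := (IsLocalRing.residue_eq_zero_iff ((p : ℕ) : 𝒪)).2 hyp.hp𝒪
    rwa [map_natCast] at h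
  haveI : CharP (ResidueField 𝒪) p := (CharP.charP_iff_prime_eq_zero (Fact.out : p.Prime)).2 hp0
  refine finrank_res_le_of_lfTop p hLF hyp.hp2 (matOfBasisRes ρbar b0)
    (factors_matOfBasisRes ρbar b0) ?_ ?_ Cg hcoc hlev ?_
  · intro σ a ha
    have h := hyp.hdet.2 1 σ a (fun μ hμ => ha μ (by rwa [pow_one] at hμ))
    rw [pow_one, hp0, Ideal.span_singleton_eq_bot.mpr rfl, Ideal.mem_bot, sub_eq_zero] at h
    rw [matOfBasisRes_eq_toMatrix, LinearMap.det_toMatrix]
    exact h
  · intro σ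
    obtain ⟨α, β, h⟩ := hyp.hsplit σ
    exact ⟨α, β, by rw [matOfBasisRes_eq_toMatrix, LinearMap.charpoly_toMatrix]; exact h⟩
  · intro c hc hc0
    obtain ⟨ρ, hD, bb, hmat⟩ := hlift c hc hc0
    exact ⟨ρ, hD.1.1, hD.1.2.1, bb, hmat⟩

end Fermat.Agent.S56.Sel.FlatAtP
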