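import Mathlib
import Fermat.Agent.S56.Sel.FlatAtP
import Fermat.Agent.S56.Sel.ClassMap
import Fermat.Agent.S55.Count.Top
import Fermat.Agent.S55.Count.TopBridge

/-!
# S56, junction input `hp_loc` (flat half), in the vocabulary of the counting package

(helper229; row `S56.SEL.FlatAtP`, stage (ii).)  `M : Rep (ZMod p) Γℚ` any model of `ad⁰`
(`ClassMap.IsAdModel r M j`), `T ∋ p` a finite set of primes, `D = dataS p T hpT inv` the counting
data of `GW/Numeric`, `W` a class submodule as delivered by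
`ClassMap.exists_classSubmodule_of_lifts` (every `x ∈ W` is `[z]` with `j (z σ) = c σ * r σ⁻¹`,
`c ∈ Cg`).

* `res_mem_coboundaries₁_of_inner` : if `c|H` is inner (`H → Γℚ` any group homomorphism) then the
  restriction to `H` of a cochain `z` with `j ∘ z = adOf r c` is a coboundary.
* `exists_invariant_of_comm` : a trace-zero matrix commuting with `r|H` is `j` of an
  `H`-invariant element of `M`.
* `finrank_map_r1_le` : **the transfer.**  The matrix-level bound
  `dim_k (Cg|G_p / inner) ≤ 1 + dim_k Comm0 (r|G_p)` gives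
  `dim_{𝔽_p} (W.map (D.r1 M p)) ≤ dim_{𝔽_p} (D.LH0 M p) + d`, `|k| = p ^ d`.
* `hp_loc_flat` : `Flat.LFTopStatement` gives the hypothesis `hp_loc` of
  `GW.finrank_le_card_mul` for the flat condition (abstract `r`).
* `hp_loc_flat_of_hyp` : the same for `r = matOfBasisRes ρbar b0` under `Contract.Hyp`, from the
  literal lift clause of `TangentSel.SelMat` for `Contract.condFlat`.
-/

set_option autoImplicit false
set_option linter.style.haveILetI false

open CategoryTheory groupCohomology ExtCitation Polynomial IsLocalRing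

namespace Fermat.Agent.S56.Sel.FlatAtPWrap

open Fermat.Agent.S53.MatRep Fermat.Agent.S55.Abs Fermat.Agent.S55.Count
  Fermat.Agent.S56.TangentAd Fermat.Agent.S56.Flat Fermat.Agent.S56.Sel.ClassMap
  Fermat.Agent.S56.Sel.FlatAtP

local notation "Γℚ" => (AlgebraicClosure ℚ ≃ₐ[ℚ] AlgebraicClosure ℚ)
local notation "Qb" => AlgebraicClosure ℚ

section Generic

variable {p : ℕ} [Fact p.Prime] {k : Type} [Field k]
  {r : Γℚ →* Matrix (Fin 2) (Fin 2) k} {M : Rep.{0} (ZMod p) Γℚ}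
  {j : M →+ Matrix (Fin 2) (Fin 2) k}

/-- If `c` restricted along `f : H →* Γℚ` is inner, then the restriction of any cochain `z` with
`j ∘ z = adOf r c` is a coboundary of `Rep.res f M`. -/
theorem res_mem_coboundaries₁_of_inner (hM : IsAdModel r M j) (h2 : (2 : k) ≠ 0)
    {H : Type} [Group H] (f : H →* Γℚ) (z : Γℚ → M) (c : Γℚ → Matrix (Fin 2) (Fin 2) k)
    (hz : ∀ σ : Γℚ, j (z σ) = adOf r c σ) (X : Matrix (Fin 2) (Fin 2) k)
    (hX : ∀ τ : H, c (f τ) = X * r (f τ) - r (f τ) * X) :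
    (fun τ : H => z (f τ)) ∈ coboundaries₁ (Rep.res f M) := by
  -- the trace-zero part of `X`
  have htr : Matrix.trace (-(X - (X.trace / 2) • (1 : Matrix (Fin 2) (Fin 2) k))) = 0 := by
    rw [Matrix.trace_neg, Matrix.trace_sub, Matrix.trace_smul, Matrix.trace_one]
    simp only [Fintype.card_fin, Nat.cast_ofNat, smul_eq_mul]
    rw [div_mul_cancel₀ _ h2, sub_self, neg_zero]
  obtain ⟨m, hm⟩ := hM.surj _ htr
  refine ⟨m, funext fun τ => hM.inj ?_⟩
  rw [d₀₁_hom_apply]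
  show j (M.ρ (f τ) m - m) = j (z (f τ))
  have hR : r (f τ) * r (f τ)⁻¹ = 1 := map_mul_map_inv r (f τ)
  have e1 : c (f τ) * r (f τ)⁻¹ = X - r (f τ) * X * r (f τ)⁻¹ := by
    rw [hX τ, sub_mul, mul_assoc X, hR, mul_one]
  have e0 : r (f τ) * ((X.trace / 2) • (1 : Matrix (Fin 2) (Fin 2) k)) * r (f τ)⁻¹
      = (X.trace / 2) • (1 : Matrix (Fin 2) (Fin 2) k) := by
    rw [Matrix.mul_smul, Matrix.smul_mul, mul_one, hR]
  have e2 : r (f τ) * (-(X - (X.trace / 2) • (1 : Matrix (Fin 2) (Fin 2) k))) * r (f τ)⁻¹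
      - -(X - (X.trace / 2) • (1 : Matrix (Fin 2) (Fin 2) k))
      = X - r (f τ) * X * r (f τ)⁻¹ := by
    rw [mul_neg, neg_mul, mul_sub, sub_mul, e0]
    abel
  rw [map_sub, hM.equiv, hm, hz, adOf_apply, e1, e2]

/-- A trace-zero matrix commuting with `r ∘ f` is `j` of an element of `M` fixed by `H`. -/
theorem exists_invariant_of_comm (hM : IsAdModel r M j) {H : Type} [Group H] (f : H →* Γℚ)
    (X : Matrix (Fin 2) (Fin 2) k) (htr : X.trace = 0)
    (hcomm : ∀ τ : H, r (f τ) * X = X * r (f τ)) :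
    ∃ m : M, j m = X ∧ ∀ τ : H, M.ρ (f τ) m = m := by
  obtain ⟨m, hm⟩ := hM.surj X htr
  refine ⟨m, hm, fun τ => hM.inj ?_⟩
  rw [hM.equiv, hm, hcomm, mul_assoc, map_mul_map_inv, mul_one]

/-- **The transfer to the counting package.**  The matrix-level flat bound for the restriction
of `Cg` to `G_p` gives the hypothesis `hp_loc` of `GW.finrank_le_card_mul` for a class submodule
`W` of `Cg`. -/
theorem finrank_map_r1_le (hM : IsAdModel r M j) [Finite k] [CharP k p] (hp2 : p ≠ 2)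
    {T : Finset Nat.Primes} (hpT : pPrime p ∈ T) (inv : InvS p T)
    (Cg : Submodule k (Γℚ → Matrix (Fin 2) (Fin 2) k)) [Module.Finite k Cg]
    (W : Submodule (ZMod p) (H1 (globalLevel T) M))
    (hW : ∀ x ∈ W, ∃ c ∈ Cg, ∃ z : Z1 (globalLevel T) M, x = Submodule.Quotient.mk z ∧
      ∀ σ : Γℚ, j ((z : Γℚ → M) σ) = adOf r c σ)
    {d : ℕ} (hk : Nat.card k = p ^ d)
    (hbound : Module.finrank k (↥(Cg.map (resLin p)) ⧸
        (Inn (p := p) (locRep p r)).comap (Cg.map (resLin p)).subtype)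
      ≤ 1 + Module.finrank k (Comm0 (p := p) (locRep p r))) :
    Module.finrank (ZMod p) ↥(W.map ((dataS p T hpT inv).r1 M ⟨pPrime p, hpT⟩))
      ≤ Module.finrank (ZMod p) ((dataS p T hpT inv).LH0 M ⟨pPrime p, hpT⟩) + d := by
  classical
  have hp1 : 1 < p := (Fact.out : p.Prime).one_lt
  have h2 : (2 : k) ≠ 0 := by
    intro h
    have h' : ((2 : ℕ) : k) = 0 := by exact_mod_cast h
    have hdvd := (CharP.cast_eq_zero_iff k p 2).1 h'
    exact hp2 ((Nat.prime_dvd_prime_iff_eq (Fact.out : p.Prime) Nat.prime_two).1 hdvd)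
  -- finiteness
  haveI : Finite (Matrix (Fin 2) (Fin 2) k) := inferInstanceAs (Finite (Fin 2 → Fin 2 → k))
  haveI : Finite M := Finite.of_injective j hM.inj
  haveI : Finite ↥Cg := Module.finite_of_finite k
  haveI : Finite ↥(Cg.map (resLin p (k := k))) :=
    Finite.of_surjective
      (fun c : ↥Cg => (⟨resLin p c.1, Submodule.mem_map_of_mem c.2⟩ : ↥(Cg.map (resLin p (k := k)))))
      (by rintro ⟨_, c, hc, rfl⟩; exact ⟨⟨c, hc⟩, rfl⟩)
  haveI : Module.Finite k ↥(Cg.map (resLin p (k := k))) := Module.Finite.of_finite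
  haveI : Finite (↥(Cg.map (resLin p (k := k))) ⧸
      (Inn (p := p) (locRep p r)).comap (Cg.map (resLin p)).subtype) :=
    Finite.of_surjective _ (Submodule.Quotient.mk_surjective _)
  haveI : Finite ((dataS p T hpT inv).LH0 M ⟨pPrime p, hpT⟩) :=
    Finite.of_injective (fun y : (dataS p T hpT inv).LH0 M ⟨pPrime p, hpT⟩ => (y.1 : M))
      (fun a b h => Subtype.ext h)
  haveI : Module.Finite (ZMod p) ((dataS p T hpT inv).LH0 M ⟨pPrime p, hpT⟩) :=
    Module.Finite.of_finite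
  haveI : Finite ↥(Comm0 (p := p) (locRep p r)) := Subtype.finite
  -- Step A: an injection of `W.map r1` into the matrix-level quotient
  have hA : ∃ g : ↥(W.map ((dataS p T hpT inv).r1 M ⟨pPrime p, hpT⟩)) →
      (↥(Cg.map (resLin p (k := k))) ⧸
        (Inn (p := p) (locRep p r)).comap (Cg.map (resLin p)).subtype), Function.Injective g := by
    have hex : ∀ y : ↥(W.map ((dataS p T hpT inv).r1 M ⟨pPrime p, hpT⟩)),
        ∃ (c : Γℚ → Matrix (Fin 2) (Fin 2) k) (z : Z1 (globalLevel T) M), c ∈ Cg ∧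
          (y : (dataS p T hpT inv).LH1 M ⟨pPrime p, hpT⟩)
            = (dataS p T hpT inv).r1 M ⟨pPrime p, hpT⟩ (Submodule.Quotient.mk z) ∧
          ∀ σ : Γℚ, j ((z : Γℚ → M) σ) = adOf r c σ := by
      rintro ⟨y, x, hx, rfl⟩
      obtain ⟨c, hc, z, rfl, hz⟩ := hW x hx
      exact ⟨c, z, hc, rfl, hz⟩
    choose cf zf hcf hyf hzf using hex
    refine ⟨fun y => Submodule.Quotient.mk
      ⟨resLin p (cf y), Submodule.mem_map_of_mem (hcf y)⟩, fun y y' hyy' => ?_⟩
    have h1 := (Submodule.Quotient.eq _).1 hyy'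
    obtain ⟨X, hX⟩ : ∃ X : Matrix (Fin 2) (Fin 2) k, ∀ τ : Gp p,
        (resLin p (cf y) - resLin p (cf y')) τ = X * locRep p r τ - locRep p r τ * X := h1
    apply Subtype.ext
    rw [hyf y, hyf y', ← sub_eq_zero, ← map_sub, ← Submodule.Quotient.mk_sub]
    show rH1 (globalLevel T) (fun q : ↥T => primeLocalToGlobal q.1)
      (fun q : ↥T => localLevel (primeLocalToGlobal q.1))
      (fun q : ↥T => isLevelMap_localLevel (primeLocalToGlobal q.1) T) M ⟨pPrime p, hpT⟩
      (Submodule.Quotient.mk (zf y - zf y')) = 0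
    rw [TopBridge.rH1_mk_eq_zero_iff]
    have hz : ∀ σ : Γℚ, j (((zf y - zf y' : ↥(Z1 (globalLevel T) M)) : Γℚ → M) σ)
        = adOf r (cf y - cf y') σ := by
      intro σ
      rw [Submodule.coe_sub, Pi.sub_apply, map_sub, hzf, hzf, adOf_apply, adOf_apply, adOf_apply,
        Pi.sub_apply, sub_mul]
    exact res_mem_coboundaries₁_of_inner hM h2 (primeLocalToGlobal (pPrime p))
      ((zf y - zf y' : ↥(Z1 (globalLevel T) M)) : Γℚ → M) (cf y - cf y') hz X (fun τ => hX τ)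
  obtain ⟨gA, hgA⟩ := hA
  haveI : Finite ↥(W.map ((dataS p T hpT inv).r1 M ⟨pPrime p, hpT⟩)) := Finite.of_injective gA hgA
  haveI : Module.Finite (ZMod p) ↥(W.map ((dataS p T hpT inv).r1 M ⟨pPrime p, hpT⟩)) :=
    Module.Finite.of_finite
  have hcA := Nat.card_le_card_of_injective gA hgA
  -- Step B: an injection of the commutant into the local invariants
  have hB : ∃ g : ↥(Comm0 (p := p) (locRep p r)) → (dataS p T hpT inv).LH0 M ⟨pPrime p, hpT⟩,
      Function.Injective g := by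
    have hex : ∀ X : ↥(Comm0 (p := p) (locRep p r)), ∃ m : M, j m = X.1 ∧
        ∀ τ : primeLocalGaloisGroup (pPrime p), M.ρ (primeLocalToGlobal (pPrime p) τ) m = m :=
      fun X => exists_invariant_of_comm hM (primeLocalToGlobal (pPrime p)) X.1 X.2.1
        (fun τ => X.2.2 τ)
    choose mf hmf hinv using hex
    refine ⟨fun X => ⟨mf X, fun τ => hinv X τ⟩, fun X X' h => ?_⟩
    apply Subtype.ext
    rw [← hmf X, ← hmf X']
    exact congrArg (fun y : (dataS p T hpT inv).LH0 M ⟨pPrime p, hpT⟩ => j (y.1 : M)) h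
  obtain ⟨gB, hgB⟩ := hB
  have hcB := Nat.card_le_card_of_injective gB hgB
  -- cardinalities
  rw [Module.natCard_eq_pow_finrank (K := ZMod p), Nat.card_zmod,
    Module.natCard_eq_pow_finrank (K := k), hk, ← pow_mul] at hcA
  rw [Module.natCard_eq_pow_finrank (K := k), hk, ← pow_mul,
    Module.natCard_eq_pow_finrank (K := ZMod p), Nat.card_zmod] at hcB
  have h1 := (Nat.pow_le_pow_iff_right hp1).1 hcA
  have h3 := (Nat.pow_le_pow_iff_right hp1).1 hcB
  calc Module.finrank (ZMod p) ↥(W.map ((dataS p T hpT inv).r1 M ⟨pPrime p, hpT⟩))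
      ≤ d * Module.finrank k (↥(Cg.map (resLin p)) ⧸
          (Inn (p := p) (locRep p r)).comap (Cg.map (resLin p)).subtype) := h1
    _ ≤ d * (1 + Module.finrank k (Comm0 (p := p) (locRep p r))) := Nat.mul_le_mul_left d hbound
    _ = d * Module.finrank k (Comm0 (p := p) (locRep p r)) + d := by ring
    _ ≤ Module.finrank (ZMod p) ((dataS p T hpT inv).LH0 M ⟨pPrime p, hpT⟩) + d :=
        Nat.add_le_add_right h3 d

/-- **`hp_loc` (flat).**  `Flat.LFTopStatement` gives the hypothesis `hp_loc` of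
`GW.finrank_le_card_mul` for a class submodule `W` of a space `Cg` whose non-zero elements have
flat lifts with cyclotomic determinant (abstract `r`). -/
theorem hp_loc_flat (hLF : LFTopStatement) (hp2 : p ≠ 2) [Finite k] [CharP k p]
    (hM : IsAdModel r M j)
    (hrlev : ∃ L : IntermediateField ℚ Qb, FiniteDimensional ℚ L ∧
      ∀ σ : Γℚ, (∀ x ∈ L, σ x = x) → r σ = 1)
    (hrdet : ∀ (σ : Γℚ) (a : ℕ), (∀ μ : Qb, μ ^ p = 1 → σ μ = μ ^ a) → (r σ).det = (a : k))
    (hrsplit : ∀ σ : Γℚ, ∃ α β : k, (r σ).charpoly = (X - C α) * (X - C β))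
    {T : Finset Nat.Primes} (hpT : pPrime p ∈ T) (inv : InvS p T)
    (Cg : Submodule k (Γℚ → Matrix (Fin 2) (Fin 2) k)) [Module.Finite k Cg]
    (hlift : ∀ c ∈ Cg, c ≠ 0 → ∃ ρ : GaloisRepAdic (DualNumber k),
      ρ.DetIsCyclotomic p ∧ ρ.IsFlatAt p ∧
      ∃ bb : Module.Basis (Fin 2) (DualNumber k) ρ.V, ∀ σ : Γℚ,
        matOfBasis ρ bb σ = (r σ).map (TrivSqZeroExt.inl : k → DualNumber k)
          + (c σ).map (TrivSqZeroExt.inr : k → DualNumber k))
    (W : Submodule (ZMod p) (H1 (globalLevel T) M))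
    (hW : ∀ x ∈ W, ∃ c ∈ Cg, ∃ z : Z1 (globalLevel T) M, x = Submodule.Quotient.mk z ∧
      ∀ σ : Γℚ, j ((z : Γℚ → M) σ) = adOf r c σ)
    {d : ℕ} (hk : Nat.card k = p ^ d) :
    Module.finrank (ZMod p) ↥(W.map ((dataS p T hpT inv).r1 M ⟨pPrime p, hpT⟩))
      ≤ Module.finrank (ZMod p) ((dataS p T hpT inv).LH0 M ⟨pPrime p, hpT⟩) + d := by
  classical
  refine finrank_map_r1_le hM hp2 hpT inv Cg W hW hk
    (finrank_res_le_of_lfTop p hLF hp2 r hrlev hrdet hrsplit Cg ?_ ?_ hlift)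
  · intro c hc σ τ
    by_cases h0 : c = 0
    · subst h0
      simp
    · obtain ⟨ρ, -, -, bb, hmat⟩ := hlift c hc h0
      exact cocycle_of_lift r c ρ bb hmat σ τ
  · intro c hc
    by_cases h0 : c = 0
    · subst h0
      exact ⟨⊥, inferInstance, fun _ _ => rfl⟩
    · obtain ⟨ρ, -, -, bb, hmat⟩ := hlift c hc h0
      obtain ⟨L, hL, h⟩ := exists_finite_level ρ
      exact ⟨L, hL, fun σ hσ =>
        (eq_one_and_eq_zero_of_eq_one ρ bb σ (r σ) (c σ) (hmat σ) (h σ hσ)).2⟩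

end Generic

/-- **`hp_loc` (flat) under the frozen hypotheses of S56.**  `r = matOfBasisRes ρbar b0`, `M` any
model of `ad⁰`, `Cg` with the literal lift clause of `TangentSel.SelMat` for
`Contract.condFlat 𝒪 p Smin qv`, `W` a class submodule of `Cg`, `|k| = p ^ d`. -/
theorem hp_loc_flat_of_hyp (hLF : LFTopStatement) {𝒪 : Type} [CommRing 𝒪] [IsLocalRing 𝒪]
    [Finite (ResidueField 𝒪)] {p : ℕ} [Fact p.Prime] {ρbar : ResidualGaloisRep (ResidueField 𝒪)}
    {S Smin : Finset ℕ} (hyp : Contract.Hyp 𝒪 p ρbar S Smin) {n : ℕ} (qv : Fin n → ℕ)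
    (b0 : Module.Basis (Fin 2) (ResidueField 𝒪) ρbar.V)
    {M : Rep.{0} (ZMod p) Γℚ} {j : M →+ Matrix (Fin 2) (Fin 2) (ResidueField 𝒪)}
    (hM : IsAdModel (matOfBasisRes ρbar b0) M j)
    {T : Finset Nat.Primes} (hpT : pPrime p ∈ T) (inv : InvS p T)
    (Cg : Submodule (ResidueField 𝒪) (Γℚ → Matrix (Fin 2) (Fin 2) (ResidueField 𝒪)))
    [Module.Finite (ResidueField 𝒪) Cg]
    (hlift : ∀ c ∈ Cg, c ≠ 0 → ∃ ρ : GaloisRepAdic (DualNumber (ResidueField 𝒪)),
      Contract.condFlat 𝒪 p Smin qv ρ ∧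
      ∃ bb : Module.Basis (Fin 2) (DualNumber (ResidueField 𝒪)) ρ.V, ∀ σ : Γℚ,
        matOfBasis ρ bb σ
          = (matOfBasisRes ρbar b0 σ).map
              (TrivSqZeroExt.inl : ResidueField 𝒪 → DualNumber (ResidueField 𝒪))
            + (c σ).map
              (TrivSqZeroExt.inr : ResidueField 𝒪 → DualNumber (ResidueField 𝒪)))
    (W : Submodule (ZMod p) (H1 (globalLevel T) M))
    (hW : ∀ x ∈ W, ∃ c ∈ Cg, ∃ z : Z1 (globalLevel T) M, x = Submodule.Quotient.mk z ∧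
      ∀ σ : Γℚ, j ((z : Γℚ → M) σ) = adOf (matOfBasisRes ρbar b0) c σ)
    {d : ℕ} (hk : Nat.card (ResidueField 𝒪) = p ^ d) :
    Module.finrank (ZMod p) ↥(W.map ((dataS p T hpT inv).r1 M ⟨pPrime p, hpT⟩))
      ≤ Module.finrank (ZMod p) ((dataS p T hpT inv).LH0 M ⟨pPrime p, hpT⟩) + d := by
  have hp0 : ((p : ℕ) : ResidueField 𝒪) = 0 := by
    have h := (IsLocalRing.residue_eq_zero_iff ((p : ℕ) : 𝒪)).2 hyp.hp𝒪
    rwa [map_natCast] at h
  haveI : CharP (ResidueField 𝒪) p := (CharP.charP_iff_prime_eq_zero (Fact.out : p.Prime)).2 hp0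
  refine hp_loc_flat hLF hyp.hp2 hM (factors_matOfBasisRes ρbar b0) ?_ ?_ hpT inv Cg ?_ W hW hk
  · intro σ a ha
    have h := hyp.hdet.2 1 σ a (fun μ hμ => ha μ (by rwa [pow_one] at hμ))
    rw [pow_one, hp0, Ideal.span_singleton_eq_bot.mpr rfl, Ideal.mem_bot, sub_eq_zero] at h
    rw [matOfBasisRes_eq_toMatrix, LinearMap.det_toMatrix]
    exact h
  · intro σ
    obtain ⟨α, β, h⟩ := hyp.hsplit σ
    exact ⟨α, β, by rw [matOfBasisRes_eq_toMatrix, LinearMap.charpoly_toMatrix]; exact h⟩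
  · intro c hc hc0
    obtain ⟨ρ, hD, bb, hmat⟩ := hlift c hc hc0
    exact ⟨ρ, hD.1.1, hD.1.2.1, bb, hmat⟩

end Fermat.Agent.S56.Sel.FlatAtPWrap
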