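/-
S56 / SEL junction seam (helper188): the archimedean term of `ad⁰ ρ̄ (1)`.

`GW/Numeric.finrank_le_card_mul` consumes `hchi : χ₂(level T, M') ≤ -d` for `M' = ad⁰ ρ̄ (1)`,
`d = [k : 𝔽_p]`, while `EC.ECExit` produces `χ₂(level S, N) ≤ -cMinus N`
(`cMinus N = dim N^{c = -1}`, `c` the Prelude complex conjugation).  This file supplies the step
in between, `d ≤ cMinus (ad⁰ ρ̄ (1))`, model-independently:

* `trace_eq_zero_of_mul_self` : an involution of determinant `-1` in `M₂(k)` has trace `0`;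
* `tw_smul_self`              : `tw g (a • g) = det g • (a • g)`;
* `finrank_le_ker_twRep`      : if `σ * σ = 1` and `det ρ σ = -1`, the `(-1)`-eigenspace of `σ`
                                on `twRep F ρ` contains the `k`-line through `ρ σ`;
* `cMinus_congr`              : `cMinus` is invariant under isomorphisms;
* `le_cMinus_twRep`, `le_cMinus_dualTwist` : `[k : 𝔽_p] ≤ cMinus` for the matrix model and for the
                                twisted dual of any model of `ad⁰ ρ` (`TwRep` binders);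
* `det_matRho_complexConjugation` : the frozen `Hyp.hdet` gives `det ρ̄(c) = -1`;
* `chi2_dualTwist_le`         : `EC.ECExit` ⟹ `hchi` of `GW/Numeric` (N2), verbatim.
-/
import Fermat.Agent.S56.GW.TwRep
import Fermat.Agent.S56.EC.Contract
import Fermat.Agent.S56.G.HypAdapter
import Fermat.Agent.Lib.CycloChar

set_option autoImplicit false

open scoped NumberField
open CategoryTheory ExtCitation

namespace Fermat.Agent.S56.Sel.Odd

open Fermat.Agent.S55 Fermat.Agent.S55.Abs Fermat.Agent.S55.Count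
open Fermat.Agent.CFT.Global.CountV Fermat.Agent.CFT.Global.SelmerCount Fermat.Agent.S55.Glue
open Fermat.Agent.S56.G Fermat.Agent.S56.GW.TwRep Fermat.Agent.S56.EC

local notation "Qb" => AlgebraicClosure ℚ
local notation "Mat" => Matrix (Fin 2) (Fin 2)

/-! ### Matrix lemmas -/

/-- An involution of determinant `-1` in `M₂(k)` has trace zero. -/
theorem trace_eq_zero_of_mul_self {k : Type} [Field k] (R : Mat k) (hR : R * R = 1)
    (hdet : R.det = -1) : R.trace = 0 := by
  have h00 : R 0 0 * R 0 0 + R 0 1 * R 1 0 = 1 := by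
    have h := congrFun (congrFun hR 0) 0
    rwa [Matrix.mul_apply, Fin.sum_univ_two, Matrix.one_apply_eq] at h
  have h11 : R 1 0 * R 0 1 + R 1 1 * R 1 1 = 1 := by
    have h := congrFun (congrFun hR 1) 1
    rwa [Matrix.mul_apply, Fin.sum_univ_two, Matrix.one_apply_eq] at h
  rw [Matrix.det_fin_two] at hdet
  rw [Matrix.trace_fin_two]
  have hsq : (R 0 0 + R 1 1) ^ 2 = 0 := by
    linear_combination h00 + h11 + 2 * hdet
  exact (pow_eq_zero_iff two_ne_zero).mp hsq

/-- Conjugating a multiple of `g` by `g`: `tw g (a • g) = det g • (a • g)`. -/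
theorem tw_smul_self {k : Type} [Field k] (g : GL (Fin 2) k) (a : k) :
    tw g (a • g.val) = g.val.det • (a • g.val) := by
  have h1 : g.val * (g⁻¹ : GL (Fin 2) k).val = 1 := by
    rw [← Units.val_mul, mul_inv_cancel, Units.val_one]
  unfold tw
  rw [Matrix.mul_smul, Matrix.smul_mul, Matrix.mul_assoc, h1, Matrix.mul_one]

/-! ### The `(-1)`-eigenspace of an involution of determinant `-1` on `twRep` -/

/-- If `σ * σ = 1` and `det ρ σ = -1`, the `(-1)`-eigenspace of `σ` on the matrix model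
`twRep F ρ` of `ad⁰ ρ (1)` contains the `k`-line through `ρ σ`. -/
theorem finrank_le_ker_twRep {F : Type} [Field F] {k : Type} [Field k] [Algebra F k]
    [Module.Finite F k] {G : Type} [Group G] (ρ : G →* GL (Fin 2) k) (σ : G) (hσ : σ * σ = 1)
    (hdet : (ρ σ).val.det = -1) :
    Module.finrank F k ≤
      Module.finrank F ↥(LinearMap.ker ((twRep F ρ).ρ σ + LinearMap.id)) := by
  have hRR : (ρ σ).val * (ρ σ).val = 1 := by
    rw [← Units.val_mul, ← map_mul, hσ, map_one, Units.val_one]
  have htr : (ρ σ).val.trace = 0 := trace_eq_zero_of_mul_self _ hRR hdet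
  have hmem : ∀ a : k, a • (ρ σ).val ∈ GW.TwRep.M0 F k := fun a => by
    show (a • (ρ σ).val).trace = 0
    rw [Matrix.trace_smul, htr, smul_zero]
  have hker : ∀ a : k, ((⟨a • (ρ σ).val, hmem a⟩ : ↥(GW.TwRep.M0 F k)) : twRep F ρ) ∈
      LinearMap.ker ((twRep F ρ).ρ σ + LinearMap.id) := fun a => by
    rw [LinearMap.mem_ker, LinearMap.add_apply, LinearMap.id_apply]
    refine Subtype.ext ?_
    show tw (ρ σ) (a • (ρ σ).val) + a • (ρ σ).val = 0
    rw [tw_smul_self, hdet, neg_smul, one_smul, neg_add_cancel]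
  let j : k →ₗ[F] ↥(LinearMap.ker ((twRep F ρ).ρ σ + LinearMap.id)) :=
    { toFun := fun a => ⟨(⟨a • (ρ σ).val, hmem a⟩ : ↥(GW.TwRep.M0 F k)), hker a⟩
      map_add' := fun a b => by
        refine Subtype.ext (Subtype.ext ?_)
        show (a + b) • (ρ σ).val = a • (ρ σ).val + b • (ρ σ).val
        rw [add_smul]
      map_smul' := fun c a => by
        refine Subtype.ext (Subtype.ext ?_)
        show (c • a) • (ρ σ).val = c • (a • (ρ σ).val)
        rw [smul_assoc] }
  have hj : Function.Injective j := by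
    intro a b hab
    have h1 : a • (ρ σ).val = b • (ρ σ).val :=
      congrArg (fun z : ↥(LinearMap.ker ((twRep F ρ).ρ σ + LinearMap.id)) =>
        (((z : twRep F ρ) : ↥(GW.TwRep.M0 F k)) : Mat k)) hab
    have h2 : a • ((ρ σ).val * (ρ σ).val) = b • ((ρ σ).val * (ρ σ).val) := by
      rw [← Matrix.smul_mul, ← Matrix.smul_mul, h1]
    rw [hRR] at h2
    have h3 := congrFun (congrFun h2 0) 0
    simpa [Matrix.smul_apply] using h3
  have hfin : Module.Finite F (twRep F ρ) := finite_twRep ρ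
  exact LinearMap.finrank_le_finrank_of_injective hj

/-! ### `cMinus` -/

section CMinus

variable {p : ℕ} [Fact p.Prime]

/-- `cMinus` is invariant under isomorphisms of representations. -/
theorem cMinus_congr {X Y : Rep.{0} (ZMod p) GQ} (e : X ≅ Y) : cMinus X = cMinus Y := by
  let T : X ≃ₗ[ZMod p] Y := LinearEquiv.ofLinearMap e.hom.hom.toLinearMap e.inv.hom.toLinearMap
    (LinearMap.ext fun y => FunctorIso.hom_inv_apply e y)
    (LinearMap.ext fun x => FunctorIso.inv_hom_apply e x)
  have hT : ∀ x : X, T (X.ρ complexConjugation x) = Y.ρ complexConjugation (T x) :=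
    fun x => Rep.hom_comm_apply e.hom complexConjugation x
  have hmap : (LinearMap.ker (X.ρ complexConjugation + LinearMap.id)).map T.toLinearMap
      = LinearMap.ker (Y.ρ complexConjugation + LinearMap.id) := by
    ext y
    constructor
    · rintro ⟨x, hx, rfl⟩
      have hx' : X.ρ complexConjugation x + x = 0 := hx
      show T x ∈ LinearMap.ker (Y.ρ complexConjugation + LinearMap.id)
      rw [LinearMap.mem_ker, LinearMap.add_apply, LinearMap.id_apply, ← hT, ← map_add, hx',
        map_zero]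
    · intro hy
      have hy' : Y.ρ complexConjugation y + y = 0 := hy
      refine Submodule.mem_map.mpr ⟨T.symm y, ?_, T.apply_symm_apply y⟩
      show T.symm y ∈ LinearMap.ker (X.ρ complexConjugation + LinearMap.id)
      rw [LinearMap.mem_ker, LinearMap.add_apply, LinearMap.id_apply]
      apply T.injective
      rw [map_add, hT, T.apply_symm_apply, hy', map_zero]
  unfold cMinus
  rw [← hmap]
  exact (LinearEquiv.submoduleMap T _).finrank_eq

variable {k : Type} [Field k] [Algebra (ZMod p) k]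

/-- `[k : 𝔽_p] ≤ dim (ad⁰ ρ (1))^{c = -1}` in the matrix model, when `det ρ(c) = -1`. -/
theorem le_cMinus_twRep [Module.Finite (ZMod p) k] (ρ : GQ →* GL (Fin 2) k)
    (hc : (ρ complexConjugation).val.det = -1) :
    Module.finrank (ZMod p) k ≤ cMinus (twRep (ZMod p) ρ) :=
  finrank_le_ker_twRep ρ complexConjugation complexConjugation_mul_self hc

/-- `[k : 𝔽_p] ≤ dim (M^∨(1))^{c = -1}` for any model `M` of `ad⁰ ρ` (binders of
`TwRep.nonempty_twRep_iso_dualTwist`), when `det ρ = χ` and `det ρ(c) = -1`. -/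
theorem le_cMinus_dualTwist [FiniteDimensional (ZMod p) k] [Algebra.IsSeparable (ZMod p) k]
    (h2 : (2 : k) ≠ 0) (ρ : GQ →* GL (Fin 2) k) (χ : GQ →* (ZMod p)ˣ)
    (hdet : ∀ g, (ρ g).val.det = algebraMap (ZMod p) k (χ g : ZMod p))
    (hc : (ρ complexConjugation).val.det = -1)
    (M : Rep.{0} (ZMod p) GQ) [Module.Finite (ZMod p) M] (mat : M →ₗ[ZMod p] Mat k)
    (hinj : Function.Injective mat) (htr : ∀ x, (mat x).trace = 0)
    (hsurj : ∀ X : Mat k, X.trace = 0 → ∃ x, mat x = X)
    (heq : ∀ g x, mat (M.ρ g x) = (ρ g).val * mat x * ((ρ g)⁻¹ : GL (Fin 2) k).val) :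
    Module.finrank (ZMod p) k ≤ cMinus (M.dualTwist χ) := by
  obtain ⟨e⟩ := nonempty_twRep_iso_dualTwist h2 ρ χ hdet M mat hinj htr hsurj heq
  rw [← cMinus_congr e]
  exact le_cMinus_twRep ρ hc

end CMinus

/-! ### `det ρ̄(c) = -1` from the frozen hypotheses -/

/-- The frozen `hdet` (bundled in `Contract.Hyp`) gives `det ρ̄(c) = -1` for the Prelude complex
conjugation `c`. -/
theorem det_matRho_complexConjugation {𝒪 : Type} [CommRing 𝒪] [IsLocalRing 𝒪] {p : ℕ}
    [Fact p.Prime] {ρbar : ResidualGaloisRep (IsLocalRing.ResidueField 𝒪)} {S Smin : Finset ℕ}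
    (h : Contract.Hyp 𝒪 p ρbar S Smin)
    (b : Module.Basis (Fin 2) (IsLocalRing.ResidueField 𝒪) ρbar.V) :
    (HypAdapter.matRho ρbar b complexConjugation).val.det = -1 := by
  have hp : p.Prime := Fact.out
  have h1 := HypAdapter.det_eq_natCast h b complexConjugation (p - 1) (fun μ hμ => by
    rw [Fermat.Agent.Lib.CycloChar.complexConjugation_root hp.ne_zero hμ]
    exact (eq_inv_of_mul_eq_one_right
      (by rw [← pow_succ', Nat.sub_add_cancel hp.one_le, hμ])).symm)
  rw [h1, Nat.cast_sub hp.one_le, HypAdapter.natCast_p_eq_zero h, Nat.cast_one, zero_sub]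

/-! ### The exit: `hchi` of `GW/Numeric` (N2) from `EC.ECExit` -/

/-- **`hchi`.**  `EC.ECExit` applied to `N := M^∨(1)` for a model `M` of `ad⁰ ρ` which is trivial on
`Gal(ℚ̄/F)`: `χ₂(level S, M^∨(1)) ≤ -[k : 𝔽_p]`. -/
theorem chi2_dualTwist_le (hEC : ECExit) {p : ℕ} [Fact p.Prime] (hp2 : p ≠ 2)
    (S : Finset Nat.Primes) (hpS : pPrime p ∈ S)
    (F : IntermediateField ℚ Qb) [F.fixingSubgroup.Normal] (hF : F.IsUnramifiedOutside S)
    (hcyc : cycloField p ≤ F)
    (hcl : ∀ (K : IntermediateField ℚ Qb) [NumberField K], cycloField p ≤ K → K ≤ F →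
      (clS (𝓞 K) p (SK S K)).index = 1)
    (P : Sylow p (GQ ⧸ F.fixingSubgroup))
    (hTI : ∀ g : GQ ⧸ F.fixingSubgroup,
      g ∉ Subgroup.normalizer
        ((P : Subgroup (GQ ⧸ F.fixingSubgroup)) : Set (GQ ⧸ F.fixingSubgroup)) →
      (P : Subgroup (GQ ⧸ F.fixingSubgroup)) ⊓
        (P : Subgroup (GQ ⧸ F.fixingSubgroup)).map (MulAut.conj g).toMonoidHom = ⊥)
    {k : Type} [Field k] [Algebra (ZMod p) k] [FiniteDimensional (ZMod p) k]
    [Algebra.IsSeparable (ZMod p) k] (h2 : (2 : k) ≠ 0) (ρ : GQ →* GL (Fin 2) k)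
    (hdet : ∀ g, (ρ g).val.det = algebraMap (ZMod p) k (cycloChar p g : ZMod p))
    (hc : (ρ complexConjugation).val.det = -1)
    (hρF : ∀ g ∈ F.fixingSubgroup, ρ g = 1)
    (M : Rep.{0} (ZMod p) GQ) [Module.Finite (ZMod p) M] (mat : M →ₗ[ZMod p] Mat k)
    (hinj : Function.Injective mat) (htr : ∀ x, (mat x).trace = 0)
    (hsurj : ∀ X : Mat k, X.trace = 0 → ∃ x, mat x = X)
    (heq : ∀ g x, mat (M.ρ g x) = (ρ g).val * mat x * ((ρ g)⁻¹ : GL (Fin 2) k).val) :
    chi2 (globalLevel S) (M.dualTwist (cycloChar p)) ≤ -(Module.finrank (ZMod p) k : ℤ) := by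
  have hMtriv : ∀ g ∈ F.fixingSubgroup, ∀ x : M, M.ρ g x = x := by
    intro g hg x
    apply hinj
    rw [heq, hρF g hg, inv_one, Units.val_one, Matrix.one_mul, Matrix.mul_one]
  have hNtriv : ∀ g ∈ F.fixingSubgroup, ∀ f : M.dualTwist (cycloChar p),
      (M.dualTwist (cycloChar p)).ρ g f = f := by
    intro g hg f
    rw [Rep.dualTwist_ρ_apply,
      cycloChar_eq_one_of_mem_fixingSubgroup p (IntermediateField.fixingSubgroup_antitone hcyc hg),
      Units.val_one, one_smul]
    apply LinearMap.ext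
    intro x
    show f (M.ρ g⁻¹ x) = f x
    rw [hMtriv g⁻¹ (inv_mem hg) x]
  have hfin : Module.Finite (ZMod p) (M.dualTwist (cycloChar p)) :=
    inferInstanceAs (Module.Finite (ZMod p) (Module.Dual (ZMod p) M))
  have h1 := hEC p hp2 S hpS F hF hcyc hcl P hTI (M.dualTwist (cycloChar p)) hNtriv
  have h3 := le_cMinus_dualTwist h2 ρ (cycloChar p) hdet hc M mat hinj htr hsurj heq
  have h4 : (Module.finrank (ZMod p) k : ℤ) ≤ (cMinus (M.dualTwist (cycloChar p)) : ℤ) := by
    exact_mod_cast h3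
  linarith

end Fermat.Agent.S56.Sel.Odd
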