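/-
S56 / SEL junction seam `hchi`, final composition (helper188).

`GW/Numeric.finrank_le_card_mul` consumes `hchi : χ₂(level T, M^∨(1)) ≤ -d` for a model `M` of
`ad⁰ ρbar`, with `d = [k : 𝔽_p]`.  This file composes

* `G/ChiExit.exists_Sbig_chi2_dualTwist_le` (helper254): `EC.ECExit` at the splitting field of
  `ρbar`, giving `χ₂(level T, M^∨(1)) ≤ -cMinus (M^∨(1))` for every `T ⊇ Sbig`;
* `Sel/Odd.le_cMinus_dualTwist`: `[k : 𝔽_p] ≤ cMinus (M^∨(1))`, because `det ρbar(c) = -1`;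
* `GW/RhoLevel.det_rhoGL`: `det ρbar` is the mod `p` cyclotomic character,

under the frozen hypotheses `Contract.Hyp` only, for ANY model `(M, mat)` of `ad⁰ ρbar` in the
spelling of `TW/KillFinal` (`mat (g x) * ρ g = ρ g * mat x`, `ρ := rhoGL ρbar b0`):

* `det_rhoGL_complexConjugation` : `det (rhoGL ρbar b0 c) = -1`;
* `rho_eq_one_of_ker`            : a model of `ad⁰ ρbar` is trivial on `ker ρbar`;
* `exists_Sbig_hchi`             : `EC.ECExit → ∃ Sbig ⊇ S₁ ∪ {p} ∪ Smin, ∀ T ⊇ Sbig, ∀ model (M, mat),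
                                   χ₂(level T, M^∨(1)) ≤ -[k : 𝔽_p]` (the binder `hchi`, verbatim);
* `exists_Sbig_hchi_adRep`       : the same for the model `Sel.adRep (ZMod p) (matOfBasisRes ρbar b0)`
                                   of `Sel/Defs`.
-/
import Fermat.Agent.S56.Sel.Odd
import Fermat.Agent.S56.Sel.Defs
import Fermat.Agent.S56.G.ChiExit
import Fermat.Agent.S56.GW.RhoLevel

set_option autoImplicit false

open scoped NumberField
open CategoryTheory ExtCitation IsLocalRing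

namespace Fermat.Agent.S56.Sel.OddExit

open Fermat.Agent.S55 Fermat.Agent.S55.Abs Fermat.Agent.S55.Count
open Fermat.Agent.CFT.Global.CountV Fermat.Agent.CFT.Global.SelmerCount Fermat.Agent.S55.Glue
open Fermat.Agent.S56.EC Fermat.Agent.S56.TW.RhoHyp Fermat.Agent.S53.MatRep

local notation "Qb" => AlgebraicClosure ℚ

variable {𝒪 : Type} [CommRing 𝒪] [IsLocalRing 𝒪] {p : ℕ} [Fact p.Prime]
  {ρbar : ResidualGaloisRep (ResidueField 𝒪)} {S Smin : Finset ℕ}

/-- `det ρbar(c) = -1` for the `GL₂`-valued matrix form `rhoGL` of `TW/RhoHyp`. -/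
theorem det_rhoGL_complexConjugation (h : Contract.Hyp 𝒪 p ρbar S Smin)
    (b0 : Module.Basis (Fin 2) (ResidueField 𝒪) ρbar.V) :
    (rhoGL ρbar b0 complexConjugation).val.det = -1 := by
  have h1 := Odd.det_matRho_complexConjugation h b0
  rw [G.HypAdapter.matRho_val] at h1
  rw [rhoGL_val]
  exact h1

/-- The matrix of an element of `ker ρbar` is `1`. -/
theorem rhoGL_val_eq_one (b0 : Module.Basis (Fin 2) (ResidueField 𝒪) ρbar.V) {g : GQ}
    (hg : ρbar.ρ g = 1) : (rhoGL ρbar b0 g).val = 1 := by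
  rw [rhoGL_val, hg]
  exact LinearMap.toMatrix_one b0

/-- A model of `ad⁰ ρbar` (spelling of `TW/KillFinal`) is trivial on `ker ρbar`. -/
theorem rho_eq_one_of_ker [Algebra (ZMod p) (ResidueField 𝒪)]
    (b0 : Module.Basis (Fin 2) (ResidueField 𝒪) ρbar.V)
    (M : Rep.{0} (ZMod p) GQ) (mat : M →ₗ[ZMod p] Matrix (Fin 2) (Fin 2) (ResidueField 𝒪))
    (hinj : Function.Injective mat)
    (heq : ∀ g x, mat (M.ρ g x) * (rhoGL ρbar b0 g).val = (rhoGL ρbar b0 g).val * mat x)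
    {g : GQ} (hg : ρbar.ρ g = 1) : M.ρ g = 1 := by
  apply LinearMap.ext
  intro x
  apply hinj
  have h1 := heq g x
  rw [rhoGL_val_eq_one b0 hg, Matrix.mul_one, Matrix.one_mul] at h1
  exact h1

/-- **The binder `hchi` of `GW/Numeric.finrank_le_card_mul` from `EC.ECExit`.**  Under the frozen
hypotheses there is a finite set of primes `Sbig ⊇ S₁ ∪ {p} ∪ Smin` such that for every
`T ⊇ Sbig` and every model `(M, mat)` of `ad⁰ ρbar`:
`χ₂(level T, M^∨(1)) ≤ -[k : 𝔽_p]`. -/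
theorem exists_Sbig_hchi [Algebra (ZMod p) (ResidueField 𝒪)]
    [Module.Finite (ZMod p) (ResidueField 𝒪)]
    (hEC : ECExit) (h : Contract.Hyp 𝒪 p ρbar S Smin)
    (b0 : Module.Basis (Fin 2) (ResidueField 𝒪) ρbar.V) (S₁ : Finset Nat.Primes) :
    ∃ Sbig : Finset Nat.Primes, S₁ ⊆ Sbig ∧ pPrime p ∈ Sbig ∧
      (∀ q : Nat.Primes, (q : ℕ) ∈ Smin → q ∈ Sbig) ∧
      ∀ T : Finset Nat.Primes, Sbig ⊆ T →
        ∀ (M : Rep.{0} (ZMod p) GQ) [Module.Finite (ZMod p) M]
          (mat : M →ₗ[ZMod p] Matrix (Fin 2) (Fin 2) (ResidueField 𝒪)),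
          Function.Injective mat → (∀ x, (mat x).trace = 0) →
          (∀ X : Matrix (Fin 2) (Fin 2) (ResidueField 𝒪), X.trace = 0 → ∃ x, mat x = X) →
          (∀ g x, mat (M.ρ g x) * (rhoGL ρbar b0 g).val = (rhoGL ρbar b0 g).val * mat x) →
          chi2 (globalLevel T) (M.dualTwist (cycloChar p)) ≤
            -(Module.finrank (ZMod p) (ResidueField 𝒪) : ℤ) := by
  obtain ⟨Sbig, h1, h2, h3, h4⟩ := G.ChiExit.exists_Sbig_chi2_dualTwist_le hEC h S₁
  refine ⟨Sbig, h1, h2, h3, fun T hT M _ mat hinj htr hsurj heq => ?_⟩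
  have hne : NeZero p := ⟨(Fact.out : p.Prime).ne_zero⟩
  have hsep : Algebra.IsSeparable (ZMod p) (ResidueField 𝒪) := inferInstance
  have heq' : ∀ g x, mat (M.ρ g x) =
      (rhoGL ρbar b0 g).val * mat x *
        ((rhoGL ρbar b0 g)⁻¹ : GL (Fin 2) (ResidueField 𝒪)).val := by
    intro g x
    have hh : (rhoGL ρbar b0 g).val *
        ((rhoGL ρbar b0 g)⁻¹ : GL (Fin 2) (ResidueField 𝒪)).val = 1 := by
      rw [← Units.val_mul, mul_inv_cancel, Units.val_one]
    rw [← heq g x, Matrix.mul_assoc, hh, Matrix.mul_one]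
  have h5 := h4 T hT M (fun g hg => rho_eq_one_of_ker b0 M mat hinj heq hg)
  have h6 := Odd.le_cMinus_dualTwist (G.HypAdapter.two_ne_zero_of_hyp h) (rhoGL ρbar b0)
    (cycloChar p) (GW.RhoLevel.det_rhoGL h b0) (det_rhoGL_complexConjugation h b0) M mat hinj htr
    hsurj heq'
  have h7 : (Module.finrank (ZMod p) (ResidueField 𝒪) : ℤ) ≤
      (cMinus (M.dualTwist (cycloChar p)) : ℤ) := by
    exact_mod_cast h6
  linarith

/-- The same for the model `adRep (ZMod p) (matOfBasisRes ρbar b0)` of `Sel/Defs`. -/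
theorem exists_Sbig_hchi_adRep [Algebra (ZMod p) (ResidueField 𝒪)]
    [Module.Finite (ZMod p) (ResidueField 𝒪)]
    (hEC : ECExit) (h : Contract.Hyp 𝒪 p ρbar S Smin)
    (b0 : Module.Basis (Fin 2) (ResidueField 𝒪) ρbar.V) (S₁ : Finset Nat.Primes) :
    ∃ Sbig : Finset Nat.Primes, S₁ ⊆ Sbig ∧ pPrime p ∈ Sbig ∧
      (∀ q : Nat.Primes, (q : ℕ) ∈ Smin → q ∈ Sbig) ∧
      ∀ T : Finset Nat.Primes, Sbig ⊆ T →
        chi2 (globalLevel T)
            ((adRep (ZMod p) (matOfBasisRes ρbar b0)).dualTwist (cycloChar p)) ≤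
          -(Module.finrank (ZMod p) (ResidueField 𝒪) : ℤ) := by
  obtain ⟨Sbig, h1, h2, h3, h4⟩ := exists_Sbig_hchi hEC h b0 S₁
  exact ⟨Sbig, h1, h2, h3, fun T hT =>
    h4 T hT (adRep (ZMod p) (matOfBasisRes ρbar b0)) (adMat (ZMod p) (matOfBasisRes ρbar b0))
      (adMat_injective _) (adMat_trace _) (exists_adMat_eq _)
      (fun g x => adMat_rho_mul (matOfBasisRes ρbar b0) g x)⟩

end Fermat.Agent.S56.Sel.OddExit
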