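/-
S56, the Selmer junction: the brick `HChiStatement` of `Sel/Contract` from `EC.ECExit` (helper188).

`hChiStatement_of_ecExit : EC.ECExit → Sel.Contract.HChiStatement`, by `Sel/OddExit`
(`G/ChiExit` at the splitting field of `ρbar`, `Sel/Odd`: `[k : 𝔽_p] ≤ dim (ad⁰ ρbar (1))^{c = -1}`).
-/
import Fermat.Agent.S56.Sel.Contract
import Fermat.Agent.S56.Sel.OddExit

set_option autoImplicit false

namespace Fermat.Agent.S56.Sel.HChi

/-- **(CHI) from the exit of brick EC.** -/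
theorem hChiStatement_of_ecExit (hEC : Fermat.Agent.S56.EC.ECExit) :
    Fermat.Agent.S56.Sel.Contract.HChiStatement := by
  intro 𝒪 _ _ _ _ _ p _ ρbar S Smin hyp _ b0 S₁
  obtain ⟨Sbig, h1, -, -, h4⟩ :=
    Fermat.Agent.S56.Sel.OddExit.exists_Sbig_hchi_adRep hEC hyp b0 S₁
  exact ⟨Sbig, h1, h4⟩

end Fermat.Agent.S56.Sel.HChi
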