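import Mathlib
import Fermat.Agent.S56.Sel.Contract
import Fermat.Agent.S56.GW.UrClass
import Fermat.Agent.S56.GW.UrBig
import Fermat.Agent.S56.Loc.MatLoc

/-!
# S56, the Selmer junction: the brick `HurStatement` is a theorem

(helper173.)  `hurStatement : Sel.Contract.HurStatement`: the class of the `ε`-part `c` of a lift
`ρ` of `ρbar` to `k[ε]` is unramified at a prime `v ≠ p` where

* `ρbar` is unramified and `ρ` is unramified: `c` vanishes on inertia
  (`GW/UrBig.resT_mk_mem_H1ur_of_unramified_lift`, helper165);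
* `ρbar` is ramified and `ρ` is unipotent on inertia: `c σ * r̄ σ⁻¹ = X - r̄ σ X r̄ σ⁻¹` on
  inertia for a trace-zero `X` (`Loc/MatLoc.exists_inner_on_inertia_of_ramified`, helper48), so the
  class is a coboundary on inertia (`GW/UrClass.r1_mk_mem_H1ur_of_inertia`, helper146).
-/

set_option autoImplicit false
set_option linter.unusedSectionVars false
set_option linter.style.haveILetI false

open CategoryTheory groupCohomology ExtCitation IsLocalRing

namespace Fermat.Agent.S56.Sel.Hur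

open Fermat.Agent.S53.MatRep Fermat.Agent.S55.Abs Fermat.Agent.S55.Count
  Fermat.Agent.S56.TangentAd Fermat.Agent.S56.GW Fermat.Agent.S56.GW.LevelLowerUr
  Fermat.Agent.S56.TW.RhoHyp Fermat.Agent.S56.Sel Fermat.Agent.S56.Sel.Contract

local notation "Qb" => AlgebraicClosure ℚ
local notation "GQ" => (AlgebraicClosure ℚ ≃ₐ[ℚ] AlgebraicClosure ℚ)
local notation "Mat" => Matrix (Fin 2) (Fin 2)

/-- **(UR) is a theorem.** -/
theorem hurStatement : HurStatement := by
  intro 𝒪 _ _ _ _ _ p _ ρbar S Smin hyp _ b0 T hpT hSminT v hvp c ρ bb hmat hunr hunip z hz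
  haveI : CharP (ResidueField 𝒪) p := charP_of_hyp hyp
  by_cases hur : ρbar.IsUnramifiedAt (v.1 : ℕ)
  · exact Fermat.Agent.S56.GW.UrBig.resT_mk_mem_H1ur_of_unramified_lift
      (adMat (ZMod p) (matOfBasisRes ρbar b0)).toAddMonoidHom
      (adMat_injective (matOfBasisRes ρbar b0)) (matOfBasisRes ρbar b0) c z hz ρ bb hmat v
      (hunr hur)
  · have hvp' : (v.1 : ℕ) ≠ p := fun e => hvp (Subtype.ext e)
    obtain ⟨X, hX, hXσ⟩ := Fermat.Agent.S56.Loc.MatLoc.exists_inner_on_inertia_of_ramified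
      hyp.hp2 v.1.2 hvp' ρbar b0 hur c ρ bb hmat (hunip hur) (primeLocalPlace v.1)
      (Fermat.Agent.S55.Glue.UnramLevel.liesOverPrime_primeLocalPlace v.1)
    obtain ⟨m, hm⟩ := exists_adMat_eq (F := ZMod p) (matOfBasisRes ρbar b0) (-X)
      (by rw [Matrix.trace_neg, hX, neg_zero])
    have hN : IsDisc (globalLevel T) (adRep (ZMod p) (matOfBasisRes ρbar b0)) := by
      obtain ⟨F, hF, hr⟩ :=
        Fermat.Agent.S56.GW.RhoLevel.exists_field_matOfBasisRes hyp b0 T hSminT
      exact isDisc_adRep (globalLevel T) (matOfBasisRes ρbar b0)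
        ⟨F.fixingSubgroup, ⟨F, hF, rfl⟩, hr⟩
    refine Fermat.Agent.S56.GW.UrClass.r1_mk_mem_H1ur_of_inertia hpT (invS p T) hN v z m
      fun τ hτ => ?_
    apply adMat_injective (matOfBasisRes ρbar b0)
    rw [hz τ, (hXσ τ hτ).2, map_sub, adMat_rho, hm]
    simp only [Matrix.mul_neg, Matrix.neg_mul, sub_neg_eq_add]
    abel

end Fermat.Agent.S56.Sel.Hur
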