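/-
S56, junction SEL (helper49): Schur's lemma in the frozen vocabulary.

For `ρbar : ResidualGaloisRep k`:

* `exists_eq_smul_one_of_comm_on` : an endomorphism commuting with `ρbar σ` for all `σ` in a
  subgroup `G` on which `ρbar ⊗ k̄` is irreducible is a scalar;
* `exists_eq_smul_one_of_comm` : the case `G = ⊤` (`ρbar` absolutely irreducible);
* `eq_zero_of_comm_of_trace_eq_zero` : for `2 ≠ 0` in `k`, a trace-zero endomorphism commuting
  with an absolutely irreducible `ρbar` is zero (`H⁰(G_ℚ, ad⁰ ρbar) = 0`);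
* `eq_zero_of_twisted_comm` : if `ρbar ⊗ k̄` is irreducible on `G_ℚ` and on every subgroup of
  index two (the frozen Taylor–Wiles hypothesis), `χ : G_ℚ →* kˣ` is a non-trivial character
  and `ρ σ * X = χ σ • (X * ρ σ)` for all `σ`, then `X = 0` (`H⁰(G_ℚ, ad ρbar (1)) = 0`,
  uniformly in `p ≥ 3`).

Mathlib + the frozen definition module only.
-/
import Mathlib
import Fermat.Prelude.Def_GaloisRep_Residual

set_option autoImplicit false

open scoped TensorProduct

namespace Fermat.Agent.S56.Sel.Schur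

local notation "GQ" => (AlgebraicClosure ℚ ≃ₐ[ℚ] AlgebraicClosure ℚ)

variable {k : Type} [Field k]

/-- `w ↦ 1 ⊗ w` is injective for a field extension. -/
theorem tmul_one_injective (K : Type) [Field K] [Algebra k K] (V : Type) [AddCommGroup V]
    [Module k V] : Function.Injective fun w : V => (1 : K) ⊗ₜ[k] w := by
  intro x y hxy
  let b := Module.Free.chooseBasis k V
  have h1 : ∀ w : V, (Algebra.TensorProduct.basis K b).repr ((1 : K) ⊗ₜ[k] w)
      = (b.repr w).mapRange (algebraMap k K) (map_zero _) := by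
    intro w
    ext i
    rw [Algebra.TensorProduct.basis_repr_tmul, one_smul, Finsupp.mapRange_apply]
  have h2 : (b.repr x).mapRange (algebraMap k K) (map_zero _)
      = (b.repr y).mapRange (algebraMap k K) (map_zero _) := by
    rw [← h1, ← h1]
    exact congrArg _ hxy
  have h3 : b.repr x = b.repr y :=
    Finsupp.mapRange_injective _ (map_zero _) (algebraMap k K).injective h2
  exact b.repr.injective h3

/-- An endomorphism whose base change vanishes is zero. -/
theorem eq_zero_of_baseChange_eq_zero (K : Type) [Field K] [Algebra k K] {V : Type}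
    [AddCommGroup V] [Module k V] (X : Module.End k V) (h : X.baseChange K = 0) : X = 0 := by
  ext w
  apply tmul_one_injective (k := k) K V
  show (1 : K) ⊗ₜ[k] X w = (1 : K) ⊗ₜ[k] ((0 : Module.End k V) w)
  rw [← LinearMap.baseChange_tmul, h, LinearMap.zero_apply, LinearMap.zero_apply,
    TensorProduct.tmul_zero]

/-- Schur's lemma over an algebraically closed field, for a family `T` of endomorphisms acting
irreducibly. -/
theorem exists_forall_eq_smul_of_comm {K V : Type} [Field K] [IsAlgClosed K] [AddCommGroup V]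
    [Module K V] [FiniteDimensional K V] [Nontrivial V] (T : Set (Module.End K V))
    (hirr : ∀ W : Submodule K V, (∀ t ∈ T, ∀ x ∈ W, t x ∈ W) → W = ⊥ ∨ W = ⊤)
    (Y : Module.End K V) (hY : ∀ t ∈ T, Y * t = t * Y) : ∃ μ : K, ∀ x : V, Y x = μ • x := by
  obtain ⟨μ, hμ⟩ := Module.End.exists_eigenvalue Y
  have hstab : ∀ t ∈ T, ∀ x ∈ Module.End.eigenspace Y μ, t x ∈ Module.End.eigenspace Y μ := by
    intro t ht x hx
    rw [Module.End.mem_eigenspace_iff] at hx ⊢
    have h := congrArg (fun f : Module.End K V => f x) (hY t ht)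
    simp only [Module.End.mul_apply] at h
    rw [h, hx, map_smul]
  have htop : Module.End.eigenspace Y μ = ⊤ := by
    rcases hirr (Module.End.eigenspace Y μ) hstab with h | h
    · exact absurd h hμ
    · exact h
  exact ⟨μ, fun x => Module.End.mem_eigenspace_iff.mp (htop ▸ Submodule.mem_top)⟩

/-- Descent of scalars: if the base change of `X` is the scalar `μ`, then `X` is a scalar. -/
theorem exists_eq_smul_one_of_baseChange (K : Type) [Field K] [Algebra k K] {V : Type}
    [AddCommGroup V] [Module k V] [Nontrivial V] (X : Module.End k V) (μ : K)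
    (hall : ∀ x : K ⊗[k] V, X.baseChange K x = μ • x) :
    ∃ c : k, X = c • (1 : Module.End k V) := by
  classical
  have hall' : ∀ w : V, (1 : K) ⊗ₜ[k] X w = μ • ((1 : K) ⊗ₜ[k] w) := by
    intro w
    rw [← hall ((1 : K) ⊗ₜ[k] w), LinearMap.baseChange_tmul]
  let b := Module.Free.chooseBasis k V
  obtain ⟨i⟩ := b.index_nonempty
  have hμ : μ = algebraMap k K (b.repr (X (b i)) i) := by
    have h2 := congrArg (fun t => (Algebra.TensorProduct.basis K b).repr t i) (hall' (b i))
    simp only [map_smul, Algebra.TensorProduct.basis_repr_tmul, one_smul, Finsupp.mapRange_apply,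
      Finsupp.smul_apply, Module.Basis.repr_self, Finsupp.single_eq_same, map_one, smul_eq_mul,
      mul_one] at h2
    exact h2.symm
  refine ⟨b.repr (X (b i)) i, ?_⟩
  ext w
  apply tmul_one_injective (k := k) K V
  show (1 : K) ⊗ₜ[k] X w = (1 : K) ⊗ₜ[k] ((b.repr (X (b i)) i • (1 : Module.End k V)) w)
  rw [hall' w, hμ, LinearMap.smul_apply, Module.End.one_apply, TensorProduct.tmul_smul,
    TensorProduct.smul_tmul', TensorProduct.smul_tmul', Algebra.algebraMap_eq_smul_one,
    smul_assoc, one_smul]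

/-- **Schur's lemma on a subgroup**: if `ρbar ⊗ k̄` is irreducible on the subgroup `G`, an
endomorphism commuting with `ρbar σ` for all `σ ∈ G` is a scalar. -/
theorem exists_eq_smul_one_of_comm_on (ρbar : ResidualGaloisRep k) (G : Subgroup GQ)
    (hG : ∀ W : Submodule (AlgebraicClosure k) (ρbar.baseChange (AlgebraicClosure k)).V,
      (∀ σ ∈ G, ∀ x ∈ W, (ρbar.baseChange (AlgebraicClosure k)).ρ σ x ∈ W) → W = ⊥ ∨ W = ⊤)
    (X : Module.End k ρbar.V) (hX : ∀ σ ∈ G, X * ρbar.ρ σ = ρbar.ρ σ * X) :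
    ∃ c : k, X = c • (1 : Module.End k ρbar.V) := by
  have : Nontrivial ρbar.V := Module.nontrivial_of_finrank_pos (R := k)
    (by rw [ρbar.finrank_eq]; norm_num)
  have : Nontrivial (ρbar.baseChange (AlgebraicClosure k)).V :=
    Module.nontrivial_of_finrank_pos (R := AlgebraicClosure k)
      (by rw [(ρbar.baseChange (AlgebraicClosure k)).finrank_eq]; norm_num)
  obtain ⟨μ, hall⟩ := exists_forall_eq_smul_of_comm
    (K := AlgebraicClosure k) (V := (ρbar.baseChange (AlgebraicClosure k)).V)
    {t | ∃ σ ∈ G, t = (ρbar.baseChange (AlgebraicClosure k)).ρ σ}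
    (fun W hW => hG W (fun σ hσ x hx => hW _ ⟨σ, hσ, rfl⟩ x hx))
    (X.baseChange (AlgebraicClosure k))
    (by
      rintro t ⟨σ, hσ, rfl⟩
      show X.baseChange (AlgebraicClosure k) * (ρbar.ρ σ).baseChange (AlgebraicClosure k)
        = (ρbar.ρ σ).baseChange (AlgebraicClosure k) * X.baseChange (AlgebraicClosure k)
      rw [← LinearMap.baseChange_mul, ← LinearMap.baseChange_mul, hX σ hσ])
  exact exists_eq_smul_one_of_baseChange (AlgebraicClosure k) X μ hall

/-- **Schur's lemma**: an endomorphism commuting with an absolutely irreducible `ρbar` is a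
scalar. -/
theorem exists_eq_smul_one_of_comm (ρbar : ResidualGaloisRep k)
    (habs : ρbar.IsAbsolutelyIrreducible) (X : Module.End k ρbar.V)
    (hX : ∀ σ : GQ, X * ρbar.ρ σ = ρbar.ρ σ * X) :
    ∃ c : k, X = c • (1 : Module.End k ρbar.V) :=
  exists_eq_smul_one_of_comm_on ρbar ⊤ (fun W hW => habs W (fun σ => hW σ (Subgroup.mem_top σ)))
    X (fun σ _ => hX σ)

/-- `H⁰(G_ℚ, ad⁰ ρbar) = 0`: for `2 ≠ 0` in `k`, a trace-zero endomorphism commuting with an
absolutely irreducible `ρbar` is zero. -/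
theorem eq_zero_of_comm_of_trace_eq_zero (ρbar : ResidualGaloisRep k)
    (habs : ρbar.IsAbsolutelyIrreducible) (h2 : (2 : k) ≠ 0) (X : Module.End k ρbar.V)
    (hX : ∀ σ : GQ, X * ρbar.ρ σ = ρbar.ρ σ * X) (htr : LinearMap.trace k ρbar.V X = 0) :
    X = 0 := by
  obtain ⟨c, rfl⟩ := exists_eq_smul_one_of_comm ρbar habs X hX
  rw [map_smul, LinearMap.trace_one, ρbar.finrank_eq, smul_eq_mul] at htr
  have hc : c = 0 := by
    rcases mul_eq_zero.mp htr with h | h
    · exact h
    · exact absurd (by exact_mod_cast h) h2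
  rw [hc, zero_smul]

/-- **Twisted Schur** (`H⁰(G_ℚ, ad ρbar (1)) = 0`): let `ρbar ⊗ k̄` be irreducible on `G_ℚ` and
on every subgroup of index two, and let `χ : G_ℚ →* kˣ` be a non-trivial character.  If
`ρ σ * X = χ σ • (X * ρ σ)` for all `σ`, then `X = 0`. -/
theorem eq_zero_of_twisted_comm (ρbar : ResidualGaloisRep k)
    (habs : ρbar.IsAbsolutelyIrreducible)
    (hTW : ∀ G : Subgroup GQ, G.index = 2 →
      ∀ W : Submodule (AlgebraicClosure k) (ρbar.baseChange (AlgebraicClosure k)).V,
        (∀ σ ∈ G, ∀ x ∈ W, (ρbar.baseChange (AlgebraicClosure k)).ρ σ x ∈ W) → W = ⊥ ∨ W = ⊤)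
    (χ : GQ →* kˣ) (σ₀ : GQ) (hχ : χ σ₀ ≠ 1) (X : Module.End k ρbar.V)
    (hX : ∀ σ : GQ, ρbar.ρ σ * X = (χ σ : k) • (X * ρbar.ρ σ)) : X = 0 := by
  classical
  by_contra hX0
  have : Nontrivial ρbar.V := Module.nontrivial_of_finrank_pos (R := k)
    (by rw [ρbar.finrank_eq]; norm_num)
  have hinv : ∀ σ : GQ, ρbar.ρ σ * ρbar.ρ σ⁻¹ = 1 := fun σ => by
    rw [← map_mul, mul_inv_cancel, map_one]
  -- the kernel of the base change of `X` is stable
  have hker : ∀ σ : GQ, ∀ x ∈ LinearMap.ker (X.baseChange (AlgebraicClosure k)),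
      (ρbar.baseChange (AlgebraicClosure k)).ρ σ x
        ∈ LinearMap.ker (X.baseChange (AlgebraicClosure k)) := by
    intro σ x hx
    rw [LinearMap.mem_ker] at hx ⊢
    have h2 : X * ρbar.ρ σ = ((χ σ)⁻¹ : kˣ) • (ρbar.ρ σ * X) := by
      rw [hX σ, Units.smul_def, smul_smul, Units.inv_mul, one_smul]
    have h3 : X.baseChange (AlgebraicClosure k) * (ρbar.ρ σ).baseChange (AlgebraicClosure k)
        = (((χ σ)⁻¹ : kˣ) : k) •
          ((ρbar.ρ σ).baseChange (AlgebraicClosure k) * X.baseChange (AlgebraicClosure k)) := by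
      rw [← LinearMap.baseChange_mul, ← LinearMap.baseChange_mul, h2, Units.smul_def,
        LinearMap.baseChange_smul]
    have h4 := congrArg (fun f : Module.End (AlgebraicClosure k) (AlgebraicClosure k ⊗[k] ρbar.V)
      => f x) h3
    simp only [Module.End.mul_apply, LinearMap.smul_apply] at h4
    show X.baseChange (AlgebraicClosure k) ((ρbar.ρ σ).baseChange (AlgebraicClosure k) x) = 0
    rw [h4, hx, map_zero, smul_zero]
  have hkerbot : LinearMap.ker (X.baseChange (AlgebraicClosure k)) = ⊥ := by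
    rcases habs _ hker with h | h
    · exact h
    · exact absurd (eq_zero_of_baseChange_eq_zero (AlgebraicClosure k) X
        (LinearMap.ker_eq_top.mp h)) hX0
  have hdetX : LinearMap.det X ≠ 0 := by
    intro h0
    have h1 : LinearMap.det (X.baseChange (AlgebraicClosure k)) = 0 := by
      rw [LinearMap.det_baseChange, h0, map_zero]
    have h2 := LinearMap.bot_lt_ker_of_det_eq_zero h1
    rw [hkerbot] at h2
    exact lt_irrefl _ h2
  -- determinants: `χ σ ^ 2 = 1`
  have hsq : ∀ σ : GQ, (χ σ : k) ^ 2 = 1 := by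
    intro σ
    have hdet : LinearMap.det (ρbar.ρ σ) ≠ 0 := by
      intro h0
      have h1 := congrArg LinearMap.det (hinv σ)
      rw [map_mul, h0, zero_mul, map_one] at h1
      exact zero_ne_one h1
    have h := congrArg LinearMap.det (hX σ)
    rw [map_mul, LinearMap.det_smul, map_mul, ρbar.finrank_eq] at h
    have h' : LinearMap.det (ρbar.ρ σ) * LinearMap.det X * 1
        = LinearMap.det (ρbar.ρ σ) * LinearMap.det X * (χ σ : k) ^ 2 := by
      linear_combination h
    exact (mul_left_cancel₀ (mul_ne_zero hdet hdetX) h').symm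
  have hpm : ∀ σ : GQ, (χ σ : k) = 1 ∨ (χ σ : k) = -1 := fun σ => sq_eq_one_iff.mp (hsq σ)
  have hχ' : (χ σ₀ : k) ≠ 1 := fun h => hχ (Units.val_eq_one.mp h)
  have h0 : (χ σ₀ : k) = -1 := (hpm σ₀).resolve_left hχ'
  have hne : (1 : k) ≠ -1 := fun h => hχ' (h0.trans h.symm)
  -- the kernel of `χ` has index two
  have hidx : χ.ker.index = 2 := by
    rw [Subgroup.index_eq_two_iff]
    refine ⟨σ₀, fun b => ?_⟩
    have hb1 : b * σ₀ ∈ χ.ker ↔ (χ b : k) = -1 := by
      rw [MonoidHom.mem_ker, ← Units.val_eq_one, map_mul, Units.val_mul, h0, mul_neg, mul_one,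
        neg_eq_iff_eq_neg]
    have hb2 : b ∈ χ.ker ↔ (χ b : k) = 1 := by
      rw [MonoidHom.mem_ker, ← Units.val_eq_one]
    rw [hb1, hb2]
    rcases hpm b with h | h
    · exact Or.inr ⟨h, fun h' => hne (h.symm.trans h')⟩
    · exact Or.inl ⟨h, fun h' => hne (h'.symm.trans h)⟩
  -- Schur on the kernel of `χ`
  obtain ⟨c, hc⟩ := exists_eq_smul_one_of_comm_on ρbar χ.ker (hTW χ.ker hidx) X (by
    intro σ hσ
    have h := hX σ
    rw [MonoidHom.mem_ker.mp hσ, Units.val_one, one_smul] at h
    exact h.symm)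
  have h := hX σ₀
  rw [hc, h0, mul_smul_comm, smul_mul_assoc, mul_one, one_mul, smul_smul] at h
  have h5 : (c - -1 * c) • ρbar.ρ σ₀ = 0 := by rw [sub_smul, h, sub_self]
  have h6 : (c - -1 * c) • (1 : Module.End k ρbar.V) = 0 := by
    rw [← hinv σ₀, ← smul_mul_assoc, h5, zero_mul]
  have h7 : c - -1 * c = 0 := by
    rcases smul_eq_zero.mp h6 with h | h
    · exact h
    · exact absurd h one_ne_zero
  have h8 : (1 - -1 : k) * c = 0 := by rw [← h7]; ring
  have hc0 : c = 0 := by
    rcases mul_eq_zero.mp h8 with h | h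
    · exact absurd (sub_eq_zero.mp h) hne
    · exact h
  exact hX0 (by rw [hc, hc0, zero_smul])

end Fermat.Agent.S56.Sel.Schur
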