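/-
S56, junction SEL, row D2 (helper49): `H⁰(G_ℚ, ad⁰ ρbar) = 0` in the matrix model.

`ρbar : ResidualGaloisRep k` absolutely irreducible, `2 ≠ 0` in `k`, `b0` a basis of `ρbar.V`,
`Mbar := matOfBasisRes ρbar b0`.

* `exists_eq_smul_one_of_comm_mat`, `eq_zero_of_comm_mat` : Schur's lemma for `Mbar`
  (a matrix commuting with all `Mbar σ` is scalar; a trace-zero one is zero);
* `eq_zero_of_twisted_comm_mat` : the twisted form (`Mbar σ * X = χ σ • (X * Mbar σ)`,
  `χ ≠ 1`, the frozen Taylor–Wiles hypothesis on index-two subgroups);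
* `eq_zero_of_invariant` : in ANY model `mat : N → M₂(k)` of the adjoint (injective, `mat 0 = 0`,
  trace-zero values, `mat (g • x) * Mbar g = Mbar g * mat x`) an invariant element is zero;
* `finrank_H0_eq_zero` : `Module.finrank F (S55.Abs.H0 N) = 0` — the hypothesis `hH0` of
  `GW/Numeric.finrank_le_card_mul`, binders of `Loc/TameH0`;
* `finrank_H0_eq_zero_of_conj` : the same with the conjugation written with an inverse
  (`j (g • x) = Mbar g * j x * Mbar g⁻¹`, `j` additive — the shape of `Sel/ClassMap.IsAdModel`).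
-/
import Fermat.Agent.S56.Sel.Schur
import Fermat.Agent.S53.MatRep
import Fermat.Agent.S55.Abs.LES

set_option autoImplicit false

namespace Fermat.Agent.S56.Sel.SchurH0

open Fermat.Agent.S53.MatRep

local notation "GQ" => (AlgebraicClosure ℚ ≃ₐ[ℚ] AlgebraicClosure ℚ)

variable {k : Type} [Field k]

/-- Matrix Schur on a subgroup: if `ρbar ⊗ k̄` is irreducible on `G`, a matrix commuting with
`matOfBasisRes ρbar b0 σ` for all `σ ∈ G` is scalar. -/
theorem exists_eq_smul_one_of_comm_on_mat (ρbar : ResidualGaloisRep k) (G : Subgroup GQ)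
    (hG : ∀ W : Submodule (AlgebraicClosure k) (ρbar.baseChange (AlgebraicClosure k)).V,
      (∀ σ ∈ G, ∀ x ∈ W, (ρbar.baseChange (AlgebraicClosure k)).ρ σ x ∈ W) → W = ⊥ ∨ W = ⊤)
    (b0 : Module.Basis (Fin 2) k ρbar.V) (X : Matrix (Fin 2) (Fin 2) k)
    (hX : ∀ σ ∈ G, X * matOfBasisRes ρbar b0 σ = matOfBasisRes ρbar b0 σ * X) :
    ∃ c : k, X = c • (1 : Matrix (Fin 2) (Fin 2) k) := by
  let e : Module.End k ρbar.V ≃ₐ[k] Matrix (Fin 2) (Fin 2) k := LinearMap.toMatrixAlgEquiv b0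
  have he : ∀ σ, matOfBasisRes ρbar b0 σ = e (ρbar.ρ σ) := fun σ => rfl
  obtain ⟨c, hc⟩ := Schur.exists_eq_smul_one_of_comm_on ρbar G hG (e.symm X) (by
    intro σ hσ
    apply e.injective
    rw [map_mul, map_mul, e.apply_symm_apply, ← he, hX σ hσ])
  refine ⟨c, ?_⟩
  have h := congrArg e hc
  rw [e.apply_symm_apply, map_smul, map_one] at h
  exact h

/-- Matrix Schur: a matrix commuting with all `matOfBasisRes ρbar b0 σ` is scalar. -/
theorem exists_eq_smul_one_of_comm_mat (ρbar : ResidualGaloisRep k)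
    (habs : ρbar.IsAbsolutelyIrreducible) (b0 : Module.Basis (Fin 2) k ρbar.V)
    (X : Matrix (Fin 2) (Fin 2) k)
    (hX : ∀ σ : GQ, X * matOfBasisRes ρbar b0 σ = matOfBasisRes ρbar b0 σ * X) :
    ∃ c : k, X = c • (1 : Matrix (Fin 2) (Fin 2) k) :=
  exists_eq_smul_one_of_comm_on_mat ρbar ⊤
    (fun W hW => habs W (fun σ => hW σ (Subgroup.mem_top σ))) b0 X (fun σ _ => hX σ)

/-- A trace-zero matrix commuting with all `matOfBasisRes ρbar b0 σ` is zero (`2 ≠ 0`). -/
theorem eq_zero_of_comm_mat (ρbar : ResidualGaloisRep k) (habs : ρbar.IsAbsolutelyIrreducible)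
    (h2 : (2 : k) ≠ 0) (b0 : Module.Basis (Fin 2) k ρbar.V) (X : Matrix (Fin 2) (Fin 2) k)
    (htr : X.trace = 0)
    (hX : ∀ σ : GQ, X * matOfBasisRes ρbar b0 σ = matOfBasisRes ρbar b0 σ * X) : X = 0 := by
  obtain ⟨c, rfl⟩ := exists_eq_smul_one_of_comm_mat ρbar habs b0 X hX
  rw [Matrix.trace_smul, Matrix.trace_one, Fintype.card_fin, smul_eq_mul] at htr
  have hc : c = 0 := by
    rcases mul_eq_zero.mp htr with h | h
    · exact h
    · exact absurd (by exact_mod_cast h) h2
  rw [hc, zero_smul]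

/-- Twisted matrix Schur: `Mbar σ * X = χ σ • (X * Mbar σ)` for all `σ`, `χ` a non-trivial
character, forces `X = 0` (hypotheses: `ρbar ⊗ k̄` irreducible on `G_ℚ` and on its subgroups of
index two). -/
theorem eq_zero_of_twisted_comm_mat (ρbar : ResidualGaloisRep k)
    (habs : ρbar.IsAbsolutelyIrreducible)
    (hTW : ∀ G : Subgroup GQ, G.index = 2 →
      ∀ W : Submodule (AlgebraicClosure k) (ρbar.baseChange (AlgebraicClosure k)).V,
        (∀ σ ∈ G, ∀ x ∈ W, (ρbar.baseChange (AlgebraicClosure k)).ρ σ x ∈ W) → W = ⊥ ∨ W = ⊤)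
    (b0 : Module.Basis (Fin 2) k ρbar.V) (χ : GQ →* kˣ) (σ₀ : GQ) (hχ : χ σ₀ ≠ 1)
    (X : Matrix (Fin 2) (Fin 2) k)
    (hX : ∀ σ : GQ, matOfBasisRes ρbar b0 σ * X = (χ σ : k) • (X * matOfBasisRes ρbar b0 σ)) :
    X = 0 := by
  let e : Module.End k ρbar.V ≃ₐ[k] Matrix (Fin 2) (Fin 2) k := LinearMap.toMatrixAlgEquiv b0
  have he : ∀ σ, matOfBasisRes ρbar b0 σ = e (ρbar.ρ σ) := fun σ => rfl
  have h0 : e.symm X = 0 := Schur.eq_zero_of_twisted_comm ρbar habs hTW χ σ₀ hχ (e.symm X) (by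
    intro σ
    apply e.injective
    rw [map_mul, map_smul, map_mul, e.apply_symm_apply, ← he, hX σ])
  have h := congrArg e h0
  rw [e.apply_symm_apply, map_zero] at h
  exact h

/-- In any matrix model of the adjoint of `ρbar` with trace-zero values, an invariant element
is zero. -/
theorem eq_zero_of_invariant {F : Type} [Field F] (ρbar : ResidualGaloisRep k)
    (habs : ρbar.IsAbsolutelyIrreducible) (h2 : (2 : k) ≠ 0)
    (b0 : Module.Basis (Fin 2) k ρbar.V) (N : Rep.{0} F GQ)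
    (mat : N → Matrix (Fin 2) (Fin 2) k) (hinj : Function.Injective mat) (h0 : mat 0 = 0)
    (htr : ∀ x, (mat x).trace = 0)
    (heq : ∀ g x, mat (N.ρ g x) * matOfBasisRes ρbar b0 g = matOfBasisRes ρbar b0 g * mat x)
    (x : N) (hx : ∀ g : GQ, N.ρ g x = x) : x = 0 := by
  apply hinj
  rw [h0]
  refine eq_zero_of_comm_mat ρbar habs h2 b0 (mat x) (htr x) (fun σ => ?_)
  have h := heq σ x
  rw [hx σ] at h
  exact h

/-- **`H⁰(G_ℚ, ad⁰ ρbar) = 0`** (the hypothesis `hH0` of `GW/Numeric.finrank_le_card_mul`):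
for any `F`-representation `N` of `G_ℚ` with an injective `F`-linear `mat` into the `2 × 2`
matrices over `k`, trace-zero values and `mat (g • x) * Mbar g = Mbar g * mat x`. -/
theorem finrank_H0_eq_zero {F : Type} [Field F] [Algebra F k] (ρbar : ResidualGaloisRep k)
    (habs : ρbar.IsAbsolutelyIrreducible) (h2 : (2 : k) ≠ 0)
    (b0 : Module.Basis (Fin 2) k ρbar.V) (N : Rep.{0} F GQ)
    (mat : N →ₗ[F] Matrix (Fin 2) (Fin 2) k) (hinj : Function.Injective mat)
    (htr : ∀ x, (mat x).trace = 0)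
    (heq : ∀ g x, mat (N.ρ g x) * matOfBasisRes ρbar b0 g = matOfBasisRes ρbar b0 g * mat x) :
    Module.finrank F (S55.Abs.H0 N) = 0 := by
  have hsub : Subsingleton (S55.Abs.H0 N) := by
    refine ⟨fun x y => ?_⟩
    have hx : x = 0 := Subtype.ext
      (eq_zero_of_invariant ρbar habs h2 b0 N mat hinj (map_zero mat) htr heq x.1 x.2)
    have hy : y = 0 := Subtype.ext
      (eq_zero_of_invariant ρbar habs h2 b0 N mat hinj (map_zero mat) htr heq y.1 y.2)
    rw [hx, hy]
  exact Module.finrank_zero_of_subsingleton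

/-- The same with the conjugation written with an inverse and `j` merely additive (the shape
of `Sel/ClassMap.IsAdModel`; no surjectivity needed). -/
theorem finrank_H0_eq_zero_of_conj {F : Type} [Field F] (ρbar : ResidualGaloisRep k)
    (habs : ρbar.IsAbsolutelyIrreducible) (h2 : (2 : k) ≠ 0)
    (b0 : Module.Basis (Fin 2) k ρbar.V) (N : Rep.{0} F GQ)
    (j : N →+ Matrix (Fin 2) (Fin 2) k) (hinj : Function.Injective j)
    (htr : ∀ x, (j x).trace = 0)
    (heq : ∀ (g : GQ) (x : N),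
      j (N.ρ g x) = matOfBasisRes ρbar b0 g * j x * matOfBasisRes ρbar b0 g⁻¹) :
    Module.finrank F (S55.Abs.H0 N) = 0 := by
  have heq' : ∀ (g : GQ) (x : N),
      j (N.ρ g x) * matOfBasisRes ρbar b0 g = matOfBasisRes ρbar b0 g * j x := by
    intro g x
    rw [heq g x, mul_assoc, ← map_mul, inv_mul_cancel, map_one, mul_one]
  have hsub : Subsingleton (S55.Abs.H0 N) := by
    refine ⟨fun x y => ?_⟩
    have hx : x = 0 := Subtype.ext
      (eq_zero_of_invariant ρbar habs h2 b0 N j hinj (map_zero j) htr heq' x.1 x.2)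
    have hy : y = 0 := Subtype.ext
      (eq_zero_of_invariant ρbar habs h2 b0 N j hinj (map_zero j) htr heq' y.1 y.2)
    rw [hx, hy]
  exact Module.finrank_zero_of_subsingleton

end Fermat.Agent.S56.Sel.SchurH0
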