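import Mathlib
import Fermat.Agent.S56.Sel.Contract
import Fermat.Agent.S56.Sel.Hur
import Fermat.Agent.S56.Sel.SchurH0
import Fermat.Agent.S56.Sel.HChi
import Fermat.Agent.S56.Sel.FlatAtPWrap

/-!
# S56, the Selmer junction: the exits

(helper173.)  The bricks of `Sel/Contract.lean` which are theorems on main, and the two exits of
the junction:

* `hH0Statement`                 : `Sel/SchurH0.finrank_H0_eq_zero` (helper49);
* `HChi.hChiStatement_of_ecExit` : `EC.ECExit → HChiStatement` (`Sel/HChi`, `Sel/OddExit`,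
                                   helper188; through `G/ChiExit`, helper254);
* `hpLocFlatStatement_of_lfTop`  : `Flat.LFTopStatement → HpLocFlatStatement`
                                   (`Sel/FlatAtPWrap.hp_loc_flat_of_hyp`, helper229);
* `Hur.hurStatement`             : `Sel/Hur.lean`;
* **`selFlatStatement`** `(hEC : EC.ECExit) (hLF : Flat.LFTopStatement) :
  TangentSel.SelFlatStatement`;
* **`selOrdStatement`** `(hEC : EC.ECExit) (hp : HpLocOrdStatement) :
  TangentSel.SelOrdStatement`.
-/

set_option autoImplicit false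
set_option linter.unusedSectionVars false
set_option linter.style.haveILetI false

open CategoryTheory groupCohomology ExtCitation IsLocalRing

namespace Fermat.Agent.S56.Sel.Exit

open Fermat.Agent.S53.MatRep Fermat.Agent.S55.Abs Fermat.Agent.S55.Count
  Fermat.Agent.S56.TangentAd Fermat.Agent.S56.GW Fermat.Agent.S56.TW.RhoHyp
  Fermat.Agent.S56.Sel Fermat.Agent.S56.Sel.Contract

local notation "Qb" => AlgebraicClosure ℚ
local notation "GQ" => (AlgebraicClosure ℚ ≃ₐ[ℚ] AlgebraicClosure ℚ)
local notation "Mat" => Matrix (Fin 2) (Fin 2)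

/-- **(H0) is a theorem**: Schur's lemma. -/
theorem hH0Statement : HH0Statement := by
  intro 𝒪 _ _ _ _ _ p _ ρbar S Smin hyp _ b0
  exact Fermat.Agent.S56.Sel.SchurH0.finrank_H0_eq_zero ρbar hyp.habs (two_ne_zero_of_hyp hyp) b0
    (adRep (ZMod p) (matOfBasisRes ρbar b0)) (adMat (ZMod p) (matOfBasisRes ρbar b0))
    (adMat_injective _) (adMat_trace _) (adMat_rho_mul _)

/-- **(P-FLAT) from the top statement of brick LF.** -/
theorem hpLocFlatStatement_of_lfTop (hLF : Fermat.Agent.S56.Flat.LFTopStatement) :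
    HpLocFlatStatement := by
  intro 𝒪 _ _ _ _ _ p _ ρbar S Smin hyp _ b0 S₀ _ n r qv _ _ hpT C hT W hCW
  haveI : Module.Finite (ZMod p) (ResidueField 𝒪) := Module.Finite.of_finite
  haveI : Module.Finite (ResidueField 𝒪) C := hT.1
  exact Fermat.Agent.S56.Sel.FlatAtPWrap.hp_loc_flat_of_hyp hLF hyp (fun i => (qv i : ℕ)) b0
    (isAdModel_adRep (matOfBasisRes ρbar b0)) hpT (invS p (S₀ ∪ Finset.univ.image qv)) C
    hT.2.2.2.2 W hCW card_residueField

/-- **(SEL-FLAT)** from the exits of bricks EC and LF. -/
theorem selFlatStatement (hEC : Fermat.Agent.S56.EC.ECExit)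
    (hLF : Fermat.Agent.S56.Flat.LFTopStatement) :
    Fermat.Agent.S56.TangentSel.SelFlatStatement :=
  selFlat_of_bricks hH0Statement (HChi.hChiStatement_of_ecExit hEC) Hur.hurStatement
    (hpLocFlatStatement_of_lfTop hLF)

/-- **(SEL-ORD)** from the exit of brick EC and the strict-ordinary count at `p`. -/
theorem selOrdStatement (hEC : Fermat.Agent.S56.EC.ECExit) (hp : HpLocOrdStatement) :
    Fermat.Agent.S56.TangentSel.SelOrdStatement :=
  selOrd_of_bricks hH0Statement (HChi.hChiStatement_of_ecExit hEC) Hur.hurStatement hp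

end Fermat.Agent.S56.Sel.Exit
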