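/-
S56, the Selmer junction: the brick `HChiStatement` of `Sel/Contract` is a theorem (helper188).

`hChiStatement : Sel.Contract.HChiStatement` = `Sel/HChi.hChiStatement_of_ecExit` applied to the
closed exit of brick EC, `EC.Final.ecExit`.
-/
import Fermat.Agent.S56.Sel.HChi
import Fermat.Agent.S56.EC.Final

set_option autoImplicit false

namespace Fermat.Agent.S56.Sel.HChiFinal

/-- **(CHI) is a theorem.** -/
theorem hChiStatement : Fermat.Agent.S56.Sel.Contract.HChiStatement :=
  Fermat.Agent.S56.Sel.HChi.hChiStatement_of_ecExit Fermat.Agent.S56.EC.Final.ecExit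

end Fermat.Agent.S56.Sel.HChiFinal
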