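/-
S56, SEL junction (helper56): the `hQ` binder of `GW/Numeric.finrank_le_card_mul` from a
Taylor--Wiles set.

`T = S₀ ∪ {qv i}`.  At a prime `v ∈ T` outside `S₀` (so `v = qv i`): `v ≡ 1 mod p`, and the
invariants of the local group at `v` on (any matrix model of) the trace-zero adjoint of `ρbar`
have `𝔽_p`-dimension at most `[k : 𝔽_p]`, because a Frobenius at `v` has two distinct eigenvalues.

* `hQ_of_isTWSet_model` : for any model `(M, mat)` of the adjoint representation;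
* `hQ_of_isTWSet` : for `adRep (ZMod p) (matOfBasisRes ρbar b0)` of `Sel/Defs.lean`.
-/
import Fermat.Agent.S56.GW.Numeric
import Fermat.Agent.S56.Loc.TameH0
import Fermat.Agent.S56.Sel.Defs
import Fermat.Agent.S56.Contract
import Fermat.Agent.Lib.Frobenius
import Fermat.Agent.S55.Glue.UnramLevel

set_option autoImplicit false

open CategoryTheory groupCohomology ExtCitation

namespace Fermat.Agent.S56.Sel.HQ

open Fermat.Agent.S55.Abs Fermat.Agent.S55.Count Fermat.Agent.S53.MatRep Fermat.Agent.S56.Sel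

local notation "GQ" => (AlgebraicClosure ℚ ≃ₐ[ℚ] AlgebraicClosure ℚ)

variable {p : ℕ} [Fact p.Prime] {k : Type} [Field k] [Algebra (ZMod p) k]
  [Module.Finite (ZMod p) k]

/-- **`hQ` from a Taylor--Wiles set, any model.** -/
theorem hQ_of_isTWSet_model (ρbar : ResidualGaloisRep k) (b0 : Module.Basis (Fin 2) k ρbar.V)
    {S : Finset ℕ} {n r : ℕ} (qv : Fin r → Nat.Primes)
    (hTW : Contract.IsTWSet p ρbar S n (fun i => (qv i : ℕ)))
    (S₀ : Finset Nat.Primes) (hpT : pPrime p ∈ S₀ ∪ Finset.univ.image qv)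
    (invT : InvS p (S₀ ∪ Finset.univ.image qv))
    (M : Rep.{0} (ZMod p) GQ) (mat : M →ₗ[ZMod p] Matrix (Fin 2) (Fin 2) k)
    (hinj : Function.Injective mat) (htr : ∀ x, (mat x).trace = 0)
    (heq : ∀ g x, mat (M.ρ g x) * matOfBasisRes ρbar b0 g = matOfBasisRes ρbar b0 g * mat x) :
    ∀ v : ↥(S₀ ∪ Finset.univ.image qv), v.1 ∉ S₀ →
      (v.1 : ℕ) % p = 1 ∧
        Module.finrank (ZMod p) ((dataS p (S₀ ∪ Finset.univ.image qv) hpT invT).LH0 M v) ≤
          Module.finrank (ZMod p) k := by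
  classical
  intro v hv
  have hp : p.Prime := Fact.out
  obtain ⟨i, hi⟩ : ∃ i, qv i = v.1 := by
    have hmem := v.2
    rw [Finset.mem_union] at hmem
    rcases hmem with h | h
    · exact absurd h hv
    · obtain ⟨i, -, hi⟩ := Finset.mem_image.1 h
      exact ⟨i, hi⟩
  obtain ⟨hqprime, -, hdvd⟩ := hTW.2.1 i
  refine ⟨?_, ?_⟩
  · -- `v ≡ 1 mod p`
    rw [← hi]
    have h1 : p ∣ (qv i : ℕ) - 1 := (dvd_pow_self p (Nat.succ_ne_zero n)).trans hdvd
    have h2 : 1 ≤ (qv i : ℕ) := hqprime.one_lt.le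
    obtain ⟨c, hc⟩ := h1
    have h3 : (qv i : ℕ) = p * c + 1 := by omega
    rw [h3, Nat.mul_add_mod, Nat.mod_eq_of_lt hp.one_lt]
  · -- `h⁰ ≤ [k : 𝔽_p]`
    obtain ⟨φ, hφ⟩ := Fermat.Agent.Lib.Frobenius.exists_isFrobeniusAt (primeLocalPlace v.1) v.1.2
      (Fermat.Agent.S55.Glue.UnramLevel.liesOverPrime_primeLocalPlace v.1)
    have hφ' : (primeLocalPlace v.1).IsFrobeniusAt φ ((qv i : ℕ)) := by rw [hi]; exact hφ
    have hP' : (primeLocalPlace v.1).LiesOverPrime ((qv i : ℕ)) := by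
      rw [hi]; exact Fermat.Agent.S55.Glue.UnramLevel.liesOverPrime_primeLocalPlace v.1
    obtain ⟨α, β, hαβ, hchar⟩ := hTW.2.2 i (primeLocalPlace v.1) hP' φ hφ'
    have hchar' : (matOfBasisRes ρbar b0 φ).charpoly =
        (Polynomial.X - Polynomial.C α) * (Polynomial.X - Polynomial.C β) := by
      rw [matOfBasisRes_eq_toMatrix, LinearMap.charpoly_toMatrix]
      exact hchar
    exact Fermat.Agent.S56.Loc.TameH0.finrank_H0_res_le_of_frob_charpoly M mat hinj htr
      (fun g => matOfBasisRes ρbar b0 g) heq v.1 φ hφ hαβ hchar'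

/-- **`hQ` from a Taylor--Wiles set, for the model `adRep` of `Sel/Defs.lean`.** -/
theorem hQ_of_isTWSet (ρbar : ResidualGaloisRep k) (b0 : Module.Basis (Fin 2) k ρbar.V)
    {S : Finset ℕ} {n r : ℕ} (qv : Fin r → Nat.Primes)
    (hTW : Contract.IsTWSet p ρbar S n (fun i => (qv i : ℕ)))
    (S₀ : Finset Nat.Primes) (hpT : pPrime p ∈ S₀ ∪ Finset.univ.image qv)
    (invT : InvS p (S₀ ∪ Finset.univ.image qv)) :
    ∀ v : ↥(S₀ ∪ Finset.univ.image qv), v.1 ∉ S₀ →
      (v.1 : ℕ) % p = 1 ∧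
        Module.finrank (ZMod p) ((dataS p (S₀ ∪ Finset.univ.image qv) hpT invT).LH0
            (adRep (ZMod p) (matOfBasisRes ρbar b0)) v) ≤
          Module.finrank (ZMod p) k :=
  hQ_of_isTWSet_model ρbar b0 qv hTW S₀ hpT invT (adRep (ZMod p) (matOfBasisRes ρbar b0))
    (adMat (ZMod p) (matOfBasisRes ρbar b0)) (adMat_injective _) (adMat_trace _)
    (adMat_rho_mul _)

end Fermat.Agent.S56.Sel.HQ
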